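import Fermat.Agent.HeckeCharFE.Gauss
import Fermat.Agent.ExistenceTheorem.RayMaps

/-!
# Every character is induced by a primitive one
-/

set_option autoImplicit false
set_option linter.style.haveILetI false
set_option linter.unusedSectionVars false

noncomputable section

open NumberField IsDedekindDomain
open FA.Hecke (IsRayChar IsRayElt IsNontrivial coprimeIdeals RayClassGroup rayClass rayClass_eq_iff
  rayClass_surjective rayCharFn rayCharFn_apply isRayChar_rayCharFn span_sup_congr)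
open scoped nonZeroDivisors Classical

namespace FA.HeckeCharFE

variable {K : Type*} [Field K] [NumberField K]

/-- `f` as a character of the ray class group. -/
theorem exists_rayClassHom {𝔪 : Ideal (𝓞 K)} {f : Ideal (𝓞 K) →* ℂ} (h : IsRayChar 𝔪 f) :
    ∃ χ : RayClassGroup 𝔪 →* ℂˣ, ∀ I : coprimeIdeals 𝔪,
      (χ (rayClass h.ne_bot I) : ℂ) = f I.1.1 := by
  have hne : ∀ I : coprimeIdeals 𝔪, f I.1.1 ≠ 0 := fun I =>
    (h.ne_zero_iff _ (nonZeroDivisors.coe_ne_zero I.1)).2 I.2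
  let Φ : coprimeIdeals 𝔪 →* ℂˣ :=
    { toFun := fun I => Units.mk0 _ (hne I)
      map_one' := Units.ext (by simp [Ideal.one_eq_top, ← Ideal.span_singleton_one, h.ray 1 one_ne_zero
        (by simp) (fun φ => by simp)])
      map_mul' := fun I J => Units.ext (by simp) }
  refine ⟨FA.ArtinRec.rayLift h.ne_bot Φ fun I J hIJ => ?_, fun I => ?_⟩
  · obtain ⟨x, y, hx, hy, hxy⟩ := (rayClass_eq_iff h.ne_bot).1 hIJ
    have h1 := congrArg f hxy
    rw [map_mul, map_mul, h.ray x hx.1 hx.2.1 hx.2.2, h.ray y hy.1 hy.2.1 hy.2.2, one_mul,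
      one_mul] at h1
    exact Units.ext h1
  · rw [FA.ArtinRec.rayLift_apply]; rfl

/-- Trivial on the rays of `𝔫`, as far as they are prime to `𝔪`. -/
def FactorsThrough' (𝔪 : Ideal (𝓞 K)) (f : Ideal (𝓞 K) →* ℂ) (𝔫 : Ideal (𝓞 K)) : Prop :=
  ∀ x : 𝓞 K, x ≠ 0 → Ideal.span {x} ⊔ 𝔪 = ⊤ → x - 1 ∈ 𝔫 → (∀ φ : K →+* ℝ, 0 < φ x) →
    f (Ideal.span {x}) = 1

/-- A character trivial on the rays of a larger ideal comes from a character of that modulus. -/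
theorem exists_descend {𝔪 𝔫 : Ideal (𝓞 K)} {f : Ideal (𝓞 K) →* ℂ} (h : IsRayChar 𝔪 f)
    (hle : 𝔪 ≤ 𝔫) (hfac : FactorsThrough' 𝔪 f 𝔫) :
    ∃ g : Ideal (𝓞 K) →* ℂ, IsRayChar 𝔫 g ∧
      ∀ I : Ideal (𝓞 K), I ≠ ⊥ → I ⊔ 𝔪 = ⊤ → g I = f I := by
  have h𝔫 : 𝔫 ≠ ⊥ := fun h0 => h.ne_bot (le_bot_iff.1 (h0 ▸ hle))
  obtain ⟨χ, hχ⟩ := exists_rayClassHom h
  set π := FA.ArtinRec.rayMap h.ne_bot h𝔫 hle
  have hsurj : Function.Surjective π := FA.ArtinRec.rayMap_surjective h.ne_bot h𝔫 hle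
  have hker : π.ker ≤ χ.ker := fun γ hγ => by
    obtain ⟨I, rfl⟩ := rayClass_surjective h.ne_bot γ
    rw [MonoidHom.mem_ker, FA.ArtinRec.rayMap_apply, ← map_one (rayClass h𝔫), rayClass_eq_iff] at hγ
    obtain ⟨a, b, ha, hb, hab⟩ := hγ
    simp only [OneMemClass.coe_one, mul_one] at hab
    have hb' : b ∈ Ideal.span {a} :=
      (Ideal.span_singleton_le_iff_mem _).mp (hab ▸ Ideal.mul_le_left)
    obtain ⟨x, rfl⟩ := Ideal.mem_span_singleton.mp hb'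
    have hx : Ideal.span {x} = I.1.1 := mul_left_cancel₀
      (show Ideal.span {a} ≠ (0 : Ideal (𝓞 K)) by simpa using ha.1)
      (by rw [Ideal.span_singleton_mul_span_singleton, hab])
    refine Units.ext ?_
    rw [hχ, Units.val_one, ← hx]
    refine hfac x (fun h0 => hb.1 (by rw [h0, mul_zero])) (by rw [hx]; exact I.2) ?_ fun φ => ?_
    · rw [show x - 1 = (a * x - 1) - (a - 1) * x by ring]
      exact 𝔫.sub_mem hb.2.1 (𝔫.mul_mem_right _ ha.2.1)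
    · exact (mul_pos_iff_of_pos_left (ha.2.2 φ)).mp (by
        rw [← map_mul, ← _root_.map_mul]; exact hb.2.2 φ)
  set χ₀ : RayClassGroup 𝔫 →* ℂˣ := π.liftOfSurjective hsurj ⟨χ, hker⟩
  refine ⟨rayCharFn h𝔫 χ₀, isRayChar_rayCharFn h𝔫 χ₀, fun I hI hc => ?_⟩
  set I' : coprimeIdeals 𝔪 := ⟨⟨I, mem_nonZeroDivisors_iff_ne_zero.2 hI⟩, hc⟩
  have h0 : χ₀ (π (rayClass h.ne_bot I')) = χ (rayClass h.ne_bot I') :=
    DFunLike.congr_fun (MonoidHom.liftOfRightInverse_comp π _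
      (Function.rightInverse_surjInv hsurj) ⟨χ, hker⟩) _
  rw [FA.ArtinRec.rayMap_apply] at h0
  have h1 := rayCharFn_apply h𝔫 χ₀ ⟨I'.1, FA.ArtinRec.coprimeIdeals_mono hle I'.2⟩
  rw [h0, hχ] at h1
  exact h1

/-- **Every character of finite order is induced by a primitive one.** -/
theorem exists_primitive {𝔪 : Ideal (𝓞 K)} {f : Ideal (𝓞 K) →* ℂ} (h : IsRayChar 𝔪 f) :
    ∃ (𝔣 : Ideal (𝓞 K)) (g : Ideal (𝓞 K) →* ℂ), 𝔪 ≤ 𝔣 ∧ IsRayChar 𝔣 g ∧
      IsPrimitiveChar 𝔣 g ∧ (IsNontrivial f → IsNontrivial g) ∧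
      ∀ I : Ideal (𝓞 K), I ≠ ⊥ → I ⊔ 𝔪 = ⊤ → g I = f I := by
  set T : Set (Ideal (𝓞 K)) := {𝔫 | 𝔪 ≤ 𝔫 ∧ FactorsThrough' 𝔪 f 𝔫}
  obtain ⟨𝔣, ⟨hle, hfac⟩, hmax⟩ := (IsNoetherian.wf (R := 𝓞 K) (M := 𝓞 K)
    inferInstance).has_min T ⟨𝔪, le_rfl, fun x hx _ h1 hp => h.ray x hx h1 hp⟩
  obtain ⟨g, hg, hgf⟩ := exists_descend h hle hfac
  refine ⟨𝔣, g, hle, hg, fun 𝔫 hlt => ?_, fun ⟨I, hI, h0, h1⟩ => ⟨I, hI, ?_, ?_⟩, hgf⟩
  · by_contra hcon
    push Not at hcon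
    refine hmax 𝔫 ⟨hle.trans hlt.le, fun x hx hc h1 hp => ?_⟩ hlt
    rw [← hgf _ (by simpa using hx) hc]
    exact hcon x hx (top_le_iff.1 (hc.ge.trans (sup_le_sup_left hle _))) h1 hp
  · rw [hgf I hI ((h.ne_zero_iff I hI).1 h0)]; exact h0
  · rw [hgf I hI ((h.ne_zero_iff I hI).1 h0)]; exact h1

/-- **The sign set is unique.** -/
theorem hasSigns_unique {𝔪 : Ideal (𝓞 K)} {f : Ideal (𝓞 K) →* ℂ}
    {S S' : Finset (InfinitePlace K)} (h : HasSigns 𝔪 f S) (h' : HasSigns 𝔪 f S') : S = S' := by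
  have key : ∀ {S : Finset (InfinitePlace K)}, HasSigns 𝔪 f S → ∀ w, w.IsReal → ∀ y : 𝓞 K, y ≠ 0 →
      y - 1 ∈ 𝔪 → rv w (y : K) < 0 →
      (∀ w' : InfinitePlace K, w'.IsReal → w' ≠ w → 0 < rv w' (y : K)) →
      f (Ideal.span {y}) = if w ∈ S then -1 else 1 := by
    intro S h w _ y hy0 hy1 hn hpos
    have e : ∀ v ∈ S, (Real.sign (rv v (y : K)) : ℂ) = if w = v then -1 else 1 := fun v hv => by
      by_cases hwv : w = v
      · rw [if_pos hwv, ← hwv, Real.sign_of_neg hn]; simp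
      · rw [if_neg hwv, Real.sign_of_pos (hpos v (h.real v hv) (Ne.symm hwv))]; simp
    rw [h.sgn y hy0 hy1, sgnS, Finset.prod_congr rfl e, Finset.prod_ite_eq]
  ext w
  by_cases hw : w.IsReal
  · obtain ⟨y, hy0, hy1, hn, hpos⟩ := exists_negative_at h.ne_bot hw
    have e := (key h w hw y hy0 hy1 hn hpos).symm.trans (key h' w hw y hy0 hy1 hn hpos)
    split_ifs at e <;> first
      | exact iff_of_true ‹_› ‹_›
      | exact iff_of_false ‹_› ‹_›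
      | norm_num at e
  · exact iff_of_false (fun hS => hw (h.real w hS)) fun hS => hw (h'.real w hS)

end FA.HeckeCharFE
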