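import Fermat.Agent.HeckeCharFE.Unfold
import Fermat.Agent.HeckeFE.Continuation
import Fermat.Agent.NaturalChebotarev.Euler

/-!
# The functional equation of a primitive character

The completed L-series of a nontrivial primitive character is the restriction of an entire function,
`s ↦ 1 - s` multiplies it by `rootC` and conjugates the character, and `rootC` has absolute value `1`.
-/

set_option autoImplicit false
set_option linter.style.haveILetI false
set_option linter.unusedSectionVars false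

noncomputable section

open NumberField InfinitePlace Module MeasureTheory Set Filter Asymptotics Complex
open scoped Real nonZeroDivisors Classical Topology

namespace FA.HeckeCharFE

open FA.Hecke (IsNontrivial heckeL classPart lHom heckeL_eq_sum)
open FA.HeckeFE (repIdeal mk_repIdeal gamFac jac jac_pos summable_ratio)

variable {K : Type*} [Field K] [NumberField K]

theorem conjChar_conjChar (f : Ideal (𝓞 K) →* ℂ) : conjChar (conjChar f) = f :=
  MonoidHom.ext fun I => Complex.conj_conj (f I)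

variable (K) in
/-- The factor completing the L-series, `(|d| N𝔪)^(s/2) Γℝ(s)^(r₁ - |S|) Γℝ(s + 1)^|S| Γℂ(s)^r₂`. -/
def charFac (𝔪 : Ideal (𝓞 K)) (S : Finset (InfinitePlace K)) (s : ℂ) : ℂ :=
  (((discr K).natAbs * Ideal.absNorm 𝔪 : ℕ) : ℂ) ^ (s / 2) *
    (Gammaℝ s ^ (nrRealPlaces K - S.card) * Gammaℝ (s + 1) ^ S.card *
      Gammaℂ s ^ nrComplexPlaces K)

theorem card_le_nrRealPlaces {S : Finset (InfinitePlace K)} (hS : ∀ w ∈ S, IsReal w) :
    S.card ≤ nrRealPlaces K := by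
  rw [nrRealPlaces, Fintype.card_subtype]
  exact Finset.card_le_card fun w hw => Finset.mem_filter.2 ⟨Finset.mem_univ _, hS w hw⟩

/-- The classes of the dual ideals. -/
theorem mk_dualAt (𝔪 : Ideal (𝓞 K)) (I : (FractionalIdeal (𝓞 K)⁰ K)ˣ) :
    (ClassGroup.mk K (dualAt 𝔪 I))⁻¹ = (ClassGroup.mk K (dualAt 𝔪 1))⁻¹ * ClassGroup.mk K I := by
  have h := congrArg (ClassGroup.mk K) (dualAt_mul 𝔪 I)
  rw [map_mul] at h
  rw [← h, mul_inv, mul_assoc, inv_mul_cancel, mul_one]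

/-- The involution of the classes. -/
def dualClass (𝔪 : Ideal (𝓞 K)) : ClassGroup (𝓞 K) ≃ ClassGroup (𝓞 K) :=
  (Equiv.inv (ClassGroup (𝓞 K))).trans (Equiv.mulLeft (ClassGroup.mk K (dualAt 𝔪 1))⁻¹)

theorem mk_dualAt_rep (𝔪 : Ideal (𝓞 K)) (C : ClassGroup (𝓞 K)) :
    (ClassGroup.mk K (dualAt 𝔪 (repIdeal K C)))⁻¹ = dualClass 𝔪 C := by
  rw [mk_dualAt, inv_eq_iff_eq_inv.1 (mk_repIdeal C)]
  rfl

theorem Gammaℝ_conj' (s : ℂ) : Gammaℝ (starRingEnd ℂ s) = starRingEnd ℂ (Gammaℝ s) := by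
  rw [Gammaℝ_def, Gammaℝ_def, map_mul, ← Complex.Gamma_conj, map_div₀, map_ofNat]
  congr 1
  rw [show -(starRingEnd ℂ s) / 2 = starRingEnd ℂ (-s / 2) by rw [map_div₀, map_neg, map_ofNat],
    Complex.cpow_conj _ _ (by rw [Complex.arg_ofReal_of_nonneg Real.pi_pos.le]; exact Real.pi_ne_zero.symm),
    Complex.conj_ofReal]

theorem Gammaℂ_conj' (s : ℂ) : Gammaℂ (starRingEnd ℂ s) = starRingEnd ℂ (Gammaℂ s) := by
  rw [Gammaℂ_def, Gammaℂ_def, map_mul, map_mul, ← Complex.Gamma_conj, map_ofNat]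
  have h2 : (2 : ℂ) * (π : ℂ) = ((2 * π : ℝ) : ℂ) := by push_cast; ring
  congr 2
  rw [h2, show -(starRingEnd ℂ s) = starRingEnd ℂ (-s) by simp,
    Complex.cpow_conj _ _ (by
      rw [Complex.arg_ofReal_of_nonneg (by positivity)]; exact Real.pi_ne_zero.symm),
    Complex.conj_ofReal]

theorem charFac_conj (𝔪 : Ideal (𝓞 K)) (S : Finset (InfinitePlace K)) (s : ℂ) :
    charFac K 𝔪 S (starRingEnd ℂ s) = starRingEnd ℂ (charFac K 𝔪 S s) := by
  simp only [charFac, map_mul, map_pow, ← Gammaℝ_conj', ← Gammaℂ_conj', map_add, map_one]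
  congr 1
  rw [show starRingEnd ℂ s / 2 = starRingEnd ℂ (s / 2) by rw [map_div₀, map_ofNat],
    Complex.cpow_conj _ _ (by rw [natCast_arg]; exact Real.pi_ne_zero.symm), map_natCast]

namespace HasSigns

variable {𝔪 : Ideal (𝓞 K)} {f : Ideal (𝓞 K) →* ℂ} {S : Finset (InfinitePlace K)}
  (h : HasSigns 𝔪 f S) (hp : IsPrimitiveChar 𝔪 f) (I : (FractionalIdeal (𝓞 K)⁰ K)ˣ)

include h

theorem charFac_ne_zero {s : ℂ} (hs : 0 < s.re) : charFac K 𝔪 S s ≠ 0 := by
  have hn : (((discr K).natAbs * Ideal.absNorm 𝔪 : ℕ) : ℂ) ≠ 0 := Nat.cast_ne_zero.2 (mul_ne_zero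
    (Int.natAbs_ne_zero.2 (discr_ne_zero K)) fun h0 => h.ne_bot (Ideal.absNorm_eq_zero_iff.1 h0))
  have hC : Gammaℂ s ≠ 0 := by
    rw [← Gammaℝ_mul_Gammaℝ_add_one]
    exact mul_ne_zero (Gammaℝ_ne_zero_of_re_pos hs)
      (Gammaℝ_ne_zero_of_re_pos (by simp; linarith))
  exact mul_ne_zero (cpow_ne_zero_iff.2 (Or.inl hn)) (mul_ne_zero (mul_ne_zero
    (pow_ne_zero _ (Gammaℝ_ne_zero_of_re_pos hs))
    (pow_ne_zero _ (Gammaℝ_ne_zero_of_re_pos (by simp; linarith)))) (pow_ne_zero _ hC))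

theorem orbitFac_eq {σ : ℂ} (hσ : 0 < σ.re) :
    ((Ideal.absNorm 𝔪 : ℝ) : ℂ) ^ σ * orbitFac K S σ = charFac K 𝔪 S (2 * σ) / (jac K : ℂ) := by
  obtain ⟨k, hk⟩ := Nat.exists_eq_add_of_le' (card_le_nrRealPlaces h.real)
  have hG : Gammaℝ (2 * σ) ≠ 0 := Gammaℝ_ne_zero_of_re_pos (by simpa using hσ)
  rw [orbitFac, charFac, gamFac, Nat.cast_mul, natCast_mul_natCast_cpow, hk, Nat.add_sub_cancel,
    pow_add, div_pow, mul_div_cancel_left₀ σ two_ne_zero, ofReal_natCast]
  field_simp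

include hp in
theorem charKern_feq {τ : ℝ} (hτ : 0 < τ) :
    charKern 𝔪 f S I (1 / τ) = ((1 : ℂ) * ((τ ^ (1 / 2 : ℝ) : ℝ) : ℂ)) •
      (rootC 𝔪 f S * charKern 𝔪 (conjChar f) S (dualAt 𝔪 I) τ) := by
  rw [h.charKern_one_div I hp hτ, smul_eq_mul]
  ring

/-- The pair of the kernels of a character and its conjugate. -/
def charPair : WeakFEPair ℂ where
  f := charKern 𝔪 f S I
  g τ := rootC 𝔪 f S * charKern 𝔪 (conjChar f) S (dualAt 𝔪 I) τ
  k := 1 / 2
  ε := 1
  f₀ := constTerm 𝔪 f S I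
  g₀ := rootC 𝔪 f S * constTerm 𝔪 (conjChar f) S (dualAt 𝔪 I)
  hf_int := h.locallyIntegrableOn_charKern I
  hg_int := ((h.conj.continuousOn_charKern (dualAt 𝔪 I)).const_mul _).locallyIntegrableOn
    measurableSet_Ioi
  hk := by norm_num
  hε := one_ne_zero
  h_feq _ hx := h.charKern_feq hp I hx
  hf_top := h.charKern_sub_isBigO I
  hg_top r := by
    simpa only [← mul_sub] using (h.conj.charKern_sub_isBigO (dualAt 𝔪 I) r).const_mul_left _

theorem mellin_half {σ : ℂ} (hσ : 1 / 2 < σ.re) :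
    mellin (fun τ => charKern 𝔪 f S I τ - constTerm 𝔪 f S I) σ =
      charFac K 𝔪 S (2 * σ) / (jac K : ℂ) *
        (Units.torsionOrder K * classPart f (ClassGroup.mk K I)⁻¹ (2 * σ)) := by
  have hs : 1 < (2 * σ).re := by
    simp only [mul_re, re_ofNat, im_ofNat, zero_mul, sub_zero]; linarith
  rw [h.mellin_charKern I (by linarith) (summable_ratio I (by linarith)), h.charCone_eq I hs,
    ← mul_assoc, h.orbitFac_eq (by linarith)]

theorem Λ₀_half {σ : ℂ} (hσ : 1 / 2 < σ.re) :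
    (h.charPair hp I).Λ₀ σ = charFac K 𝔪 S (2 * σ) / (jac K : ℂ) *
        (Units.torsionOrder K * classPart f (ClassGroup.mk K I)⁻¹ (2 * σ)) +
      1 / σ * constTerm 𝔪 f S I + 1 / (1 / 2 - σ) *
        (rootC 𝔪 f S * constTerm 𝔪 (conjChar f) S (dualAt 𝔪 I)) := by
  rw [WeakFEPair.Λ₀_eq, ← ((h.charPair hp I).hasMellin (s := σ)
    (by simp only [charPair]; linarith)).2, ← h.mellin_half I hσ]
  simp [charPair]

theorem symm_Λ₀_half {σ : ℂ} (hσ : 1 / 2 < σ.re) :
    (h.charPair hp I).symm.Λ₀ σ = rootC 𝔪 f S * (charFac K 𝔪 S (2 * σ) / (jac K : ℂ) *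
        (Units.torsionOrder K *
          classPart (conjChar f) (ClassGroup.mk K (dualAt 𝔪 I))⁻¹ (2 * σ)) +
      1 / σ * constTerm 𝔪 (conjChar f) S (dualAt 𝔪 I)) +
      1 / (1 / 2 - σ) * constTerm 𝔪 f S I := by
  rw [WeakFEPair.symm_Λ₀_eq, ← ((h.charPair hp I).symm.hasMellin (s := σ)
    (by simp only [WeakFEPair.symm, charPair]; linarith)).2, ← h.conj.mellin_half (dualAt 𝔪 I) hσ]
  have hm : mellin (fun τ => rootC 𝔪 f S * charKern 𝔪 (conjChar f) S (dualAt 𝔪 I) τ -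
      rootC 𝔪 f S * constTerm 𝔪 (conjChar f) S (dualAt 𝔪 I)) σ = rootC 𝔪 f S *
        mellin (fun τ => charKern 𝔪 (conjChar f) S (dualAt 𝔪 I) τ -
          constTerm 𝔪 (conjChar f) S (dualAt 𝔪 I)) σ := by
    rw [show (fun τ => rootC 𝔪 f S * charKern 𝔪 (conjChar f) S (dualAt 𝔪 I) τ -
        rootC 𝔪 f S * constTerm 𝔪 (conjChar f) S (dualAt 𝔪 I)) =
      fun τ => rootC 𝔪 f S • (charKern 𝔪 (conjChar f) S (dualAt 𝔪 I) τ -
        constTerm 𝔪 (conjChar f) S (dualAt 𝔪 I)) from funext fun τ => by rw [smul_eq_mul, mul_sub],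
      mellin_const_smul, smul_eq_mul]
  simp [charPair, WeakFEPair.symm, hm]
  ring_nf
  rfl

theorem constTerm_eq_zero (hne : ¬(𝔪 = ⊤ ∧ S = ∅)) : constTerm 𝔪 f S I = 0 := by
  rw [constTerm]
  by_cases hS : S = ∅
  · rw [if_pos hS, mul_one, res, if_pos (FA.HeckeFE.zero_mem_ideal I)]
    have h0 : toInt 𝔪 I 0 = 0 := RingOfIntegers.coe_injective (by
      have he : algebraMap (𝓞 K) K (toInt 𝔪 I 0) = gam 𝔪 I * 0 :=
        (toInt_spec 𝔪 (FA.HeckeFE.zero_mem_ideal I)).1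
      rw [he, mul_zero, map_zero])
    rw [h0, h.resFn_eq_zero, mul_zero]
    rw [Ideal.span_singleton_eq_bot.2 rfl, bot_sup_eq]
    exact fun htop => hne ⟨htop, hS⟩
  · rw [if_neg hS, mul_zero]

theorem constTerm_eq_of_top (htop : 𝔪 = ⊤) (hS : S = ∅) (A : (Ideal (𝓞 K))⁰)
    (hA : ClassGroup.mk0 A = (ClassGroup.mk K I)⁻¹) : constTerm 𝔪 f S I = f A.1 := by
  have h1 : ClassGroup.mk K (FractionalIdeal.mk0 K A * I) = 1 := by
    rw [map_mul, ClassGroup.mk_mk0, hA, inv_mul_cancel]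
  obtain ⟨x, hx⟩ := (FractionalIdeal.isPrincipal_iff _).1 (ClassGroup.mk_eq_one_iff.1 h1)
  have hx' : (A.1 : FractionalIdeal (𝓞 K)⁰ K) * I = FractionalIdeal.spanSingleton (𝓞 K)⁰ x := by
    rw [← hx, Units.val_mul]; rfl
  have hxI : x ∈ (I : Set K) :=
    (mul_le_mul' FractionalIdeal.coeIdeal_le_one le_rfl).trans (one_mul _).le
      (hx' ▸ FractionalIdeal.mem_spanSingleton_self _ _)
  have hx0 : x ≠ 0 := fun h0 => by
    rw [h0, FractionalIdeal.spanSingleton_zero, mul_eq_zero, FractionalIdeal.coeIdeal_eq_zero] at hx'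
    exact hx'.elim (nonZeroDivisors.coe_ne_zero A) I.ne_zero
  rw [constTerm, if_pos hS, mul_one,
    h.res_congr I (FA.HeckeFE.zero_mem_ideal I) hxI (by
      rw [htop, FractionalIdeal.coeIdeal_top, mul_one, zero_sub]
      exact Submodule.neg_mem _ hxI),
    h.res_eq I hxI hx0 hx', hS]
  simp [sgnS]

theorem sum_constTerm (hnt : IsNontrivial f) (J : ClassGroup (𝓞 K) → (FractionalIdeal (𝓞 K)⁰ K)ˣ)
    (hJ : Function.Bijective fun C => (ClassGroup.mk K (J C))⁻¹) :
    ∑ C, constTerm 𝔪 f S (J C) = 0 := by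
  by_cases hne : 𝔪 = ⊤ ∧ S = ∅
  swap
  · exact Finset.sum_eq_zero fun C _ => h.constTerm_eq_zero (J C) hne
  obtain ⟨htop, hS⟩ := hne
  choose A hA using fun C : ClassGroup (𝓞 K) => ClassGroup.mk0_surjective C
  set χ : ClassGroup (𝓞 K) → ℂ := fun C => f (A C).1
  have hval : ∀ C, constTerm 𝔪 f S (J C) = χ (ClassGroup.mk K (J C))⁻¹ := fun C =>
    h.constTerm_eq_of_top (J C) htop hS _ (hA _)
  have hcl : ∀ B : (Ideal (𝓞 K))⁰, f B.1 = χ (ClassGroup.mk0 B) := fun B => by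
    obtain ⟨x, y, hx0, hy0, hxy⟩ := ClassGroup.mk0_eq_mk0_iff.1 (hA (ClassGroup.mk0 B)).symm
    have hf : ∀ z : 𝓞 K, z ≠ 0 → f (Ideal.span {z}) = 1 := fun z hz => by
      rw [h.sgn z hz (by simp [htop]), hS]
      simp [sgnS]
    simpa [map_mul, hf x hx0, hf y hy0] using congrArg f hxy
  rw [Finset.sum_congr rfl fun C _ => hval C, hJ.sum_comp χ]
  obtain ⟨B, hB, hB0, hB1⟩ := hnt
  set B' : (Ideal (𝓞 K))⁰ := ⟨B, mem_nonZeroDivisors_iff_ne_zero.2 hB⟩
  have hmul : ∀ C, χ (ClassGroup.mk0 B' * C) = f B * χ C := fun C => by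
    rw [show χ C = f (A C).1 from rfl, ← hA C, ← map_mul, ← hcl, hA C, Submonoid.coe_mul, map_mul]
  have hsum : f B * ∑ C, χ C = ∑ C, χ C := by
    rw [Finset.mul_sum, ← Finset.sum_congr rfl fun C _ => hmul C]
    exact Equiv.sum_comp (Equiv.mulLeft (ClassGroup.mk0 B')) χ
  exact (mul_eq_zero.1 (show (f B - 1) * ∑ C, χ C = 0 by rw [sub_mul, one_mul, hsum, sub_self])
    ).resolve_left (sub_ne_zero.2 hB1)

/-- **The completed L-series.** -/
def completedL (s : ℂ) : ℂ :=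
  (jac K : ℂ) / (Units.torsionOrder K : ℂ) *
    ∑ C : ClassGroup (𝓞 K), (h.charPair hp (repIdeal K C)).Λ₀ (s / 2)

theorem differentiable_completedL : Differentiable ℂ (h.completedL hp) :=
  (Differentiable.fun_sum fun C _ => ((h.charPair hp (repIdeal K C)).differentiable_Λ₀.comp
    (differentiable_id.div_const 2))).const_mul _

theorem bijective_rep :
    Function.Bijective fun C => (ClassGroup.mk K (repIdeal K C))⁻¹ := by
  simp only [mk_repIdeal]
  exact Function.bijective_id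

theorem bijective_dual :
    Function.Bijective fun C => (ClassGroup.mk K (dualAt 𝔪 (repIdeal K C)))⁻¹ := by
  simp only [mk_dualAt_rep]
  exact (dualClass 𝔪).bijective

theorem completedL_half (hnt : IsNontrivial f) {s : ℂ} (hs : 1 < s.re) :
    h.completedL hp s = charFac K 𝔪 S s * heckeL f s := by
  have hσ : 1 / 2 < (s / 2).re := by simp only [div_ofNat_re]; linarith
  rw [completedL, Finset.sum_congr rfl fun C _ => h.Λ₀_half hp (repIdeal K C) hσ]
  simp only [mk_repIdeal, mul_div_cancel₀ s two_ne_zero, Finset.sum_add_distrib, ← Finset.mul_sum]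
  rw [h.sum_constTerm hnt _ h.bijective_rep, h.conj.sum_constTerm hnt.conj _ h.bijective_dual,
    ← heckeL_eq_sum h.ray hs]
  have : (jac K : ℂ) ≠ 0 := ofReal_ne_zero.2 jac_pos.ne'
  have : (Units.torsionOrder K : ℂ) ≠ 0 := Nat.cast_ne_zero.2 (Units.torsionOrder_pos K).ne'
  simp only [mul_zero, add_zero]
  field_simp

theorem completedL_one_sub (hnt : IsNontrivial f) (s : ℂ) :
    h.completedL hp (1 - s) = rootC 𝔪 f S * h.conj.completedL hp.conj s := by
  set G : ℂ → ℂ := fun s => (jac K : ℂ) / (Units.torsionOrder K : ℂ) *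
    ∑ C : ClassGroup (𝓞 K), (h.charPair hp (repIdeal K C)).symm.Λ₀ (s / 2) with hG
  have hFE : ∀ s, h.completedL hp (1 - s) = G s := fun s => by
    rw [completedL, hG]
    congr 1
    refine Finset.sum_congr rfl fun C _ => ?_
    have hfe := (h.charPair hp (repIdeal K C)).functional_equation₀ (s / 2)
    rwa [show ((h.charPair hp (repIdeal K C)).k : ℂ) - s / 2 = (1 - s) / 2 by simp [charPair]; ring,
      show (h.charPair hp (repIdeal K C)).ε = 1 from rfl, one_smul] at hfe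
  have hdiff : Differentiable ℂ G := (Differentiable.fun_sum fun C _ =>
    ((h.charPair hp (repIdeal K C)).symm.differentiable_Λ₀.comp
      (differentiable_id.div_const 2))).const_mul _
  rw [hFE]
  refine congrFun (FA.PrimeIdeal.eq_of_eq_halfPlane hdiff
    ((h.conj.differentiable_completedL hp.conj).const_mul _) fun t ht => ?_) s
  have hσ : 1 / 2 < (t / 2).re := by simp only [div_ofNat_re]; linarith
  rw [h.conj.completedL_half hp.conj hnt.conj ht, hG]
  simp only [h.symm_Λ₀_half hp _ hσ, mk_dualAt_rep, mul_div_cancel₀ t two_ne_zero,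
    Finset.sum_add_distrib, ← Finset.mul_sum]
  rw [h.sum_constTerm hnt _ h.bijective_rep, h.conj.sum_constTerm hnt.conj _ h.bijective_dual,
    (dualClass 𝔪).sum_comp fun C => classPart (conjChar f) C t, ← heckeL_eq_sum h.conj.ray ht]
  have : (jac K : ℂ) ≠ 0 := ofReal_ne_zero.2 jac_pos.ne'
  have : (Units.torsionOrder K : ℂ) ≠ 0 := Nat.cast_ne_zero.2 (Units.torsionOrder_pos K).ne'
  simp only [mul_zero, add_zero]
  field_simp

theorem completedL_conj (hnt : IsNontrivial f) (s : ℂ) :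
    h.conj.completedL hp.conj s = starRingEnd ℂ (h.completedL hp (starRingEnd ℂ s)) := by
  refine congrFun (FA.PrimeIdeal.eq_of_eq_halfPlane
    (g := fun z => starRingEnd ℂ (h.completedL hp (starRingEnd ℂ z)))
    (h.conj.differentiable_completedL hp.conj) (fun z => ?_) fun t ht => ?_) s
  · have hd := (h.differentiable_completedL hp (starRingEnd ℂ z)).conj_conj
    rwa [Complex.conj_conj] at hd
  rw [h.conj.completedL_half hp.conj hnt.conj ht, h.completedL_half hp hnt (by simpa using ht),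
    map_mul, ← charFac_conj, Complex.conj_conj, heckeL, heckeL, conj_tsum]
  congr 1
  refine tsum_congr fun J => ?_
  rw [FA.Hecke.lHom_apply, FA.Hecke.lHom_apply, map_mul]
  congr 1
  show _ ^ (-t) = starRingEnd ℂ (_ ^ (-(starRingEnd ℂ t)))
  rw [← map_neg, Complex.cpow_conj _ _ (by rw [natCast_arg]; exact Real.pi_ne_zero.symm),
    map_natCast, Complex.conj_conj]

include hp in
/-- **The root number has absolute value `1`.** -/
theorem norm_rootC (hnt : IsNontrivial f) : ‖rootC 𝔪 f S‖ = 1 := by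
  have hEE : ∀ s, h.completedL hp s =
      rootC 𝔪 f S * starRingEnd ℂ (rootC 𝔪 f S) * h.completedL hp s := fun s => by
    have h1 := h.completedL_one_sub hp hnt (1 - s)
    have h2 := h.completedL_one_sub hp hnt (starRingEnd ℂ s)
    rw [sub_sub_cancel, h.completedL_conj hp hnt,
      show starRingEnd ℂ (1 - s) = 1 - starRingEnd ℂ s by simp, h2, map_mul,
      h.completedL_conj hp hnt, Complex.conj_conj, Complex.conj_conj, ← mul_assoc] at h1
    exact h1
  have hne : h.completedL hp 2 ≠ 0 := by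
    rw [h.completedL_half hp hnt (by norm_num)]
    exact mul_ne_zero (h.charFac_ne_zero (by norm_num)) (h.ray.heckeL_ne_zero (by norm_num))
  have h1 : rootC 𝔪 f S * starRingEnd ℂ (rootC 𝔪 f S) = 1 :=
    mul_right_cancel₀ hne ((hEE 2).symm.trans (one_mul _).symm)
  rw [Complex.mul_conj'] at h1
  exact (pow_eq_one_iff_of_nonneg (norm_nonneg _) two_ne_zero).1 (by exact_mod_cast h1)

include hp in
theorem norm_gaussW (hnt : IsNontrivial f) : ‖gaussW 𝔪 f S‖ = √(Ideal.absNorm 𝔪 : ℝ) := by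
  have h1 := h.norm_rootC hp hnt
  rw [rootC, norm_div, norm_mul, norm_pow, norm_neg, Complex.norm_I, one_pow, one_mul, norm_real,
    Real.norm_of_nonneg (Real.sqrt_nonneg _)] at h1
  exact (div_eq_one_iff_eq (Real.sqrt_pos.2 (absNorm_pos' h.ne_bot)).ne').1 h1

end HasSigns

end FA.HeckeCharFE
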