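import Fermat.Agent.HeckeCharFE.Residue

/-!
# Gauss sums of primitive characters

For a primitive `f` modulo `𝔪` the sum `∑ resFn b exp (2 π i Tr (w b))` over the residues `b`
modulo `𝔪`, `w` in the dual `(𝔪 𝔇)⁻¹` of `𝔪`, is a constant `gaussW` times the conjugate character
at `w`. Hence for every fractional ideal `I` the sums over `I / 𝔪 I` give the same constant.
-/

set_option autoImplicit false
set_option linter.style.haveILetI false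
set_option linter.unusedSectionVars false

noncomputable section

open NumberField InfinitePlace Complex Module
open scoped Real nonZeroDivisors Classical

namespace FA.HeckeCharFE

open FA.HeckeFE (dualIdeal coe_dualIdeal)

variable {K : Type*} [Field K] [NumberField K]

/-- **Primitive**: not trivial on the rays of a larger ideal. -/
def IsPrimitiveChar (𝔪 : Ideal (𝓞 K)) (f : Ideal (𝓞 K) →* ℂ) : Prop :=
  ∀ 𝔫 : Ideal (𝓞 K), 𝔪 < 𝔫 → ∃ x : 𝓞 K, x ≠ 0 ∧ Ideal.span {x} ⊔ 𝔪 = ⊤ ∧ x - 1 ∈ 𝔫 ∧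
    (∀ φ : K →+* ℝ, 0 < φ x) ∧ f (Ideal.span {x}) ≠ 1

/-- The conjugate character. -/
abbrev conjChar (f : Ideal (𝓞 K) →* ℂ) : Ideal (𝓞 K) →* ℂ :=
  (starRingEnd ℂ).toMonoidHom.comp f

theorem IsPrimitiveChar.conj {𝔪 : Ideal (𝓞 K)} {f : Ideal (𝓞 K) →* ℂ} (h : IsPrimitiveChar 𝔪 f) :
    IsPrimitiveChar 𝔪 (conjChar f) := fun 𝔫 hn => by
  obtain ⟨x, h0, h1, h2, h3, h4⟩ := h 𝔫 hn
  exact ⟨x, h0, h1, h2, h3, fun he =>
    h4 ((starRingEnd ℂ).injective (he.trans (map_one (starRingEnd ℂ)).symm))⟩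

/-- A nonzero modulus as a fractional ideal. -/
def modUnit (𝔪 : Ideal (𝓞 K)) : (FractionalIdeal (𝓞 K)⁰ K)ˣ :=
  if h : 𝔪 = ⊥ then 1 else FractionalIdeal.mk0 K ⟨𝔪, mem_nonZeroDivisors_iff_ne_zero.2 h⟩

theorem coe_modUnit {𝔪 : Ideal (𝓞 K)} (h : 𝔪 ≠ ⊥) :
    (modUnit 𝔪 : FractionalIdeal (𝓞 K)⁰ K) = (𝔪 : FractionalIdeal (𝓞 K)⁰ K) := by
  rw [modUnit, dif_neg h]; rfl

/-- The dual of `𝔪 I`, that is `(𝔪 I 𝔇)⁻¹`. -/
def dualAt (𝔪 : Ideal (𝓞 K)) (I : (FractionalIdeal (𝓞 K)⁰ K)ˣ) :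
    (FractionalIdeal (𝓞 K)⁰ K)ˣ :=
  dualIdeal (I * modUnit 𝔪)

theorem dualIdeal_mul (I M : (FractionalIdeal (𝓞 K)⁰ K)ˣ) :
    dualIdeal (I * M) * I = dualIdeal M := by
  refine Units.ext ?_
  rw [Units.val_mul, coe_dualIdeal, coe_dualIdeal, Units.val_mul,
    FractionalIdeal.dual_eq_mul_inv ℤ ℚ (I := (I : FractionalIdeal (𝓞 K)⁰ K) * (M : FractionalIdeal (𝓞 K)⁰ K)),
    FractionalIdeal.dual_eq_mul_inv ℤ ℚ (I := (M : FractionalIdeal (𝓞 K)⁰ K)), mul_inv, mul_assoc,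
    mul_right_comm, inv_mul_cancel₀ I.ne_zero, one_mul]

theorem trChar_mul_eq_one {M : (FractionalIdeal (𝓞 K)⁰ K)ˣ} {z m : K}
    (hz : z ∈ (dualIdeal M : Set K)) (hm : m ∈ (M : Set K)) : trChar (z * m) = 1 := by
  have hz' : z ∈ FractionalIdeal.dual ℤ ℚ (M : FractionalIdeal (𝓞 K)⁰ K) := hz
  obtain ⟨n, hn⟩ := (FractionalIdeal.mem_dual M.ne_zero).1 hz' m hm
  rw [Algebra.traceForm_apply] at hn
  exact trChar_eq_one_of_int (n := n) (by rw [← hn]; simp)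

theorem dualAt_one (𝔪 : Ideal (𝓞 K)) : dualAt 𝔪 1 = dualIdeal (modUnit 𝔪) := by
  rw [dualAt, one_mul]

theorem dualAt_mul (𝔪 : Ideal (𝓞 K)) (I : (FractionalIdeal (𝓞 K)⁰ K)ˣ) :
    dualAt 𝔪 I * I = dualAt 𝔪 1 := by
  rw [dualAt_one, dualAt, dualIdeal_mul]

theorem trChar_dualAt {𝔪 : Ideal (𝓞 K)} (h : 𝔪 ≠ ⊥) {w : K} {m : 𝓞 K}
    (hw : w ∈ (dualAt 𝔪 1 : Set K)) (hm : m ∈ 𝔪) : trChar (w * m) = 1 := by
  rw [dualAt_one] at hw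
  refine trChar_mul_eq_one hw ?_
  show (m : K) ∈ (modUnit 𝔪 : FractionalIdeal (𝓞 K)⁰ K)
  rw [coe_modUnit h]
  exact (FractionalIdeal.mem_coeIdeal _).2 ⟨m, hm, rfl⟩

theorem trChar_eq_one_of_mem_mul {𝔪 : Ideal (𝓞 K)} (h : 𝔪 ≠ ⊥) {v : K}
    (hv : v ∈ (dualAt 𝔪 1 : FractionalIdeal (𝓞 K)⁰ K) * (𝔪 : FractionalIdeal (𝓞 K)⁰ K)) :
    trChar v = 1 := by
  have h1 : dualIdeal (modUnit 𝔪) * modUnit 𝔪 = dualIdeal (1 : (FractionalIdeal (𝓞 K)⁰ K)ˣ) := by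
    conv_lhs => rw [← mul_one (modUnit 𝔪)]
    rw [mul_one]
    simpa using dualIdeal_mul (modUnit 𝔪) 1
  rw [dualAt_one, ← coe_modUnit h, ← Units.val_mul, h1] at hv
  simpa using trChar_mul_eq_one (M := 1) hv (m := 1) (by
    show (1 : K) ∈ ((1 : (FractionalIdeal (𝓞 K)⁰ K)ˣ) : FractionalIdeal (𝓞 K)⁰ K)
    rw [Units.val_one]
    exact FractionalIdeal.one_mem_one _)

/-- **The Gauss sum of `f` at `w`.** -/
def gaussSumAt (𝔪 : Ideal (𝓞 K)) (f : Ideal (𝓞 K) →* ℂ) (S : Finset (InfinitePlace K)) (w : K) : ℂ :=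
  ∑' b : 𝓞 K ⧸ 𝔪, resFn 𝔪 f S b.out * trChar (w * (b.out : K))

theorem exists_one_mem {𝔪 J : Ideal (𝓞 K)} (h : J ⊔ 𝔪 = ⊤) (hJ : J ≠ ⊥) :
    ∃ e : 𝓞 K, e ∈ J ∧ e - 1 ∈ 𝔪 ∧ e ≠ 0 := by
  obtain ⟨a, ha, b, hb, hab⟩ := Submodule.mem_sup.1 ((Ideal.eq_top_iff_one _).1 h)
  have ha1 : a - 1 ∈ 𝔪 := by rw [← hab, sub_add_cancel_left]; exact 𝔪.neg_mem hb
  rcases ne_or_eq a 0 with ha0 | rfl
  · exact ⟨a, ha, ha1, ha0⟩
  · obtain ⟨c, hc, hc0⟩ := Submodule.exists_mem_ne_zero_of_ne_bot hJ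
    have htop : 𝔪 = ⊤ := (Ideal.eq_top_iff_one _).2 (by simpa using 𝔪.neg_mem ha1)
    exact ⟨c, hc, by simp [htop], hc0⟩

/-- An integer in `intIdeal` congruent to `1`. -/
def unitElt (𝔪 : Ideal (𝓞 K)) (I : (FractionalIdeal (𝓞 K)⁰ K)ˣ) : 𝓞 K :=
  if h : intIdeal 𝔪 I ⊔ 𝔪 = ⊤ then (exists_one_mem h (intIdeal_spec 𝔪 I).2.1).choose else 1

theorem unitElt_spec {𝔪 : Ideal (𝓞 K)} (h : 𝔪 ≠ ⊥) (I : (FractionalIdeal (𝓞 K)⁰ K)ˣ) :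
    unitElt 𝔪 I ∈ intIdeal 𝔪 I ∧ unitElt 𝔪 I - 1 ∈ 𝔪 ∧ unitElt 𝔪 I ≠ 0 := by
  rw [unitElt, dif_pos ((intIdeal_spec 𝔪 I).2.2.2 h)]
  exact (exists_one_mem ((intIdeal_spec 𝔪 I).2.2.2 h) (intIdeal_spec 𝔪 I).2.1).choose_spec

/-- A representative of a residue in `I`. -/
def cosetRep (𝔪 : Ideal (𝓞 K)) (I : (FractionalIdeal (𝓞 K)⁰ K)ˣ) (b : 𝓞 K ⧸ 𝔪) : K :=
  (gam 𝔪 I)⁻¹ * ((unitElt 𝔪 I * b.out : 𝓞 K) : K)

/-- **The constant of the functional equation, up to its normalisation.** -/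
def gaussW (𝔪 : Ideal (𝓞 K)) (f : Ideal (𝓞 K) →* ℂ) (S : Finset (InfinitePlace K)) : ℂ :=
  gaussSumAt 𝔪 f S ((gam 𝔪 (dualAt 𝔪 1))⁻¹ * (unitElt 𝔪 (dualAt 𝔪 1) : K)) *
    sgnS S (gam 𝔪 (dualAt 𝔪 1)) / f (intIdeal 𝔪 (dualAt 𝔪 1))

namespace HasSigns

variable {𝔪 : Ideal (𝓞 K)} {f : Ideal (𝓞 K) →* ℂ} {S : Finset (InfinitePlace K)}
  (h : HasSigns 𝔪 f S)

include h

theorem term_congr {w : K} (hw : w ∈ (dualAt 𝔪 1 : Set K)) {x y : 𝓞 K} (hxy : x - y ∈ 𝔪) :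
    resFn 𝔪 f S x * trChar (w * (x : K)) = resFn 𝔪 f S y * trChar (w * (y : K)) := by
  rw [h.resFn_congr hxy]
  congr 1
  rw [show w * (x : K) = w * (y : K) + w * ((x - y : 𝓞 K) : K) by push_cast; ring, trChar_add,
    trChar_dualAt h.ne_bot hw hxy, mul_one]

theorem resFn_mul_conj {u : 𝓞 K} (hu : Ideal.span {u} ⊔ 𝔪 = ⊤) :
    starRingEnd ℂ (resFn 𝔪 f S u) * resFn 𝔪 f S u = 1 := by
  rw [mul_comm, Complex.mul_conj', h.norm_resFn hu]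
  simp

theorem gaussSumAt_mul {w : K} (hw : w ∈ (dualAt 𝔪 1 : Set K)) {u : 𝓞 K}
    (hu : Ideal.span {u} ⊔ 𝔪 = ⊤) :
    gaussSumAt 𝔪 f S ((u : K) * w) = starRingEnd ℂ (resFn 𝔪 f S u) * gaussSumAt 𝔪 f S w := by
  obtain ⟨v, hv⟩ := FA.Hecke.isUnit_mk_of_sup hu
  rw [gaussSumAt, gaussSumAt,
    ← (Units.mulLeft v).tsum_eq fun b : 𝓞 K ⧸ 𝔪 => resFn 𝔪 f S b.out * trChar (w * (b.out : K)),
    ← tsum_mul_left]
  refine tsum_congr fun b => ?_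
  have hc : (Units.mulLeft v b).out - u * b.out ∈ 𝔪 := by
    rw [← Ideal.Quotient.eq, Ideal.Quotient.mk_out, map_mul, Ideal.Quotient.mk_out, ← hv]
    rfl
  rw [h.term_congr hw hc, h.resFn_mul]
  push_cast
  rw [mul_assoc (resFn 𝔪 f S u), ← mul_assoc (starRingEnd ℂ _), h.resFn_mul_conj hu, one_mul]
  ring_nf

theorem gaussSumAt_congr {w w' : K} (hd : w - w' ∈
    (dualAt 𝔪 1 : FractionalIdeal (𝓞 K)⁰ K) * (𝔪 : FractionalIdeal (𝓞 K)⁰ K)) :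
    gaussSumAt 𝔪 f S w = gaussSumAt 𝔪 f S w' := by
  refine tsum_congr fun b => ?_
  congr 1
  rw [show w * (b.out : K) = w' * (b.out : K) + (b.out : K) * (w - w') by ring, trChar_add,
    trChar_eq_one_of_mem_mul (v := (b.out : K) * (w - w')) h.ne_bot (Submodule.smul_mem _ b.out hd),
    mul_one]

theorem gaussSumAt_eq_zero (hp : IsPrimitiveChar 𝔪 f) {𝔭 : Ideal (𝓞 K)} (hP : 𝔭.IsMaximal)
    (hle : 𝔪 ≤ 𝔭) {w : K}
    (hw : w ∈ (dualAt 𝔪 1 : FractionalIdeal (𝓞 K)⁰ K) * (𝔭 : FractionalIdeal (𝓞 K)⁰ K)) :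
    gaussSumAt 𝔪 f S w = 0 := by
  obtain ⟨𝔫, h𝔫⟩ := Ideal.dvd_iff_le.2 hle
  have hn0 : 𝔫 ≠ 0 := fun h0 => h.ne_bot (by rw [h𝔫, h0, mul_zero]; rfl)
  have hlt : 𝔪 < 𝔫 := Ideal.dvdNotUnit_iff_lt.1
    ⟨hn0, 𝔭, fun hu => hP.ne_top (Ideal.isUnit_iff.1 hu), by rw [h𝔫, mul_comm]⟩
  obtain ⟨u, hu0, huc, hu1, hup, huf⟩ := hp 𝔫 hlt
  have hw1 : w ∈ (dualAt 𝔪 1 : Set K) :=
    (mul_le_mul' le_rfl FractionalIdeal.coeIdeal_le_one).trans (mul_one _).le hw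
  have hd : (u : K) * w - w ∈
      (dualAt 𝔪 1 : FractionalIdeal (𝓞 K)⁰ K) * (𝔪 : FractionalIdeal (𝓞 K)⁰ K) := by
    rw [show (𝔪 : FractionalIdeal (𝓞 K)⁰ K) = ((𝔭 * 𝔫 : Ideal (𝓞 K)) :) from congrArg _ h𝔫,
      FractionalIdeal.coeIdeal_mul, ← mul_assoc,
      show (u : K) * w - w = w * ((u - 1 : 𝓞 K) : K) by push_cast; ring]
    exact FractionalIdeal.mul_mem_mul hw ((FractionalIdeal.mem_coeIdeal _).2 ⟨u - 1, hu1, rfl⟩)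
  have h1 := h.gaussSumAt_congr hd
  rw [h.gaussSumAt_mul hw1 huc, h.resFn_eq hu0, sgnS_of_pos hup h.real, mul_one] at h1
  by_contra h0
  exact huf ((starRingEnd ℂ).injective
    ((mul_right_cancel₀ h0 (h1.trans (one_mul _).symm)).trans (map_one (starRingEnd ℂ)).symm))

/-- **The Gauss sum is `gaussW` times the conjugate character.** -/
theorem gaussSumAt_eq (hp : IsPrimitiveChar 𝔪 f) {w : K} (hw : w ∈ (dualAt 𝔪 1 : Set K)) :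
    gaussSumAt 𝔪 f S w = gaussW 𝔪 f S * res 𝔪 (conjChar f) S (dualAt 𝔪 1) w := by
  rw [gaussW]
  set D := dualAt 𝔪 1
  obtain ⟨hγ, hJ0, -, hcop⟩ := intIdeal_spec 𝔪 D
  obtain ⟨hx, hxJ⟩ := toInt_spec 𝔪 hw
  obtain ⟨heJ, he1, he0⟩ := unitElt_spec h.ne_bot D
  set x := toInt 𝔪 D w
  set e := unitElt 𝔪 D
  set w0 := (gam 𝔪 D)⁻¹ * (e : K) with hw0
  rw [res, if_pos hw, h.resFn_conj]
  by_cases hc : Ideal.span {x} ⊔ 𝔪 = ⊤
  · have hw0D : w0 ∈ (D : Set K) := by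
      have := (mem_mul_iff (𝔪 := 𝔪) (I := D) (x := w0) ⊤).2
        ⟨e, by rw [Ideal.mul_top]; exact heJ, by rw [hw0, mul_inv_cancel_left₀ hγ]⟩
      rwa [FractionalIdeal.coeIdeal_top, mul_one] at this
    have hd : w - (x : K) * w0 ∈ (D : FractionalIdeal (𝓞 K)⁰ K) * (𝔪 : FractionalIdeal (𝓞 K)⁰ K) := by
      refine (mem_mul_iff (𝔪 := 𝔪) 𝔪).2 ⟨x - x * e, ?_, ?_⟩
      · rw [Ideal.mul_eq_inf_of_coprime (hcop h.ne_bot)]
        refine ⟨(intIdeal 𝔪 D).sub_mem hxJ (Ideal.mul_mem_left _ x heJ), ?_⟩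
        rw [show x - x * e = -(x * (e - 1)) by ring]
        exact 𝔪.neg_mem (𝔪.mul_mem_left _ he1)
      · push_cast
        rw [hw0]
        field_simp
        linear_combination hx
    rw [h.gaussSumAt_congr hd, h.gaussSumAt_mul hw0D hc]
    have hf := h.f_intIdeal_ne_zero D
    have hfn : starRingEnd ℂ (f (intIdeal 𝔪 D)) = (f (intIdeal 𝔪 D))⁻¹ :=
      eq_inv_of_mul_eq_one_left (by
        rw [mul_comm, Complex.mul_conj', h.ray.norm_eq_one hJ0 hf]; simp)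
    show _ = _ * ((starRingEnd ℂ (f (intIdeal 𝔪 D)))⁻¹ * _ * _)
    rw [hfn, inv_inv]
    field_simp
    linear_combination (-(starRingEnd ℂ (resFn 𝔪 f S x) * gaussSumAt 𝔪 f S w0)) *
      sgnS_sq h.real hγ
  · rw [h.resFn_eq_zero hc, map_zero, mul_zero, mul_zero]
    obtain ⟨𝔭, hP, hle⟩ := Ideal.exists_le_maximal _ hc
    refine h.gaussSumAt_eq_zero hp hP (le_sup_right.trans hle) ?_
    refine (mem_mul_iff (𝔪 := 𝔪) 𝔭).2 ⟨x, ?_, hx⟩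
    rw [Ideal.mul_eq_inf_of_coprime (top_le_iff.1 ((hcop h.ne_bot).ge.trans
      (sup_le_sup_left (le_sup_right.trans hle) _)))]
    exact ⟨hxJ, hle (Ideal.mem_sup_left (Ideal.mem_span_singleton_self x))⟩

variable (I : (FractionalIdeal (𝓞 K)⁰ K)ˣ)

theorem cosetRep_mem (b : 𝓞 K ⧸ 𝔪) : cosetRep 𝔪 I b ∈ (I : Set K) := by
  have := (mem_mul_iff (𝔪 := 𝔪) (I := I) (x := cosetRep 𝔪 I b) ⊤).2
    ⟨unitElt 𝔪 I * b.out, by
      rw [Ideal.mul_top]; exact Ideal.mul_mem_right _ _ (unitElt_spec h.ne_bot I).1, by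
      rw [cosetRep, mul_inv_cancel_left₀ (intIdeal_spec 𝔪 I).1]⟩
  rwa [FractionalIdeal.coeIdeal_top, mul_one] at this

theorem res_cosetRep (b : 𝓞 K ⧸ 𝔪) :
    res 𝔪 f S I (cosetRep 𝔪 I b) =
      (f (intIdeal 𝔪 I))⁻¹ * sgnS S (gam 𝔪 I) * resFn 𝔪 f S b.out := by
  rw [res, if_pos (h.cosetRep_mem I b)]
  congr 1
  have he : toInt 𝔪 I (cosetRep 𝔪 I b) = unitElt 𝔪 I * b.out := RingOfIntegers.ext (by
    rw [(toInt_spec 𝔪 (h.cosetRep_mem I b)).1, cosetRep,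
      mul_inv_cancel_left₀ (intIdeal_spec 𝔪 I).1])
  rw [he]
  refine h.resFn_congr ?_
  rw [show unitElt 𝔪 I * b.out - b.out = (unitElt 𝔪 I - 1) * b.out by ring]
  exact 𝔪.mul_mem_right _ (unitElt_spec h.ne_bot I).2.1

theorem mul_scale_mem {z : K} (hz : z ∈ (dualAt 𝔪 I : Set K)) :
    z * ((gam 𝔪 I)⁻¹ * (unitElt 𝔪 I : K)) ∈ (dualAt 𝔪 1 : Set K) := by
  have h1 : (gam 𝔪 I)⁻¹ * (unitElt 𝔪 I : K) ∈ (I : Set K) := by
    have := (mem_mul_iff (𝔪 := 𝔪) (I := I) (x := (gam 𝔪 I)⁻¹ * (unitElt 𝔪 I : K)) ⊤).2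
      ⟨unitElt 𝔪 I, by rw [Ideal.mul_top]; exact (unitElt_spec h.ne_bot I).1, by
        rw [mul_inv_cancel_left₀ (intIdeal_spec 𝔪 I).1]⟩
    rwa [FractionalIdeal.coeIdeal_top, mul_one] at this
  have := FractionalIdeal.mul_mem_mul (I := (dualAt 𝔪 I : FractionalIdeal (𝓞 K)⁰ K))
    (J := (I : FractionalIdeal (𝓞 K)⁰ K)) hz h1
  rwa [← Units.val_mul, dualAt_mul] at this

/-- Comparison of the conjugate character at `z` and at its image in the dual of `𝔪`. -/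
theorem res_scale {z : K} (hz : z ∈ (dualAt 𝔪 I : Set K)) :
    (f (intIdeal 𝔪 I))⁻¹ * sgnS S (gam 𝔪 I) *
        res 𝔪 (conjChar f) S (dualAt 𝔪 1) (z * ((gam 𝔪 I)⁻¹ * (unitElt 𝔪 I : K))) =
      res 𝔪 (conjChar f) S (dualAt 𝔪 I) z := by
  obtain ⟨hγ, hJ0, hJ, -⟩ := intIdeal_spec 𝔪 I
  obtain ⟨heJ, he1, he0⟩ := unitElt_spec h.ne_bot I
  set e := unitElt 𝔪 I
  set r := (gam 𝔪 I)⁻¹ * (e : K) with hr
  have key : ∀ z : K, z ∈ (dualAt 𝔪 I : Set K) → z ≠ 0 →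
      (f (intIdeal 𝔪 I))⁻¹ * sgnS S (gam 𝔪 I) * res 𝔪 (conjChar f) S (dualAt 𝔪 1) (z * r) =
        res 𝔪 (conjChar f) S (dualAt 𝔪 I) z := by
    intro z hz hz0
    obtain ⟨A, hA⟩ := h.exists_quotient_ideal (dualAt 𝔪 I) hz
    obtain ⟨E, hE⟩ := Ideal.dvd_iff_le.2 ((Ideal.span_singleton_le_iff_mem _).2 heJ)
    have heK : (e : K) ≠ 0 := RingOfIntegers.coe_ne_zero_iff.2 he0
    have hEI : (E : FractionalIdeal (𝓞 K)⁰ K) * I = FractionalIdeal.spanSingleton (𝓞 K)⁰ r := by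
      refine mul_left_cancel₀ (FractionalIdeal.spanSingleton_ne_zero_iff.2 hγ) ?_
      rw [← mul_assoc, mul_comm (FractionalIdeal.spanSingleton (𝓞 K)⁰ (gam 𝔪 I)), mul_assoc, ← hJ,
        mul_comm, ← FractionalIdeal.coeIdeal_mul, ← hE, FractionalIdeal.coeIdeal_span_singleton,
        FractionalIdeal.spanSingleton_mul_spanSingleton, hr, mul_inv_cancel_left₀ hγ]
    have hAE : ((A * E : Ideal (𝓞 K)) : FractionalIdeal (𝓞 K)⁰ K) * dualAt 𝔪 1 =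
        FractionalIdeal.spanSingleton (𝓞 K)⁰ (z * r) := by
      rw [← dualAt_mul 𝔪 I, FractionalIdeal.coeIdeal_mul, Units.val_mul, mul_mul_mul_comm, hA, hEI,
        FractionalIdeal.spanSingleton_mul_spanSingleton]
    rw [hr] at hAE ⊢
    rw [h.conj.res_eq _ (h.mul_scale_mem I hz)
        (mul_ne_zero hz0 (mul_ne_zero (inv_ne_zero hγ) heK)) hAE,
      h.conj.res_eq _ hz hz0 hA, map_mul, sgnS_mul h.real, sgnS_mul h.real]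
    have hsi : sgnS S (gam 𝔪 I) * sgnS S (gam 𝔪 I)⁻¹ = 1 := by
      rw [← sgnS_mul h.real, mul_inv_cancel₀ hγ, sgnS_one h.real]
    have hfe : f (intIdeal 𝔪 I) * f E = sgnS S (e : K) := by
      rw [← map_mul, ← hE, h.sgn e he0 he1]
    have hfc : starRingEnd ℂ (f (intIdeal 𝔪 I)) = (f (intIdeal 𝔪 I))⁻¹ :=
      eq_inv_of_mul_eq_one_left (by
        rw [mul_comm, Complex.mul_conj', h.ray.norm_eq_one hJ0 (h.f_intIdeal_ne_zero I)]; simp)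
    have hEc : conjChar f E = (f (intIdeal 𝔪 I)) * sgnS S (e : K) := by
      have h2 := congrArg (starRingEnd ℂ) hfe
      rw [map_mul, hfc, conj_sgnS, inv_mul_eq_iff_eq_mul₀ (h.f_intIdeal_ne_zero I)] at h2
      exact h2
    rw [hEc]
    generalize sgnS S (gam 𝔪 I)⁻¹ = si at hsi ⊢
    have := h.f_intIdeal_ne_zero I
    field_simp
    linear_combination (conjChar f A * sgnS S z * (sgnS S (e : K) * sgnS S (e : K))) * hsi +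
      (conjChar f A * sgnS S z) * sgnS_sq h.real heK
  by_cases hz0 : z = 0
  · obtain ⟨z', hz', hz'0⟩ : ∃ z', z' ∈ (dualAt 𝔪 I : FractionalIdeal (𝓞 K)⁰ K) ∧ z' ≠ 0 := by
      by_contra hne
      push Not at hne
      exact (dualAt 𝔪 I).ne_zero (FractionalIdeal.eq_zero_iff.2 hne)
    obtain ⟨m, hm, hm0⟩ := Submodule.exists_mem_ne_zero_of_ne_bot h.ne_bot
    have hz1 : (m : K) * z' ∈ (dualAt 𝔪 I : Set K) := Submodule.smul_mem _ m hz'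
    have hmK : (m : K) ≠ 0 := RingOfIntegers.coe_ne_zero_iff.2 hm0
    subst hz0
    rw [zero_mul, h.conj.res_congr (dualAt 𝔪 I) hz hz1 ?_,
      h.conj.res_congr (dualAt 𝔪 1) (Submodule.zero_mem _) (h.mul_scale_mem I hz1) ?_]
    · exact key _ hz1 (mul_ne_zero hmK hz'0) 
    · rw [zero_sub, mul_comm (m : K) z', mul_assoc, mul_left_comm]
      refine Submodule.neg_mem _ ?_
      rw [mul_comm (dualAt 𝔪 1 : FractionalIdeal (𝓞 K)⁰ K)]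
      exact FractionalIdeal.mul_mem_mul ((FractionalIdeal.mem_coeIdeal _).2 ⟨m, hm, rfl⟩)
        (h.mul_scale_mem I hz')
    · rw [zero_sub]
      refine Submodule.neg_mem _ ?_
      rw [mul_comm (dualAt 𝔪 I : FractionalIdeal (𝓞 K)⁰ K)]
      exact FractionalIdeal.mul_mem_mul ((FractionalIdeal.mem_coeIdeal _).2 ⟨m, hm, rfl⟩) hz'
  · exact key z hz hz0 

/-- **The Gauss sums over `I / 𝔪 I`.** -/
theorem gauss_coset (hp : IsPrimitiveChar 𝔪 f) {z : K} (hz : z ∈ (dualAt 𝔪 I : Set K)) :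
    ∑' b : 𝓞 K ⧸ 𝔪, res 𝔪 f S I (cosetRep 𝔪 I b) * trChar (z * cosetRep 𝔪 I b) =
      gaussW 𝔪 f S * res 𝔪 (conjChar f) S (dualAt 𝔪 I) z := by
  have hb : ∀ b : 𝓞 K ⧸ 𝔪, res 𝔪 f S I (cosetRep 𝔪 I b) * trChar (z * cosetRep 𝔪 I b) =
      (f (intIdeal 𝔪 I))⁻¹ * sgnS S (gam 𝔪 I) * (resFn 𝔪 f S b.out *
        trChar (z * ((gam 𝔪 I)⁻¹ * (unitElt 𝔪 I : K)) * (b.out : K))) := fun b => by
    rw [h.res_cosetRep, cosetRep]
    push_cast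
    ring_nf
  simp only [hb]
  rw [tsum_mul_left, ← gaussSumAt, h.gaussSumAt_eq hp (h.mul_scale_mem I hz), ← h.res_scale I hz]
  ring

end HasSigns

end FA.HeckeCharFE
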