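import Fermat.Agent.HeckeCharFE.Theta

/-!
# The theta kernel of a primitive character

`charKern f I τ = ∫_{[0,1]^{r-1}} θ (f, I, wt I (log τ) z) dz` satisfies
`charKern f I (1/τ) = rootC τ^(1/2) charKern f̄ D τ`, `D = (𝔪 I 𝔇)⁻¹`, and tends to the term at `0`
faster than any power.
-/

set_option autoImplicit false
set_option linter.style.haveILetI false
set_option linter.unusedSectionVars false

noncomputable section

open NumberField InfinitePlace Module MeasureTheory Set Filter Asymptotics Complex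
open scoped Real nonZeroDivisors Classical Topology

namespace FA.HeckeCharFE

open FA.HeckeFE (qform weight RestPlace cube isCompact_cube measurableSet_cube volume_real_cube NZ
  zero_mem_ideal exists_qform_lower_bound exists_weight_lower_bound summable_theta qform_mono
  qform_const_mul finrankR_pos ofInt)

variable {K : Type*} [Field K] [NumberField K]

/-- **The kernel.** -/
def charKern (𝔪 : Ideal (𝓞 K)) (f : Ideal (𝓞 K) →* ℂ) (S : Finset (InfinitePlace K))
    (I : (FractionalIdeal (𝓞 K)⁰ K)ˣ) (τ : ℝ) : ℂ :=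
  ∫ z in cube K, charTheta 𝔪 f S I (wt 𝔪 I (Real.log τ) z)

/-- The term at `0`. -/
def constTerm (𝔪 : Ideal (𝓞 K)) (f : Ideal (𝓞 K) →* ℂ) (S : Finset (InfinitePlace K))
    (I : (FractionalIdeal (𝓞 K)⁰ K)ˣ) : ℂ :=
  res 𝔪 f S I 0 * if S = ∅ then 1 else 0

theorem cterm_zero (S : Finset (InfinitePlace K)) (y : InfinitePlace K → ℝ) :
    (cterm S y (0 : K) : ℂ) = if S = ∅ then 1 else 0 := by
  rcases S.eq_empty_or_nonempty with rfl | ⟨w, hw⟩
  · simp [cterm, qform]
  · rw [if_neg (Finset.nonempty_iff_ne_empty.1 ⟨w, hw⟩), cterm,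
      Finset.prod_eq_zero hw (by simp [rv]), zero_mul, ofReal_zero]

namespace HasSigns

variable {𝔪 : Ideal (𝓞 K)} {f : Ideal (𝓞 K) →* ℂ} {S : Finset (InfinitePlace K)}
  (h : HasSigns 𝔪 f S) (I : (FractionalIdeal (𝓞 K)⁰ K)ˣ)

include h

theorem summable_NZ_term {y : InfinitePlace K → ℝ} (hy : ∀ w, 0 < y w) :
    Summable fun x : NZ I => res 𝔪 f S I x.1 * (cterm S y x.1 : ℂ) :=
  (h.summable_thetaTerm I hy).comp_injective (i := fun x : NZ I => (⟨x.1, x.2.1⟩ : (I : Set K)))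
    fun _ _ he => Subtype.ext (congrArg (fun t : (I : Set K) => (t : K)) he)

theorem charTheta_eq_add {y : InfinitePlace K → ℝ} (hy : ∀ w, 0 < y w) :
    charTheta 𝔪 f S I y =
      constTerm 𝔪 f S I + ∑' x : NZ I, res 𝔪 f S I x.1 * (cterm S y x.1 : ℂ) := by
  rw [charTheta, (h.summable_thetaTerm I hy).tsum_eq_add_tsum_ite ⟨0, zero_mem_ideal I⟩]
  congr 1
  · rw [constTerm, cterm_zero]
  · have hi : Function.Injective fun x : NZ I => (⟨x.1, x.2.1⟩ : (I : Set K)) := fun _ _ he =>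
      Subtype.ext (congrArg (fun t : (I : Set K) => (t : K)) he)
    rw [← hi.tsum_eq]
    · exact tsum_congr fun x => if_neg fun he => x.2.2 (congrArg Subtype.val he)
    · intro x hx
      exact ⟨⟨x.1, x.2, fun he => hx (if_pos (Subtype.ext he))⟩, rfl⟩

theorem continuousOn_charKern : ContinuousOn (charKern 𝔪 f S I) (Ioi 0) := by
  have hc : Continuous fun L : ℝ => ∫ z in cube K, charTheta 𝔪 f S I (wt 𝔪 I L z) :=
    continuous_parametric_integral_of_continuous
      (f := fun (L : ℝ) z => charTheta 𝔪 f S I (wt 𝔪 I L z)) (h.continuous_charTheta_wt I)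
      isCompact_cube
  exact hc.comp_continuousOn (Real.continuousOn_log.mono fun x hx => ne_of_gt (mem_Ioi.1 hx))

theorem charKern_one_div (hp : IsPrimitiveChar 𝔪 f) {τ : ℝ} (hτ : 0 < τ) :
    charKern 𝔪 f S I (1 / τ) = rootC 𝔪 f S * ((τ ^ (1 / 2 : ℝ) : ℝ) : ℂ) *
      charKern 𝔪 (conjChar f) S (dualAt 𝔪 I) τ := by
  set L := Real.log τ with hL
  set G : (RestPlace K → ℝ) → ℂ := fun z =>
    charTheta 𝔪 (conjChar f) S (dualAt 𝔪 I) (wt 𝔪 (dualAt 𝔪 I) L z) with hG
  have h1 : ∀ z, charTheta 𝔪 f S I (wt 𝔪 I (Real.log (1 / τ)) z) =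
      rootC 𝔪 f S * ((τ ^ (1 / 2 : ℝ) : ℝ) : ℂ) * G (1 - z) := fun z => by
    rw [one_div, Real.log_inv, ← hL, h.charTheta_wt_transform I hp, neg_neg,
      Real.rpow_def_of_pos hτ, ← hL, show L / 2 = L * (1 / 2) by ring, hG]
    congr 1
    show charTheta _ _ _ _ (wt 𝔪 (dualAt 𝔪 I) L (-z)) =
      charTheta _ _ _ _ (wt 𝔪 (dualAt 𝔪 I) L (1 - z))
    rw [show (1 : RestPlace K → ℝ) - z = -z + ofInt 1 by funext i; simp [ofInt]; ring,
      h.conj.charTheta_periodic]
  simp only [charKern, h1, integral_const_mul]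
  refine congrArg _ ?_
  rw [← hL, ← ((volume : Measure (RestPlace K → ℝ)).measurePreserving_sub_left
    (1 : RestPlace K → ℝ)).setIntegral_preimage_emb
      (Homeomorph.subLeft (1 : RestPlace K → ℝ)).measurableEmbedding G (cube K),
    show (fun z : RestPlace K → ℝ => 1 - z) ⁻¹' cube K = cube K by simp [cube]]

theorem charKern_sub {τ : ℝ} :
    charKern 𝔪 f S I τ - constTerm 𝔪 f S I = ∫ z in cube K,
      ∑' x : NZ I, res 𝔪 f S I x.1 * (cterm S (wt 𝔪 I (Real.log τ) z) x.1 : ℂ) := by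
  have hint : IntegrableOn (fun z => charTheta 𝔪 f S I (wt 𝔪 I (Real.log τ) z)) (cube K) :=
    ((h.continuous_charTheta_wt I).comp (Continuous.prodMk_right _)).continuousOn.integrableOn_compact
      isCompact_cube
  have hone : IntegrableOn (fun _ : RestPlace K → ℝ => constTerm 𝔪 f S I) (cube K) :=
    continuousOn_const.integrableOn_compact isCompact_cube
  calc charKern 𝔪 f S I τ - constTerm 𝔪 f S I
      = charKern 𝔪 f S I τ - ∫ z in cube K, constTerm 𝔪 f S I := by
        rw [setIntegral_const, volume_real_cube, one_smul]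
    _ = ∫ z in cube K, (charTheta 𝔪 f S I (wt 𝔪 I (Real.log τ) z) - constTerm 𝔪 f S I) :=
        (integral_sub hint hone).symm
    _ = _ := setIntegral_congr_fun measurableSet_cube fun z _ => by
        simp only [h.charTheta_eq_add I (wt_pos 𝔪 I (Real.log τ) z), add_sub_cancel_left]

theorem exists_wt_lower_bound :
    ∃ κ > 0, ∀ τ > 0, ∀ z ∈ cube K, ∀ w,
      κ * τ ^ (1 / (finrank ℚ K : ℝ)) ≤ wt 𝔪 I (Real.log τ) z w / 2 := by
  obtain ⟨κ, hκ, hw⟩ := exists_weight_lower_bound I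
  have hN := absNorm_pos' h.ne_bot
  have hNp : 0 < (Ideal.absNorm 𝔪 : ℝ) ^ (1 / (finrank ℚ K : ℝ)) := Real.rpow_pos_of_pos hN _
  refine ⟨κ / (Ideal.absNorm 𝔪 : ℝ) ^ (1 / (finrank ℚ K : ℝ)) / 2, by positivity,
    fun τ hτ z hz w => ?_⟩
  have h1 := hw (τ / (Ideal.absNorm 𝔪 : ℝ)) (div_pos hτ hN) z hz w
  rw [Real.div_rpow hτ.le hN.le, Real.log_div hτ.ne' hN.ne'] at h1
  rw [wt, logLevel]
  calc κ / (Ideal.absNorm 𝔪 : ℝ) ^ (1 / (finrank ℚ K : ℝ)) / 2 * τ ^ (1 / (finrank ℚ K : ℝ))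
      = κ * (τ ^ (1 / (finrank ℚ K : ℝ)) / (Ideal.absNorm 𝔪 : ℝ) ^ (1 / (finrank ℚ K : ℝ))) / 2 := by
        ring
    _ ≤ _ := div_le_div_of_nonneg_right h1 zero_le_two

theorem charKern_sub_isBigO (r : ℝ) :
    (fun τ => charKern 𝔪 f S I τ - constTerm 𝔪 f S I) =O[atTop] (· ^ r) := by
  obtain ⟨κ, hκ, hw⟩ := h.exists_wt_lower_bound I
  obtain ⟨δ, hδ, hq⟩ := exists_qform_lower_bound I
  set n := (finrank ℚ K : ℝ) with hndef
  have hn : 0 < n := finrankR_pos
  set a := π * κ * δ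
  have ha : 0 < a := by positivity
  have hsum1 : Summable fun x : NZ I => Real.exp (-π * qform (fun _ => (1 : ℝ)) x.1) :=
    (summable_theta I fun _ => one_pos).comp_injective
      (i := fun x : NZ I => (⟨x.1, x.2.1⟩ : (I : Set K)))
      fun _ _ he => Subtype.ext (congrArg (fun t : (I : Set K) => (t : K)) he)
  set B := Real.exp (π * δ) * ∑' x : NZ I, Real.exp (-π * qform (fun _ => (1 : ℝ)) x.1)
  have hbound : ∀ᶠ τ in atTop,
      ‖charKern 𝔪 f S I τ - constTerm 𝔪 f S I‖ ≤ B * ‖Real.exp (-a * τ ^ (1 / n))‖ := by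
    filter_upwards [(tendsto_rpow_atTop (one_div_pos.2 hn)).eventually_ge_atTop (1 / κ),
      eventually_gt_atTop 0] with τ hm hτ
    have hm1 : 1 ≤ κ * τ ^ (1 / n) := by rwa [div_le_iff₀' hκ] at hm
    rw [h.charKern_sub]
    refine le_of_le_of_eq (norm_setIntegral_le_of_norm_le_const
      (C := B * ‖Real.exp (-a * τ ^ (1 / n))‖) isCompact_cube.measure_lt_top fun z hz => ?_)
      (by rw [volume_real_cube, mul_one])
    rw [Real.norm_eq_abs, Real.abs_exp, mul_right_comm, ← Real.exp_add, ← tsum_mul_left]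
    refine tsum_of_norm_bounded (hsum1.mul_left _).hasSum fun x => ?_
    refine (h.norm_thetaTerm_le I (fun w => (wt_pos 𝔪 I _ z w).le) x.1).trans ?_
    rw [← Real.exp_add]
    refine Real.exp_le_exp.2 ?_
    set M := κ * τ ^ (1 / n) with hMdef
    have h1 : M * qform (fun _ => (1 : ℝ)) x.1 ≤
        qform (fun w => wt 𝔪 I (Real.log τ) z w / 2) x.1 := by
      rw [← qform_const_mul]; exact qform_mono (hw τ hτ z hz) _
    have h2 := mul_le_mul_of_nonneg_left (hq x.1 x.2.1 x.2.2) (sub_nonneg.2 hm1)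
    have h3 := mul_le_mul_of_nonneg_left (h1.trans' (by linarith : (M - 1) * δ +
      qform (fun _ => (1 : ℝ)) x.1 ≤ M * qform (fun _ => (1 : ℝ)) x.1)) Real.pi_pos.le
    simp only [a, hMdef] at h3 ⊢
    linarith
  refine (IsBigO.of_bound B hbound).trans ?_
  refine IsLittleO.isBigO ?_
  have hl := (isLittleO_exp_neg_mul_rpow_atTop ha (r * n)).comp_tendsto
    (tendsto_rpow_atTop (one_div_pos.2 hn))
  refine hl.congr' EventuallyEq.rfl ?_
  filter_upwards [eventually_gt_atTop 0] with τ hτ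
  simp only [Function.comp_apply]
  rw [← Real.rpow_mul hτ.le]
  congr 1
  field_simp

theorem locallyIntegrableOn_charKern : LocallyIntegrableOn (charKern 𝔪 f S I) (Ioi 0) :=
  (h.continuousOn_charKern I).locallyIntegrableOn measurableSet_Ioi

end HasSigns

end FA.HeckeCharFE
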