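import Fermat.Agent.HeckeCharFE.Kernel
import Fermat.Agent.HeckeFE.Unfold

/-!
# The integral of one orbit with linear factors

With `absTerm S y x = ∏_{w ∈ S} √y_w |x|_w exp (-π q_y (x))` the integral of
`e^{σ L} absTerm S (weight I L z) x` over `ℝ × ℝ^{r-1}` is that of the trivial character times
`(Γℝ (2σ + 1) / Γℝ (2σ))^|S|`.
-/

set_option autoImplicit false
set_option linter.style.haveILetI false
set_option linter.unusedSectionVars false

noncomputable section

open NumberField InfinitePlace Module MeasureTheory Set Complex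
open scoped Real nonZeroDivisors Classical

namespace FA.HeckeCharFE

open FA.HeckeFE (qform weight weight_pos expoMap expoMap_glue glue measurePreserving_glue orbitFun
  placeFun prod_placeFun integral_placeFun integral_prod_placeFun ratio gamFac jac scale scale_pos
  det_expoMap_ne_zero abs_det_expoMap RestPlace unitPow expo_add_ofInt qform_weight_add_ofInt ofInt
  continuous_weight continuous_qform)

variable {K : Type*} [Field K] [NumberField K]

/-- `∏_{w ∈ S} √y_w |x|_w exp (-π q_y (x))`. -/
def absTerm (S : Finset (InfinitePlace K)) (y : InfinitePlace K → ℝ) (x : K) : ℝ :=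
  (∏ w ∈ S, √(y w) * w x) * Real.exp (-π * qform y x)

theorem absTerm_nonneg (S : Finset (InfinitePlace K)) (y : InfinitePlace K → ℝ) (x : K) :
    0 ≤ absTerm S y x :=
  mul_nonneg (Finset.prod_nonneg fun w _ => mul_nonneg (Real.sqrt_nonneg _) (apply_nonneg w x))
    (Real.exp_pos _).le

theorem absTerm_eq {S : Finset (InfinitePlace K)} (hS : ∀ w ∈ S, IsReal w)
    (y : InfinitePlace K → ℝ) (x : K) :
    (absTerm S y x : ℂ) = sgnS S x * (cterm S y x : ℂ) := by
  rw [absTerm, cterm, Finset.prod_mul_distrib, Finset.prod_mul_distrib, ofReal_mul, ofReal_mul,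
    ofReal_mul, ofReal_mul, ← sgnS_mul_prod hS x]
  ring

variable (S : Finset (InfinitePlace K)) (I : (FractionalIdeal (𝓞 K)⁰ K)ˣ)

/-- The integrand of the orbit of `x`. -/
def charOrbit (σ : ℂ) (x : K) (p : ℝ × (RestPlace K → ℝ)) : ℂ :=
  cexp (σ * p.1) * (absTerm S (weight I p.1 p.2) x : ℂ)

theorem continuous_charOrbit (σ : ℂ) (x : K) : Continuous (charOrbit S I σ x) := by
  refine Continuous.mul (by fun_prop) (continuous_ofReal.comp (Continuous.mul
    (continuous_finsetProd _ fun w _ => ((continuous_weight I w).sqrt).mul continuous_const) ?_))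
  exact Real.continuous_exp.comp
    (((continuous_qform x).comp (continuous_pi fun w => continuous_weight I w)).const_smul (-π))

theorem norm_charOrbit (σ : ℂ) (x : K) (p : ℝ × (RestPlace K → ℝ)) :
    ‖charOrbit S I σ x p‖ = Real.exp (σ.re * p.1) * absTerm S (weight I p.1 p.2) x := by
  rw [charOrbit, norm_mul, norm_exp, norm_real, Real.norm_of_nonneg (absTerm_nonneg S _ _)]
  simp [Complex.mul_re]

theorem charOrbit_unit (σ : ℂ) (x : K) (m : RestPlace K → ℤ) (p : ℝ × (RestPlace K → ℝ)) :
    charOrbit S I σ (((unitPow m : 𝓞 K) : K) * x) p = charOrbit S I σ x (p + (0, ofInt m)) := by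
  simp only [charOrbit, absTerm, Prod.fst_add, Prod.snd_add, add_zero, qform_weight_add_ofInt]
  congr 3
  refine Finset.prod_congr rfl fun w _ => ?_
  have hu : 0 < w ((unitPow m : 𝓞 K) : K) := pos_iff.2 (Units.coe_ne_zero _)
  rw [weight, weight, expo_add_ofInt, Real.exp_add, two_mul (Real.log _), Real.exp_add,
    Real.exp_log hu, ← mul_assoc (scale I), Real.sqrt_mul (x := scale I * Real.exp _)
      (by have := scale_pos I; positivity), Real.sqrt_mul_self hu.le, map_mul]
  ring

/-- The factor at one place. -/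
def placeC (σ : ℂ) (x : K) (w : InfinitePlace K) (v : ℝ) : ℂ :=
  if w ∈ S then placeFun I (σ + 1 / 2) x w v * cexp (((Real.log (scale I * w x ^ 2) / 2 : ℝ)) : ℂ)
  else placeFun I σ x w v

theorem prod_placeC (hS : ∀ w ∈ S, IsReal w) (σ : ℂ) {x : K} (hx : x ≠ 0)
    (p : ℝ × (RestPlace K → ℝ)) :
    ∏ w, placeC S I σ x w (expoMap K (glue p) w) = charOrbit S I σ x p := by
  have hw : ∀ w, placeC S I σ x w (expoMap K (glue p) w) = placeFun I σ x w (expoMap K (glue p) w) *
      if w ∈ S then ((√(weight I p.1 p.2 w) * w x : ℝ) : ℂ) else 1 := fun w => by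
    rw [placeC]
    split_ifs with h
    · have hc : 0 < scale I * w x ^ 2 := mul_pos (scale_pos I) (pow_pos (pos_iff.2 hx) 2)
      have hv : √(weight I p.1 p.2 w) * w x =
          Real.exp (expoMap K (glue p) w / 2 + Real.log (scale I * w x ^ 2) / 2) := by
        rw [Real.exp_add, Real.exp_half (Real.log _), Real.exp_log hc, Real.sqrt_mul (scale_pos I).le,
          Real.sqrt_sq (apply_nonneg w x), expoMap_glue, weight, Real.sqrt_mul (scale_pos I).le,
          Real.exp_half]
        ring
      have hm : mult w = 1 := by rw [mult, if_pos (hS w h)]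
      rw [hv, placeFun, placeFun, hm]
      push_cast
      rw [Complex.exp_add, mul_add, add_mul, Complex.exp_add]
      ring_nf
    · rw [mul_one]
  rw [Finset.prod_congr rfl fun w _ => hw w, Finset.prod_mul_distrib, prod_placeFun,
    Fintype.prod_ite_mem, orbitFun, charOrbit, absTerm, ← ofReal_prod]
  push_cast
  ring

theorem integral_placeC (hS : ∀ w ∈ S, IsReal w) {σ : ℂ} (hσ : 0 < σ.re) {x : K} (hx : x ≠ 0)
    (w : InfinitePlace K) :
    Integrable (placeC S I σ x w) ∧ ∫ v, placeC S I σ x w v =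
      (if w ∈ S then Gammaℝ (2 * σ + 1) / Gammaℝ (2 * σ) else 1) * ∫ v, placeFun I σ x w v := by
  obtain ⟨hi, hv⟩ := integral_placeFun I hσ hx w
  by_cases h : w ∈ S
  · have hσ' : 0 < (σ + 1 / 2).re := by
      rw [Complex.add_re]
      norm_num
      linarith
    obtain ⟨hi', hv'⟩ := integral_placeFun I hσ' hx w
    have heq : placeC S I σ x w = fun v => placeFun I (σ + 1 / 2) x w v *
        cexp (((Real.log (scale I * w x ^ 2) / 2 : ℝ)) : ℂ) := funext fun v => if_pos h
    refine ⟨heq ▸ hi'.mul_const _, ?_⟩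
    have hm : mult w = 1 := by rw [mult, if_pos (hS w h)]
    have hG : Gammaℝ (2 * σ) ≠ 0 := Gammaℝ_ne_zero_of_re_pos (by simpa using hσ)
    rw [if_pos h, heq, integral_mul_const, hv, hv', if_pos (hS w h), if_pos (hS w h), hm,
      mul_assoc, ← Complex.exp_add, ← mul_assoc, div_mul_cancel₀ _ hG]
    push_cast
    ring_nf
  · have heq : placeC S I σ x w = placeFun I σ x w := funext fun v => if_neg h
    rw [heq, if_neg h, one_mul]
    exact ⟨hi, rfl⟩

/-- **The integral of an orbit.** -/
theorem integral_charOrbit (hS : ∀ w ∈ S, IsReal w) {σ : ℂ} (hσ : 0 < σ.re) {x : K} (hx : x ≠ 0) :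
    Integrable (charOrbit S I σ x) ∧ ∫ p, charOrbit S I σ x p =
      (Gammaℝ (2 * σ + 1) / Gammaℝ (2 * σ)) ^ S.card * gamFac K (2 * σ) *
        (ratio I x : ℂ) ^ (-(2 * σ)) / (jac K : ℂ) := by
  set Φ := fun u : InfinitePlace K → ℝ => ∏ w, placeC S I σ x w (u w) with hΦ
  have hi : Integrable Φ := Integrable.fintype_prod fun w => (integral_placeC S I hS hσ hx w).1
  have hv : ∫ u, Φ u = (Gammaℝ (2 * σ + 1) / Gammaℝ (2 * σ)) ^ S.card *
      (gamFac K (2 * σ) / 2 ^ nrComplexPlaces K * (ratio I x : ℂ) ^ (-(2 * σ))) := by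
    rw [← (integral_prod_placeFun I hσ hx).2, hΦ, integral_fintype_prod_volume_eq_prod,
      integral_fintype_prod_volume_eq_prod,
      Finset.prod_congr rfl fun w _ => (integral_placeC S I hS hσ hx w).2, Finset.prod_mul_distrib,
      Fintype.prod_ite_mem, Finset.prod_const]
  have hmeas : Measurable (expoMap K) :=
    (expoMap K).continuous_of_finiteDimensional.measurable
  have hmap := Measure.map_linearMap_addHaar_eq_smul_addHaar
    (volume : Measure (InfinitePlace K → ℝ)) (det_expoMap_ne_zero K)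
  have horb : charOrbit S I σ x = (Φ ∘ expoMap K) ∘ glue :=
    funext fun p => (prod_placeC S I hS σ hx p).symm
  have hcomp : Integrable (Φ ∘ expoMap K) := by
    have h := hi.smul_measure (c := ENNReal.ofReal |(LinearMap.det (expoMap K))⁻¹|) ENNReal.ofReal_ne_top
    rw [← hmap] at h
    exact h.comp_measurable hmeas
  refine ⟨horb ▸ (measurePreserving_glue.integrable_comp_emb glue.measurableEmbedding).2 hcomp, ?_⟩
  have h1 : ∫ u, (Φ ∘ expoMap K) u = (|(LinearMap.det (expoMap K))|⁻¹ : ℝ) * ∫ u, Φ u := by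
    have hm : ∫ u, Φ (expoMap K u) = ∫ u, Φ u ∂Measure.map (expoMap K) volume := by
      refine (integral_map hmeas.aemeasurable ?_).symm
      rw [hmap]
      exact hi.aestronglyMeasurable.smul_measure _
    rw [show (fun u => (Φ ∘ expoMap K) u) = fun u => Φ (expoMap K u) from rfl, hm, hmap,
      integral_smul_measure, ENNReal.toReal_ofReal (abs_nonneg _), abs_inv, real_smul]
  rw [horb, show (fun p => ((Φ ∘ expoMap K) ∘ glue) p) = fun p => (Φ ∘ expoMap K) (glue p) from rfl,
    measurePreserving_glue.integral_comp glue.measurableEmbedding, h1, abs_det_expoMap, hv, jac]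
  push_cast
  have : (Units.regulator K : ℂ) ≠ 0 := ofReal_ne_zero.2 (Units.regulator_pos K).ne'
  generalize (Gammaℝ (2 * σ + 1) / Gammaℝ (2 * σ)) ^ S.card = ρ
  rw [pow_add]
  field_simp

end FA.HeckeCharFE
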