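import Fermat.Agent.HeckeFE.Poisson

/-!
# Shifted Poisson summation for Gaussians times linear forms

For a set `S` of coordinates let `hfun L S x = ∏_{i ∈ S} (L x)_i exp (-π |L x|²)`. Then the sum of
`hfun L S (t + v)` over `v ∈ ℤ^ι` is `|det L|⁻¹ (-i)^|S|` times the sum of
`exp (2 π i m t) hfun N S m`, `N` the inverse transpose of `L`.
-/

set_option autoImplicit false
set_option linter.style.haveILetI false

noncomputable section

open MeasureTheory Complex Matrix Set UnitAddTorus
open scoped Real Classical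

namespace FA.HeckeCharFE

open FA.HeckeFE

local instance instMeasureSpaceUnit : MeasureSpace UnitAddCircle := ⟨AddCircle.haarAddCircle⟩

local instance instHaarUnit : Measure.IsAddHaarMeasure (volume : Measure UnitAddCircle) :=
  inferInstanceAs (Measure.IsAddHaarMeasure AddCircle.haarAddCircle)

local instance instProbUnit : IsProbabilityMeasure (volume : Measure UnitAddCircle) :=
  inferInstanceAs (IsProbabilityMeasure AddCircle.haarAddCircle)

/-! ### One variable -/

theorem abs_le_exp_half (u : ℝ) : |u| ≤ Real.exp (π / 2 * u ^ 2) := by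
  have h1 := Real.add_one_le_exp (π / 2 * u ^ 2)
  have h2 : |u| ≤ u ^ 2 + 1 / 4 := by nlinarith [sq_nonneg (|u| - 1 / 2), sq_abs u]
  have h3 : u ^ 2 ≤ π / 2 * u ^ 2 :=
    le_mul_of_one_le_left (sq_nonneg u) (by linarith [Real.two_le_pi])
  linarith

theorem integrable_linear_exp (c : ℂ) :
    Integrable fun u : ℝ => (u : ℂ) * cexp (-(π : ℂ) * (u : ℂ) ^ 2 + c * u) := by
  have h := (integrable_cexp_quadratic (b := ((π / 2 : ℝ) : ℂ))
    (by rw [ofReal_re]; positivity) (c.re : ℂ) 0).norm
  refine h.mono' (by fun_prop) (Filter.Eventually.of_forall fun u => ?_)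
  rw [norm_mul, norm_real, Real.norm_eq_abs, norm_exp, norm_exp]
  refine (mul_le_mul_of_nonneg_right (abs_le_exp_half u) (Real.exp_pos _).le).trans_eq ?_
  rw [← Real.exp_add]
  congr 1
  simp [Complex.mul_re, pow_two]
  ring

/-- `u^ε exp (-π u² + c u)`. -/
def lineFun (ε : Bool) (c : ℂ) (u : ℝ) : ℂ :=
  (if ε then (u : ℂ) else 1) * cexp (-(π : ℂ) * (u : ℂ) ^ 2 + c * u)

theorem continuous_lineFun (ε : Bool) (c : ℂ) : Continuous (lineFun ε c) := by
  unfold lineFun
  split_ifs <;> fun_prop

theorem integral_lineFun (ε : Bool) (c : ℂ) :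
    ∫ u : ℝ, lineFun ε c u = (if ε then c / (2 * π) else 1) * cexp (c ^ 2 / (4 * π)) := by
  have hb : (-(π : ℂ)).re < 0 := by simp [Real.pi_pos]
  have h0 : ∫ u : ℝ, cexp (-(π : ℂ) * (u : ℂ) ^ 2 + c * u) = cexp (c ^ 2 / (4 * π)) := by
    have h := integral_cexp_quadratic hb c 0
    simp only [add_zero, zero_sub, neg_neg, mul_neg, div_neg] at h
    rwa [div_self (ofReal_ne_zero.2 Real.pi_ne_zero), one_cpow, one_mul] at h
  cases ε
  · simp only [lineFun, Bool.false_eq_true, if_false, one_mul]
    exact h0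
  simp only [lineFun, if_true]
  set g : ℝ → ℂ := fun u => cexp (-(π : ℂ) * (u : ℂ) ^ 2 + c * u) with hg
  have hint : Integrable g := (integrable_cexp_quadratic' hb c 0).congr
    (Filter.Eventually.of_forall fun u => by simp [hg])
  have hd : ∀ u : ℝ, HasDerivAt g (c * g u - 2 * π * ((u : ℂ) * g u)) u := fun u => by
    have h1 : HasDerivAt (fun z : ℂ => cexp (-(π : ℂ) * z ^ 2 + c * z))
        ((-(π : ℂ) * (2 * (u : ℂ)) + c) * g u) (u : ℂ) := by
      have h2 := ((((hasDerivAt_id' (u : ℂ)).fun_pow 2).const_mul (-(π : ℂ))).add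
        ((hasDerivAt_id' (u : ℂ)).const_mul c)).cexp
      refine h2.congr_deriv ?_
      simp [hg, mul_comm]
    refine (h1.comp_ofReal).congr_deriv ?_
    ring
  have hd' : Integrable fun u : ℝ => c * g u - 2 * π * ((u : ℂ) * g u) :=
    (hint.const_mul c).sub ((integrable_linear_exp c).const_mul (2 * (π : ℂ)))
  have h := integral_eq_zero_of_hasDerivAt_of_integrable hd hd' hint
  rw [integral_sub (hint.const_mul c) ((integrable_linear_exp c).const_mul (2 * (π : ℂ))),
    integral_const_mul, integral_const_mul, h0, sub_eq_zero] at h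
  rw [show (∫ u : ℝ, (u : ℂ) * g u) = ∫ u : ℝ, (u : ℂ) * cexp (-(π : ℂ) * (u : ℂ) ^ 2 + c * u)
    from rfl] at h
  rw [div_mul_eq_mul_div, h, mul_div_cancel_left₀]
  simp [Real.pi_ne_zero]

/-! ### Several variables -/

variable {ι : Type*} [Fintype ι]

/-- `∏_{i ∈ S} (L x)_i exp (-π |L x|²)`. -/
def hfun (L : Matrix ι ι ℝ) (S : Finset ι) (x : ι → ℝ) : ℝ :=
  (∏ i ∈ S, (L *ᵥ x) i) * gauss L x

theorem continuous_hfun (L : Matrix ι ι ℝ) (S : Finset ι) : Continuous (hfun L S) := by
  refine Continuous.mul ?_ (continuous_gauss L)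
  unfold Matrix.mulVec dotProduct
  fun_prop

theorem abs_hfun_le (L : Matrix ι ι ℝ) (S : Finset ι) (x : ι → ℝ) :
    |hfun L S x| ≤ gauss ((√2)⁻¹ • L) x := by
  have hg : gauss ((√2)⁻¹ • L) x = Real.exp (-(π / 2) * ∑ i, (L *ᵥ x) i ^ 2) := by
    rw [gauss]
    congr 1
    simp only [Matrix.smul_mulVec, Pi.smul_apply, smul_eq_mul, mul_pow, inv_pow,
      Real.sq_sqrt zero_le_two, ← Finset.mul_sum]
    ring
  have hP : |∏ i ∈ S, (L *ᵥ x) i| ≤ Real.exp (π / 2 * ∑ i, (L *ᵥ x) i ^ 2) := by
    rw [Finset.abs_prod]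
    refine (Finset.prod_le_prod (fun i _ => abs_nonneg _) fun i _ => abs_le_exp_half _).trans ?_
    rw [← Real.exp_sum, ← Finset.mul_sum]
    exact Real.exp_le_exp.2 (mul_le_mul_of_nonneg_left
      (Finset.sum_le_sum_of_subset_of_nonneg (Finset.subset_univ S) fun i _ _ => sq_nonneg _)
      (by positivity))
  rw [hfun, abs_mul, abs_of_pos (gauss_pos L x), hg]
  refine (mul_le_mul_of_nonneg_right hP (gauss_pos L x).le).trans_eq ?_
  rw [gauss, ← Real.exp_add]
  ring_nf

theorem inv_transpose_smul [DecidableEq ι] {L N : Matrix ι ι ℝ} (h : Nᵀ * L = 1) :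
    (√2 • N)ᵀ * ((√2)⁻¹ • L) = 1 := by
  rw [Matrix.transpose_smul, Matrix.smul_mul, Matrix.mul_smul, smul_smul,
    mul_inv_cancel₀ (by positivity), one_smul, h]

theorem summable_hfun [DecidableEq ι] {L N : Matrix ι ι ℝ} (h : Nᵀ * L = 1) (S : Finset ι)
    (t : ι → ℝ) : Summable fun v : ι → ℤ => (hfun L S (t + ofInt v) : ℂ) :=
  Summable.of_norm_bounded (summable_gauss_shift (inv_transpose_smul h) t) fun v => by
    rw [norm_real, Real.norm_eq_abs]
    exact abs_hfun_le L S _

/-- The Fourier integral of `hfun`. -/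
theorem integral_hfun [DecidableEq ι] {L N : Matrix ι ι ℝ} (h : Nᵀ * L = 1) (S : Finset ι)
    (m : ι → ℤ) :
    ∫ x : ι → ℝ, mFourier (-m) (toTorus x) * (hfun L S x : ℂ) =
      ((|L.det|⁻¹ : ℝ) : ℂ) * (-I) ^ S.card * (hfun N S (ofInt m) : ℂ) := by
  have hdet : L.det ≠ 0 := fun h0 => by simpa [h0] using congrArg Matrix.det h
  set a : ι → ℝ := N *ᵥ ofInt m with ha
  set c : ι → ℂ := fun i => -(2 * π * I) * (a i : ℂ) with hc
  set g : (ι → ℝ) → ℂ := fun u => ∏ i, lineFun (decide (i ∈ S)) (c i) (u i) with hgdef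
  have hsplit : ∀ f : ι → ℂ, ∏ i, (if decide (i ∈ S) then f i else 1) = ∏ i ∈ S, f i := fun f => by
    simp
  have hg : ∀ x, mFourier (-m) (toTorus x) * (hfun L S x : ℂ) = g (L *ᵥ x) := fun x => by
    have hlin : ∑ i, a i * (L *ᵥ x) i = ∑ i, (m i : ℝ) * x i := by
      show (N *ᵥ ofInt m) ⬝ᵥ (L *ᵥ x) = ofInt m ⬝ᵥ x
      rw [← Matrix.vecMul_transpose, ← Matrix.dotProduct_mulVec, Matrix.mulVec_mulVec, h,
        Matrix.one_mulVec]
    simp only [hgdef, lineFun]
    rw [Finset.prod_mul_distrib, hsplit fun i => ((L *ᵥ x) i : ℂ), ← Complex.exp_sum,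
      mFourier_toTorus, hfun, gauss, ofReal_mul, ofReal_prod, Complex.ofReal_exp,
      mul_left_comm, ← Complex.exp_add]
    congr 2
    have hlin' := congrArg (fun r : ℝ => (r : ℂ)) hlin
    push_cast at hlin' ⊢
    simp only [c, Pi.neg_apply, Int.cast_neg, neg_mul, mul_assoc, Finset.sum_add_distrib,
      Finset.sum_neg_distrib, ← Finset.mul_sum, hlin']
    ring
  simp only [hg]
  have hmeas : Measurable fun x : ι → ℝ => L *ᵥ x := by
    unfold Matrix.mulVec dotProduct; fun_prop
  have hmap := Real.map_matrix_volume_pi_eq_smul_volume_pi hdet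
  have hcont : Continuous g :=
    continuous_finsetProd _ fun i _ => (continuous_lineFun _ _).comp (continuous_apply i)
  rw [← integral_map hmeas.aemeasurable hcont.aestronglyMeasurable,
    show (fun x => L *ᵥ x) = ⇑(Matrix.toLin' L) from rfl, hmap, integral_smul_measure,
    ENNReal.toReal_ofReal (abs_nonneg _), abs_inv, Complex.real_smul, mul_assoc]
  congr 1
  simp only [hgdef]
  rw [integral_fintype_prod_volume_eq_prod (f := fun i => lineFun (decide (i ∈ S)) (c i))]
  simp only [integral_lineFun]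
  rw [Finset.prod_mul_distrib, hsplit fun i => c i / (2 * π), ← Complex.exp_sum, hfun, gauss,
    ofReal_mul, ofReal_prod, Complex.ofReal_exp, ← mul_assoc, ← Finset.prod_const,
    ← Finset.prod_mul_distrib]
  congr 1
  · refine Finset.prod_congr rfl fun i _ => ?_
    rw [hc, ha]
    field_simp
  · congr 1
    push_cast
    rw [Finset.mul_sum]
    refine Finset.sum_congr rfl fun i _ => ?_
    have hpi : (π : ℂ) ≠ 0 := ofReal_ne_zero.2 Real.pi_ne_zero
    rw [hc, ← ha]
    simp only [mul_pow, neg_sq, Complex.I_sq]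
    field_simp
    ring

/-- **Shifted Poisson summation for a function with Gaussian decay.** -/
theorem poisson_shift [DecidableEq ι] {L N : Matrix ι ι ℝ} (h : Nᵀ * L = 1) {H : (ι → ℝ) → ℂ}
    (hH : Continuous H) (hb : ∀ x, ‖H x‖ ≤ gauss L x) {c : (ι → ℤ) → ℂ}
    (hc : ∀ m, ∫ x : ι → ℝ, mFourier (-m) (toTorus x) * H x = c m) (hcs : Summable c)
    (t : ι → ℝ) :
    ∑' v : ι → ℤ, H (t + ofInt v) = ∑' m : ι → ℤ, c m * mFourier m (toTorus t) := by
  obtain ⟨δ, hδ, hL⟩ := exists_lower_bound h
  set F : (ι → ℝ) → ℂ := fun x => ∑' v : ι → ℤ, H (x + ofInt v) with hF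
  have hFcont : Continuous F := by
    refine continuous_iff_continuousAt.2 fun x => ?_
    set R := ∑ i, (|x i| + 1) ^ 2
    refine ContinuousOn.continuousAt (s := Metric.closedBall x 1) ?_
      (Metric.closedBall_mem_nhds x one_pos)
    refine continuousOn_tsum (fun v => ?_) (summable_bound hδ (Real.exp (π * δ * R)))
      fun v t ht => ?_
    · exact (hH.comp (continuous_id.add continuous_const)).continuousOn
    · refine (hb _).trans ((gauss_add_le hδ hL t v).trans (mul_le_mul_of_nonneg_right
        (Real.exp_le_exp.2 ?_) (Real.exp_pos _).le))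
      refine mul_le_mul_of_nonneg_left (Finset.sum_le_sum fun i _ => ?_) (by positivity)
      have h1 : |t i - x i| ≤ 1 := (norm_le_pi_norm (t - x) i).trans (mem_closedBall_iff_norm.1 ht)
      rw [← sq_abs (t i)]
      exact pow_le_pow_left₀ (abs_nonneg _) (by
        have := abs_add_le (t i - x i) (x i)
        rw [sub_add_cancel] at this
        linarith) 2
  let sec : UnitAddTorus ι → ι → ℝ := fun θ i => (AddCircle.equivIoc 1 0 (θ i) : ℝ)
  have hq : Topology.IsQuotientMap (toTorus (ι := ι)) :=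
    (IsOpenQuotientMap.piMap (f := fun (_ : ι) (x : ℝ) => (x : UnitAddCircle))
      fun _ => QuotientAddGroup.isOpenQuotientMap_mk).isQuotientMap
  have hper : ∀ x, F (sec (toTorus x)) = F x := fun x => by
    obtain ⟨k, hk⟩ : ∃ k : ι → ℤ, sec (toTorus x) = x + ofInt k := by
      have : ∀ i, ∃ k : ℤ, sec (toTorus x) i = x i + k := fun i => by
        have h1 : ((sec (toTorus x) i : ℝ) : UnitAddCircle) = (x i : UnitAddCircle) :=
          (AddCircle.equivIoc 1 0).symm_apply_apply _
        rw [QuotientAddGroup.eq_iff_sub_mem, AddSubgroup.mem_zmultiples_iff] at h1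
        obtain ⟨k, hk⟩ := h1
        refine ⟨k, ?_⟩
        rw [zsmul_one] at hk
        linarith
      choose k hk using this
      exact ⟨k, funext hk⟩
    simp only [hF, hk]
    rw [← (Equiv.addLeft k).tsum_eq fun v => H (x + ofInt v)]
    refine tsum_congr fun v => ?_
    congr 1
    funext i
    simp [ofInt, add_assoc]
  let G : C(UnitAddTorus ι, ℂ) := ⟨fun θ => F (sec θ), hq.continuous_iff.2 (by
    have : (fun θ => F (sec θ)) ∘ toTorus = F := funext hper
    rw [this]; exact hFcont)⟩
  have hcoef : mFourierCoeff G = c := funext fun m => by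
    rw [mFourierCoeff_eq_integral _ m 0, ← hc m]
    set P : (ι → ℝ) → ℂ := fun x => mFourier (-m) (toTorus x) * H x
    have hnorm : ∀ x, ‖P x‖ ≤ gauss L x := fun x => by
      refine le_of_eq_of_le ?_ (hb x)
      simp only [P, norm_mul, mFourier_toTorus, Complex.norm_exp]
      simp
    have hbox : {x : ι → ℝ | ∀ i, x i ∈ Ioc ((0 : ι → ℝ) i) ((0 : ι → ℝ) i + 1)} = box 0 := by
      simp [box]
    rw [hbox]
    have hpt : EqOn (fun x : ι → ℝ => mFourier (-m) (fun i => (x i : UnitAddCircle)) •
        G (fun i => (x i : UnitAddCircle))) (fun x => ∑' v : ι → ℤ, P (x + ofInt v)) (box 0) :=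
      fun x _ => by
      show mFourier (-m) (toTorus x) • F (sec (toTorus x)) = _
      rw [hper, hF, smul_eq_mul, ← tsum_mul_left]
      exact tsum_congr fun v => by simp only [P, mFourier_toTorus_add]
    rw [setIntegral_congr_fun (measurableSet_box 0) hpt]
    have hPc : Continuous P := ((mFourier (-m)).continuous.comp hq.continuous).mul hH
    have hint : ∀ v, IntegrableOn (fun x => P (x + ofInt v)) (box 0) := fun v =>
      ((hPc.comp (continuous_id.add continuous_const)).continuousOn.integrableOn_compact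
        (isCompact_univ_pi fun _ : ι => isCompact_Icc (a := (0 : ℝ)) (b := 1))).mono_set
        (fun x hx i _ => by
          have h := hx i
          simp only [Pi.zero_apply, Int.cast_zero, zero_add, mem_Ioc] at h
          exact ⟨h.1.le, h.2⟩)
    have hbd : ∀ v, ∫ x in box 0, ‖P (x + ofInt v)‖ ≤ volume.real (box (0 : ι → ℤ)) *
        (Real.exp (π * δ * Fintype.card ι) * Real.exp (-(π * δ / 2) * ∑ i, (v i : ℝ) ^ 2)) :=
      fun v => by
      rw [← smul_eq_mul, ← setIntegral_const]
      refine setIntegral_mono_on (hint v).norm (integrableOn_const volume_box_zero_lt_top.ne)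
        (measurableSet_box 0) fun x hx => ?_
      refine (hnorm _).trans ((gauss_add_le hδ hL x v).trans (mul_le_mul_of_nonneg_right
        (Real.exp_le_exp.2 ?_) (Real.exp_pos _).le))
      refine mul_le_mul_of_nonneg_left ?_ (by positivity)
      refine (Finset.sum_le_sum fun i _ => (?_ : x i ^ 2 ≤ 1)).trans (by simp)
      have h := hx i
      simp only [Pi.zero_apply, Int.cast_zero, zero_add, mem_Ioc] at h
      nlinarith
    rw [← integral_tsum_of_summable_integral_norm hint
      (Summable.of_nonneg_of_le (fun v => integral_nonneg fun _ => norm_nonneg _) hbd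
        ((summable_bound hδ _).mul_left _))]
    have htr : ∀ v, ∫ x in box 0, P (x + ofInt v) = ∫ x in box v, P x := fun v => by
      rw [← (measurePreserving_add_right volume (ofInt v)).setIntegral_preimage_emb
        (measurableEmbedding_addRight _) P (box v)]
      congr 2
      ext x
      exact (add_mem_box_iff x v).symm
    simp only [htr]
    have hPi : Integrable P := by
      refine ((?_ : Integrable (fun x : ι → ℝ => gauss L x))).mono' hPc.aestronglyMeasurable
        (Filter.Eventually.of_forall hnorm)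
      have hb' : Integrable fun x : ι → ℝ => Real.exp (-(π * δ) * ∑ i, x i ^ 2) := by
        have hi := (GaussianFourier.integrable_cexp_neg_mul_sum_add (ι := ι)
          (b := ((π * δ : ℝ) : ℂ)) (by simp; positivity) 0).norm
        refine hi.congr (Filter.Eventually.of_forall fun x => ?_)
        show ‖cexp (-((π * δ : ℝ) : ℂ) * ∑ i, (x i : ℂ) ^ 2 + ∑ i, (0 : ι → ℂ) i * (x i : ℂ))‖ = _
        simp only [Pi.zero_apply, zero_mul, Finset.sum_const_zero, add_zero, ← Complex.ofReal_pow,
          ← Complex.ofReal_sum, ← Complex.ofReal_neg, ← Complex.ofReal_mul,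
          Complex.norm_exp_ofReal]
      refine hb'.mono' (continuous_gauss L).aestronglyMeasurable
        (Filter.Eventually.of_forall fun x => ?_)
      rw [Real.norm_of_nonneg (gauss_pos L x).le, gauss]
      refine Real.exp_le_exp.2 ?_
      have := mul_le_mul_of_nonneg_left (hL x) Real.pi_pos.le
      linarith
    have hu := hasSum_integral_iUnion (fun v : ι → ℤ => measurableSet_box v) pairwise_disjoint_box
      (f := P) hPi.integrableOn
    rw [iUnion_box, setIntegral_univ] at hu
    exact hu.tsum_eq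
  have hval := (hasSum_mFourier_series_apply_of_summable (f := G) (by rw [hcoef]; exact hcs)
    (toTorus t)).tsum_eq
  rw [show G (toTorus t) = ∑' v : ι → ℤ, H (t + ofInt v) from hper t, hcoef] at hval
  exact hval.symm

/-- **Shifted Poisson summation with linear factors.** -/
theorem hfun_poisson [DecidableEq ι] {L N : Matrix ι ι ℝ} (h : Nᵀ * L = 1) (S : Finset ι)
    (t : ι → ℝ) :
    ∑' v : ι → ℤ, (hfun L S (t + ofInt v) : ℂ) = ((|L.det|⁻¹ : ℝ) : ℂ) * (-I) ^ S.card *
      ∑' m : ι → ℤ, mFourier m (toTorus t) * (hfun N S (ofInt m) : ℂ) := by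
  have hN : Lᵀ * N = 1 := by
    have := congrArg Matrix.transpose h
    rwa [Matrix.transpose_mul, Matrix.transpose_transpose, Matrix.transpose_one] at this
  rw [poisson_shift (H := fun x => (hfun L S x : ℂ)) (inv_transpose_smul h)
    (continuous_ofReal.comp (continuous_hfun L S))
    (fun x => by
      show ‖(hfun L S x : ℂ)‖ ≤ _
      rw [norm_real, Real.norm_eq_abs]
      exact abs_hfun_le L S x)
    (fun m => integral_hfun h S m)
    (by
      have := summable_hfun hN S (0 : ι → ℝ)
      simpa using this.mul_left (((|L.det|⁻¹ : ℝ) : ℂ) * (-I) ^ S.card)) t,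
    ← tsum_mul_left]
  exact tsum_congr fun m => by ring

end FA.HeckeCharFE
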