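import Fermat.Agent.HeckeCharFE.Shift
import Fermat.Agent.NaturalChebotarev.RayClass
import Fermat.Agent.ArtinReciprocity.Approximation

/-!
# The residue function and the signs of a ray class character

For a character `f` of the ideals modulo `𝔪` and the real places there is a set `S` of real places
with `f ((x)) = ∏_{w ∈ S} sgn σ_w (x)` for `x ≡ 1 (mod 𝔪)`. The function
`resFn x = f ((x)) ∏_{w ∈ S} sgn σ_w (x)` then depends only on `x` modulo `𝔪` and is multiplicative.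
For a fractional ideal `I` the function `res I x = f ((x) I⁻¹) ∏_{w ∈ S} sgn σ_w (x)` on `I` depends
only on `x` modulo `𝔪 I`.
-/

set_option autoImplicit false
set_option linter.style.haveILetI false
set_option linter.unusedSectionVars false

noncomputable section

open NumberField InfinitePlace Complex IsDedekindDomain
open scoped Real nonZeroDivisors Classical

namespace FA.HeckeCharFE

open FA.Hecke (IsRayChar IsNontrivial span_sup_congr mul_sup_eq_top exists_isReal_embedding)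

variable {K : Type*} [Field K] [NumberField K]

/-! ### Signs -/

theorem real_sign_mul (a b : ℝ) : Real.sign (a * b) = Real.sign a * Real.sign b := by
  rcases lt_trichotomy a 0 with ha | rfl | ha
  · rcases lt_trichotomy b 0 with hb | rfl | hb
    · rw [Real.sign_of_neg ha, Real.sign_of_neg hb, Real.sign_of_pos (mul_pos_of_neg_of_neg ha hb)]
      ring
    · simp
    · rw [Real.sign_of_neg ha, Real.sign_of_pos hb, Real.sign_of_neg (mul_neg_of_neg_of_pos ha hb)]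
      ring
  · simp
  · rcases lt_trichotomy b 0 with hb | rfl | hb
    · rw [Real.sign_of_pos ha, Real.sign_of_neg hb, Real.sign_of_neg (mul_neg_of_pos_of_neg ha hb)]
      ring
    · simp
    · rw [Real.sign_of_pos ha, Real.sign_of_pos hb, Real.sign_of_pos (mul_pos ha hb)]
      ring

/-- The product of the signs at the places of `S`. -/
def sgnS (S : Finset (InfinitePlace K)) (x : K) : ℂ := ∏ w ∈ S, (Real.sign (rv w x) : ℂ)

theorem sgnS_mul {S : Finset (InfinitePlace K)} (hS : ∀ w ∈ S, IsReal w) (x y : K) :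
    sgnS S (x * y) = sgnS S x * sgnS S y := by
  rw [sgnS, sgnS, sgnS, ← Finset.prod_mul_distrib]
  exact Finset.prod_congr rfl fun w hw => by rw [rv_mul (hS w hw), real_sign_mul, ofReal_mul]

theorem rv_eq_embedding {w : InfinitePlace K} (hw : IsReal w) (x : K) :
    rv w x = embedding_of_isReal hw x := by
  rw [rv, ← embedding_of_isReal_apply hw, ofReal_re]

theorem rv_ne_zero {w : InfinitePlace K} (hw : IsReal w) {x : K} (hx : x ≠ 0) : rv w x ≠ 0 := by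
  rw [rv_eq_embedding hw]
  exact (map_ne_zero _).2 hx

theorem sgnS_sq {S : Finset (InfinitePlace K)} (hS : ∀ w ∈ S, IsReal w) {x : K} (hx : x ≠ 0) :
    sgnS S x * sgnS S x = 1 := by
  rw [sgnS, ← Finset.prod_mul_distrib]
  refine Finset.prod_eq_one fun w hw => ?_
  rcases Real.sign_apply_eq_of_ne_zero _ (rv_ne_zero (hS w hw) hx) with h | h <;> rw [h] <;> simp

theorem norm_sgnS {S : Finset (InfinitePlace K)} (hS : ∀ w ∈ S, IsReal w) {x : K} (hx : x ≠ 0) :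
    ‖sgnS S x‖ = 1 := by
  rw [sgnS, norm_prod]
  refine Finset.prod_eq_one fun w hw => ?_
  rcases Real.sign_apply_eq_of_ne_zero _ (rv_ne_zero (hS w hw) hx) with h | h <;> rw [h] <;> simp

theorem conj_sgnS (S : Finset (InfinitePlace K)) (x : K) :
    starRingEnd ℂ (sgnS S x) = sgnS S x := by
  simp [sgnS, map_prod]

theorem sgnS_of_pos {S : Finset (InfinitePlace K)} {x : K} (hx : ∀ φ : K →+* ℝ, 0 < φ x)
    (hS : ∀ w ∈ S, IsReal w) : sgnS S x = 1 :=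
  Finset.prod_eq_one fun w hw => by
    rw [rv_eq_embedding (hS w hw), Real.sign_of_pos (hx _), ofReal_one]

theorem sgnS_one {S : Finset (InfinitePlace K)} (hS : ∀ w ∈ S, IsReal w) : sgnS S (1 : K) = 1 :=
  sgnS_of_pos (fun φ => by simp) hS

/-- The product of the signs times the values is the product of the absolute values. -/
theorem sgnS_mul_prod {S : Finset (InfinitePlace K)} (hS : ∀ w ∈ S, IsReal w) (x : K) :
    sgnS S x * ((∏ w ∈ S, rv w x : ℝ) : ℂ) = ((∏ w ∈ S, w x : ℝ) : ℂ) := by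
  rw [sgnS, ofReal_prod, ofReal_prod, ← Finset.prod_mul_distrib]
  refine Finset.prod_congr rfl fun w hw => ?_
  rw [← abs_rv (hS w hw), ← ofReal_mul]
  congr 1
  rcases lt_trichotomy (rv w x) 0 with h | h | h
  · rw [Real.sign_of_neg h, abs_of_neg h]; ring
  · rw [h]; simp
  · rw [Real.sign_of_pos h, abs_of_pos h]; ring

/-- **The sign set of a character.** -/
structure HasSigns (𝔪 : Ideal (𝓞 K)) (f : Ideal (𝓞 K) →* ℂ) (S : Finset (InfinitePlace K)) :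
    Prop where
  ray : IsRayChar 𝔪 f
  real : ∀ w ∈ S, IsReal w
  sgn : ∀ x : 𝓞 K, x ≠ 0 → x - 1 ∈ 𝔪 → f (Ideal.span {x}) = sgnS S (x : K)

/-- An element congruent to `1`, negative at exactly one real place. -/
theorem exists_negative_at {𝔪 : Ideal (𝓞 K)} (h𝔪 : 𝔪 ≠ ⊥) {w : InfinitePlace K} (hw : IsReal w) :
    ∃ y : 𝓞 K, y ≠ 0 ∧ y - 1 ∈ 𝔪 ∧ rv w (y : K) < 0 ∧
      ∀ w' : InfinitePlace K, IsReal w' → w' ≠ w → 0 < rv w' (y : K) := by
  obtain ⟨t, ht0, ht⟩ := FA.ArtinRec.exists_signs (K := K)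
    (fun φ => decide (φ ≠ embedding_of_isReal hw))
  set c := Ideal.absNorm 𝔪
  have hc : 1 ≤ c := Nat.one_le_iff_ne_zero.2 fun h => h𝔪 (Ideal.absNorm_eq_zero_iff.1 h)
  have htK : (t : K) ≠ 0 := RingOfIntegers.coe_ne_zero_iff.2 ht0
  obtain ⟨N, hN⟩ := exists_nat_gt (∑ φ : InfinitePlace K, |rv φ (t : K)|⁻¹)
  have hbig : ∀ w' : InfinitePlace K, IsReal w' →
      1 < (N : ℝ) * c * |rv w' (t : K)| := fun w' hw' => by
    have hpos := abs_pos.2 (rv_ne_zero hw' htK)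
    have h1 : |rv w' (t : K)|⁻¹ < N := lt_of_le_of_lt (Finset.single_le_sum
      (f := fun φ : InfinitePlace K => |rv φ (t : K)|⁻¹) (fun φ _ => inv_nonneg.2 (abs_nonneg _))
        (Finset.mem_univ w')) hN
    have h2 : 1 < (N : ℝ) * |rv w' (t : K)| := by
      rwa [inv_lt_iff_one_lt_mul₀' hpos, mul_comm] at h1
    have h3 : (N : ℝ) * |rv w' (t : K)| ≤ N * c * |rv w' (t : K)| :=
      mul_le_mul_of_nonneg_right (le_mul_of_one_le_right (Nat.cast_nonneg _) (by exact_mod_cast hc))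
        (abs_nonneg _)
    linarith
  set y : 𝓞 K := 1 + (N : 𝓞 K) * (c : 𝓞 K) * t with hy
  have hval : ∀ w' : InfinitePlace K, rv w' (y : K) = 1 + N * c * rv w' (t : K) := fun w' => by
    simp [hy, rv, Complex.mul_re]
  have hwt : rv w (t : K) < 0 := by
    rcases lt_trichotomy (rv w (t : K)) 0 with h | h | h
    · exact h
    · exact absurd h (rv_ne_zero hw htK)
    · rw [rv_eq_embedding hw] at h
      have := (ht _).1 h
      simp at this
  have hneg : rv w (y : K) < 0 := by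
    have := hbig w hw
    rw [abs_of_neg hwt] at this
    rw [hval]; linarith
  refine ⟨y, fun h => ?_, ?_, hneg, fun w' hw' hne => ?_⟩
  · rw [h] at hneg; simp [rv] at hneg
  · rw [hy, add_sub_cancel_left]
    exact 𝔪.mul_mem_right _ (𝔪.mul_mem_left _ (Ideal.absNorm_mem 𝔪))
  · have h : 0 < rv w' (t : K) := by
      rw [rv_eq_embedding hw', ht]
      simpa using fun h => hne (FA.ArtinRec.embedding_of_isReal_inj hw' hw h)
    rw [hval]
    positivity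

/-- **Every character of finite order has a sign set.** -/
theorem exists_hasSigns {𝔪 : Ideal (𝓞 K)} {f : Ideal (𝓞 K) →* ℂ} (h : IsRayChar 𝔪 f) :
    ∃ S, HasSigns 𝔪 f S := by
  choose y hy0 hy1 hyn hyp using fun w : {w : InfinitePlace K // IsReal w} =>
    exists_negative_at h.ne_bot w.2
  set S : Finset (InfinitePlace K) :=
    Finset.univ.filter fun w => ∃ hw : IsReal w, f (Ideal.span {y ⟨w, hw⟩}) ≠ 1
  have hreal : ∀ w ∈ S, IsReal w := fun w hw => (Finset.mem_filter.1 hw).2.choose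
  refine ⟨S, h, hreal, fun x hx0 hx1 => ?_⟩
  have hxK : (x : K) ≠ 0 := RingOfIntegers.coe_ne_zero_iff.2 hx0
  set T : Finset {w : InfinitePlace K // IsReal w} :=
    Finset.univ.filter fun w => rv w.1 (x : K) < 0
  set z := x * ∏ w ∈ T, y w with hz
  have hz1 : z - 1 ∈ 𝔪 := by
    rw [← Ideal.Quotient.eq_zero_iff_mem, map_sub, map_one, hz, map_mul, map_prod,
      Finset.prod_eq_one fun w _ => by
        rw [← (Ideal.Quotient.mk 𝔪).map_one]; exact Ideal.Quotient.eq.2 (hy1 w), mul_one,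
      ← (Ideal.Quotient.mk 𝔪).map_one, sub_eq_zero]
    exact Ideal.Quotient.eq.2 hx1
  have hzpos : ∀ φ : K →+* ℝ, 0 < φ z := fun φ => by
    obtain ⟨⟨w, hw⟩, rfl⟩ := exists_isReal_embedding φ
    rw [hz, ← rv_eq_embedding hw]
    push_cast
    rw [rv_eq_embedding hw, map_mul, map_prod]
    by_cases hT : (⟨w, hw⟩ : {w : InfinitePlace K // IsReal w}) ∈ T
    · rw [← Finset.mul_prod_erase T _ hT]
      refine mul_pos_of_neg_of_neg ?_ (mul_neg_of_neg_of_pos ?_ (Finset.prod_pos fun w' hw' => ?_))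
      · rw [← rv_eq_embedding hw]; exact (Finset.mem_filter.1 hT).2
      · rw [← rv_eq_embedding hw]; exact hyn ⟨w, hw⟩
      · rw [← rv_eq_embedding hw]
        exact hyp w' w hw fun he => (Finset.mem_erase.1 hw').1 (Subtype.ext he.symm)
    · refine mul_pos ?_ (Finset.prod_pos fun w' hw' => ?_)
      · rw [← rv_eq_embedding hw]
        exact lt_of_le_of_ne (not_lt.1 fun hlt => hT (Finset.mem_filter.2 ⟨Finset.mem_univ _, hlt⟩))
          (rv_ne_zero hw hxK).symm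
      · rw [← rv_eq_embedding hw]
        refine hyp w' w hw fun he => hT ?_
        rwa [show (⟨w, hw⟩ : {w : InfinitePlace K // IsReal w}) = w' from Subtype.ext he]
  have hpm : ∀ w : {w : InfinitePlace K // IsReal w},
      f (Ideal.span {y w}) = if w.1 ∈ S then -1 else 1 := fun w => by
    have h2 : f (Ideal.span {y w}) * f (Ideal.span {y w}) = 1 := by
      rw [← map_mul, Ideal.span_singleton_mul_span_singleton]
      refine h.ray _ (mul_ne_zero (hy0 w) (hy0 w)) ?_ fun φ => ?_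
      · rw [show y w * y w - 1 = (y w - 1) * (y w + 1) by ring]
        exact 𝔪.mul_mem_right _ (hy1 w)
      · push_cast
        rw [map_mul]
        exact mul_self_pos.2 ((map_ne_zero _).2 (RingOfIntegers.coe_ne_zero_iff.2 (hy0 w)))
    by_cases hw : w.1 ∈ S
    · rw [if_pos hw]
      exact (mul_self_eq_one_iff.1 h2).resolve_left (Finset.mem_filter.1 hw).2.choose_spec
    · rw [if_neg hw]
      by_contra h1
      exact hw (Finset.mem_filter.2 ⟨Finset.mem_univ _, w.2, h1⟩)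
  have hf := h.ray z (mul_ne_zero hx0 (Finset.prod_ne_zero_iff.2 fun w _ => hy0 w)) hz1 hzpos
  rw [← Ideal.span_singleton_mul_span_singleton, map_mul, ← Ideal.prod_span_singleton, map_prod,
    Finset.prod_congr rfl fun w _ => hpm w] at hf
  set P := ∏ w ∈ T, (if w.1 ∈ S then (-1 : ℂ) else 1) with hP
  have hPP : P * P = 1 := by
    rw [hP, ← Finset.prod_mul_distrib]
    exact Finset.prod_eq_one fun w _ => by split_ifs <;> norm_num
  have hsgn : sgnS S (x : K) = P := by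
    rw [sgnS, hP, ← Finset.prod_filter]
    rw [← Finset.prod_filter_mul_prod_filter_not S fun w => rv w (x : K) < 0,
      Finset.prod_eq_one (s := S.filter fun w => ¬rv w (x : K) < 0) fun w hw => ?_, mul_one]
    · refine (Finset.prod_bij (fun w _ => w.1) (fun w hw => ?_) (fun a _ b _ => Subtype.ext)
        (fun w hw => ⟨⟨w, hreal w (Finset.mem_filter.1 hw).1⟩, ?_, rfl⟩) fun w hw => ?_).symm
      · exact Finset.mem_filter.2 ⟨(Finset.mem_filter.1 hw).2,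
          (Finset.mem_filter.1 (Finset.mem_filter.1 hw).1).2⟩
      · exact Finset.mem_filter.2 ⟨Finset.mem_filter.2 ⟨Finset.mem_univ _,
          (Finset.mem_filter.1 hw).2⟩, (Finset.mem_filter.1 hw).1⟩
      · rw [Real.sign_of_neg (Finset.mem_filter.1 (Finset.mem_filter.1 hw).1).2]
        simp
    · rw [Real.sign_of_pos (lt_of_le_of_ne (not_lt.1 (Finset.mem_filter.1 hw).2)
        (rv_ne_zero (hreal w (Finset.mem_filter.1 hw).1) hxK).symm), ofReal_one]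
  rw [hsgn]
  calc f (Ideal.span {x}) = f (Ideal.span {x}) * P * P := by rw [mul_assoc, hPP, mul_one]
    _ = P := by rw [hf, one_mul]

theorem exists_mem_ne_zero (𝔪 : Ideal (𝓞 K)) :
    ∃ a : 𝓞 K, a ≠ 0 ∧ (𝔪 ≠ ⊥ → a ∈ 𝔪) := by
  by_cases h : 𝔪 = ⊥
  · exact ⟨1, one_ne_zero, fun h' => absurd h h'⟩
  · obtain ⟨a, ha, ha0⟩ := Submodule.exists_mem_ne_zero_of_ne_bot h
    exact ⟨a, ha0, fun _ => ha⟩

/-- The element itself, or a nonzero element of the modulus instead of `0`. -/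
def nzElt (𝔪 : Ideal (𝓞 K)) (x : 𝓞 K) : 𝓞 K :=
  if x = 0 then (exists_mem_ne_zero 𝔪).choose else x

theorem nzElt_ne_zero (𝔪 : Ideal (𝓞 K)) (x : 𝓞 K) : nzElt 𝔪 x ≠ 0 := by
  rw [nzElt]
  split_ifs with h
  · exact (exists_mem_ne_zero 𝔪).choose_spec.1
  · exact h

theorem nzElt_sub_mem {𝔪 : Ideal (𝓞 K)} (h : 𝔪 ≠ ⊥) (x : 𝓞 K) : nzElt 𝔪 x - x ∈ 𝔪 := by
  rw [nzElt]
  split_ifs with hx
  · rw [hx, sub_zero]; exact (exists_mem_ne_zero 𝔪).choose_spec.2 h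
  · simp

/-- `f ((x)) ∏_{w ∈ S} sgn σ_w (x)`, extended to `0` by periodicity. -/
def resFn (𝔪 : Ideal (𝓞 K)) (f : Ideal (𝓞 K) →* ℂ) (S : Finset (InfinitePlace K)) (x : 𝓞 K) : ℂ :=
  f (Ideal.span {nzElt 𝔪 x}) * sgnS S (nzElt 𝔪 x : K)

namespace HasSigns

variable {𝔪 : Ideal (𝓞 K)} {f : Ideal (𝓞 K) →* ℂ} {S : Finset (InfinitePlace K)}
  (h : HasSigns 𝔪 f S)

include h

theorem ne_bot : 𝔪 ≠ ⊥ := h.ray.ne_bot

theorem conj : HasSigns 𝔪 ((starRingEnd ℂ).toMonoidHom.comp f) S where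
  ray := h.ray.conj
  real := h.real
  sgn x hx0 hx := by
    rw [MonoidHom.comp_apply, h.sgn x hx0 hx]
    exact conj_sgnS S _

theorem resFn_eq {x : 𝓞 K} (hx : x ≠ 0) :
    resFn 𝔪 f S x = f (Ideal.span {x}) * sgnS S (x : K) := by
  rw [resFn, nzElt, if_neg hx]

theorem resFn_eq_congr {x y : 𝓞 K} (hx : x ≠ 0) (hy : y ≠ 0) (hxy : x - y ∈ 𝔪) :
    f (Ideal.span {x}) * sgnS S (x : K) = f (Ideal.span {y}) * sgnS S (y : K) := by
  have hx' : Ideal.span {x} ≠ ⊥ := by simpa using hx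
  have hy' : Ideal.span {y} ≠ ⊥ := by simpa using hy
  by_cases hc : Ideal.span {y} ⊔ 𝔪 = ⊤
  · obtain ⟨z, hz0, hz1⟩ : ∃ z : 𝓞 K, z ≠ 0 ∧ y * z - 1 ∈ 𝔪 := by
      obtain ⟨-, h2, -⟩ := FA.Hecke.ray_pow h.ne_bot hy hc
      have hN := FA.Hecke.unitCount_pos h.ne_bot
      refine ⟨y ^ (2 * FA.Hecke.unitCount 𝔪 - 1), pow_ne_zero _ hy, ?_⟩
      rwa [← pow_succ', show 2 * FA.Hecke.unitCount 𝔪 - 1 + 1 = 2 * FA.Hecke.unitCount 𝔪 by omega]
    have hxz : x * z - 1 ∈ 𝔪 := by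
      rw [show x * z - 1 = (x - y) * z + (y * z - 1) by ring]
      exact 𝔪.add_mem (𝔪.mul_mem_right _ hxy) hz1
    have hzK : (z : K) ≠ 0 := RingOfIntegers.coe_ne_zero_iff.2 hz0
    have key : ∀ u : 𝓞 K, u ≠ 0 → u * z - 1 ∈ 𝔪 →
        f (Ideal.span {u}) * sgnS S (u : K) * (f (Ideal.span {z}) * sgnS S (z : K)) = 1 := by
      intro u hu h1
      rw [mul_mul_mul_comm, ← map_mul, Ideal.span_singleton_mul_span_singleton,
        ← sgnS_mul h.real, ← map_mul, h.sgn _ (mul_ne_zero hu hz0) h1,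
        sgnS_sq h.real (RingOfIntegers.coe_ne_zero_iff.2 (mul_ne_zero hu hz0))]
    have h1 := key x hx hxz
    exact mul_right_cancel₀ (fun h0 => by rw [h0, mul_zero] at h1; exact zero_ne_one h1)
      (h1.trans (key y hy hz1).symm)
  · rw [h.ray.eq_zero_of_not hy' hc, h.ray.eq_zero_of_not hx' (by rwa [span_sup_congr hxy])]
    simp

theorem resFn_congr {x y : 𝓞 K} (hxy : x - y ∈ 𝔪) : resFn 𝔪 f S x = resFn 𝔪 f S y := by
  refine h.resFn_eq_congr (nzElt_ne_zero _ _) (nzElt_ne_zero _ _) ?_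
  rw [show nzElt 𝔪 x - nzElt 𝔪 y = (nzElt 𝔪 x - x) + (x - y) - (nzElt 𝔪 y - y) by ring]
  exact 𝔪.sub_mem (𝔪.add_mem (nzElt_sub_mem h.ne_bot x) hxy) (nzElt_sub_mem h.ne_bot y)

theorem resFn_one : resFn 𝔪 f S 1 = 1 := by
  rw [h.resFn_eq one_ne_zero, Ideal.span_singleton_one, ← Ideal.one_eq_top, map_one, one_mul]
  push_cast
  exact sgnS_one h.real

theorem resFn_mul (x y : 𝓞 K) : resFn 𝔪 f S (x * y) = resFn 𝔪 f S x * resFn 𝔪 f S y := by
  have hx := nzElt_ne_zero 𝔪 x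
  have hy := nzElt_ne_zero 𝔪 y
  rw [h.resFn_congr (y := nzElt 𝔪 x * nzElt 𝔪 y), h.resFn_eq (mul_ne_zero hx hy), resFn, resFn,
    ← Ideal.span_singleton_mul_span_singleton, map_mul]
  · push_cast
    rw [sgnS_mul h.real]
    ring
  rw [show x * y - nzElt 𝔪 x * nzElt 𝔪 y =
    -((nzElt 𝔪 x - x) * nzElt 𝔪 y + x * (nzElt 𝔪 y - y)) by ring]
  exact 𝔪.neg_mem (𝔪.add_mem (𝔪.mul_mem_right _ (nzElt_sub_mem h.ne_bot x))
    (𝔪.mul_mem_left _ (nzElt_sub_mem h.ne_bot y)))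

theorem norm_resFn_le (x : 𝓞 K) : ‖resFn 𝔪 f S x‖ ≤ 1 := by
  have hx := nzElt_ne_zero 𝔪 x
  rw [resFn, norm_mul, norm_sgnS h.real (RingOfIntegers.coe_ne_zero_iff.2 hx), mul_one]
  exact h.ray.norm_le (by simpa using hx)

theorem norm_resFn {x : 𝓞 K} (hc : Ideal.span {x} ⊔ 𝔪 = ⊤) : ‖resFn 𝔪 f S x‖ = 1 := by
  have hx := nzElt_ne_zero 𝔪 x
  have hs : Ideal.span {nzElt 𝔪 x} ≠ ⊥ := by simpa using hx
  rw [resFn, norm_mul, norm_sgnS h.real (RingOfIntegers.coe_ne_zero_iff.2 hx), mul_one]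
  refine h.ray.norm_eq_one hs ((h.ray.ne_zero_iff _ hs).2 ?_)
  rw [span_sup_congr (nzElt_sub_mem h.ne_bot x), hc]

theorem resFn_eq_zero {x : 𝓞 K} (hc : ¬Ideal.span {x} ⊔ 𝔪 = ⊤) : resFn 𝔪 f S x = 0 := by
  have hx := nzElt_ne_zero 𝔪 x
  rw [resFn, h.ray.eq_zero_of_not (by simpa using hx)
    (by rwa [span_sup_congr (nzElt_sub_mem h.ne_bot x)]), zero_mul]

theorem resFn_conj (x : 𝓞 K) :
    resFn 𝔪 ((starRingEnd ℂ).toMonoidHom.comp f) S x = starRingEnd ℂ (resFn 𝔪 f S x) := by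
  rw [resFn, resFn, map_mul, conj_sgnS]
  rfl

theorem resFn_unit (u : (𝓞 K)ˣ) : resFn 𝔪 f S u = sgnS S ((u : 𝓞 K) : K) := by
  rw [h.resFn_eq u.ne_zero, Ideal.span_singleton_eq_top.2 u.isUnit, ← Ideal.one_eq_top, map_one,
    one_mul]

end HasSigns

/-! ### Fractional ideals -/

theorem exists_scale (𝔪 : Ideal (𝓞 K)) (I : (FractionalIdeal (𝓞 K)⁰ K)ˣ) :
    ∃ (γ : K) (J : Ideal (𝓞 K)), γ ≠ 0 ∧ J ≠ ⊥ ∧
      (J : FractionalIdeal (𝓞 K)⁰ K) = FractionalIdeal.spanSingleton (𝓞 K)⁰ γ * I ∧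
      (𝔪 ≠ ⊥ → J ⊔ 𝔪 = ⊤) := by
  obtain ⟨J, hJ, hc⟩ : ∃ J : (Ideal (𝓞 K))⁰,
      ClassGroup.mk0 J = ClassGroup.mk K I ∧ (𝔪 ≠ ⊥ → J.1 ⊔ 𝔪 = ⊤) := by
    by_cases h : 𝔪 = ⊥
    · obtain ⟨J, hJ⟩ := ClassGroup.mk0_surjective (ClassGroup.mk K I)
      exact ⟨J, hJ, fun h' => absurd h h'⟩
    · obtain ⟨J, hJ, hc⟩ := FA.Hecke.exists_coprime_class h (ClassGroup.mk K I)⁻¹
      exact ⟨J, by rwa [inv_inv] at hJ, fun _ => hc⟩
  have h1 : ClassGroup.mk K (FractionalIdeal.mk0 K J * I⁻¹) = 1 := by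
    rw [map_mul, map_inv, ClassGroup.mk_mk0, hJ, mul_inv_cancel]
  obtain ⟨γ, hγ⟩ := (FractionalIdeal.isPrincipal_iff _).1 (ClassGroup.mk_eq_one_iff.1 h1)
  have hJI : (J.1 : FractionalIdeal (𝓞 K)⁰ K) = FractionalIdeal.spanSingleton (𝓞 K)⁰ γ * I := by
    rw [← hγ, Units.val_mul, Units.inv_mul_cancel_right]
    rfl
  refine ⟨γ, J, fun h0 => ?_, nonZeroDivisors.coe_ne_zero J, hJI, hc⟩
  rw [h0, FractionalIdeal.spanSingleton_zero, zero_mul, FractionalIdeal.coeIdeal_eq_zero] at hJI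
  exact nonZeroDivisors.coe_ne_zero J hJI

/-- The factor bringing `I` to an integral ideal prime to `𝔪`. -/
def gam (𝔪 : Ideal (𝓞 K)) (I : (FractionalIdeal (𝓞 K)⁰ K)ˣ) : K := (exists_scale 𝔪 I).choose

/-- The integral ideal prime to `𝔪`. -/
def intIdeal (𝔪 : Ideal (𝓞 K)) (I : (FractionalIdeal (𝓞 K)⁰ K)ˣ) : Ideal (𝓞 K) :=
  (exists_scale 𝔪 I).choose_spec.choose

theorem intIdeal_spec (𝔪 : Ideal (𝓞 K)) (I : (FractionalIdeal (𝓞 K)⁰ K)ˣ) :
    gam 𝔪 I ≠ 0 ∧ intIdeal 𝔪 I ≠ ⊥ ∧ (intIdeal 𝔪 I : FractionalIdeal (𝓞 K)⁰ K) =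
        FractionalIdeal.spanSingleton (𝓞 K)⁰ (gam 𝔪 I) * I ∧
      (𝔪 ≠ ⊥ → intIdeal 𝔪 I ⊔ 𝔪 = ⊤) :=
  (exists_scale 𝔪 I).choose_spec.choose_spec

/-- The integer `γ x`. -/
def toInt (𝔪 : Ideal (𝓞 K)) (I : (FractionalIdeal (𝓞 K)⁰ K)ˣ) (x : K) : 𝓞 K :=
  if h : ∃ x' : 𝓞 K, (x' : K) = gam 𝔪 I * x then h.choose else 0

theorem mem_mul_iff {𝔪 : Ideal (𝓞 K)} {I : (FractionalIdeal (𝓞 K)⁰ K)ˣ} {x : K}
    (B : Ideal (𝓞 K)) :
    x ∈ (I : FractionalIdeal (𝓞 K)⁰ K) * (B : FractionalIdeal (𝓞 K)⁰ K) ↔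
      ∃ x' ∈ intIdeal 𝔪 I * B, (x' : K) = gam 𝔪 I * x := by
  obtain ⟨hγ, -, hJ, -⟩ := intIdeal_spec 𝔪 I
  constructor
  · intro hx
    have h : gam 𝔪 I * x ∈ ((intIdeal 𝔪 I * B : Ideal (𝓞 K)) : FractionalIdeal (𝓞 K)⁰ K) := by
      rw [FractionalIdeal.coeIdeal_mul, hJ, mul_assoc]
      exact FractionalIdeal.mem_singleton_mul.2 ⟨x, hx, rfl⟩
    exact (FractionalIdeal.mem_coeIdeal _).1 h
  · rintro ⟨x', hx', he⟩
    have h : gam 𝔪 I * x ∈ ((intIdeal 𝔪 I * B : Ideal (𝓞 K)) : FractionalIdeal (𝓞 K)⁰ K) :=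
      (FractionalIdeal.mem_coeIdeal _).2 ⟨x', hx', he⟩
    rw [FractionalIdeal.coeIdeal_mul, hJ, mul_assoc, FractionalIdeal.mem_singleton_mul] at h
    obtain ⟨y, hy, hye⟩ := h
    rwa [mul_left_cancel₀ hγ hye]

theorem toInt_spec (𝔪 : Ideal (𝓞 K)) {I : (FractionalIdeal (𝓞 K)⁰ K)ˣ} {x : K}
    (hx : x ∈ (I : Set K)) :
    (toInt 𝔪 I x : K) = gam 𝔪 I * x ∧ toInt 𝔪 I x ∈ intIdeal 𝔪 I := by
  have hx' : x ∈ (I : FractionalIdeal (𝓞 K)⁰ K) * ((⊤ : Ideal (𝓞 K)) : FractionalIdeal (𝓞 K)⁰ K) := by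
    rw [FractionalIdeal.coeIdeal_top, mul_one]; exact hx
  obtain ⟨x', hx', he⟩ := (mem_mul_iff (𝔪 := 𝔪) ⊤).1 hx'
  have hex : ∃ x' : 𝓞 K, (x' : K) = gam 𝔪 I * x := ⟨x', he⟩
  have ht : toInt 𝔪 I x = x' := by
    rw [toInt, dif_pos hex]
    exact RingOfIntegers.ext (hex.choose_spec.trans he.symm)
  rw [ht]
  exact ⟨he, Ideal.mul_le_left hx'⟩

/-- `f ((x) I⁻¹) ∏_{w ∈ S} sgn σ_w (x)` on `I`, extended to `0` by periodicity. -/
def res (𝔪 : Ideal (𝓞 K)) (f : Ideal (𝓞 K) →* ℂ) (S : Finset (InfinitePlace K))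
    (I : (FractionalIdeal (𝓞 K)⁰ K)ˣ) (x : K) : ℂ :=
  if x ∈ (I : Set K) then
    (f (intIdeal 𝔪 I))⁻¹ * sgnS S (gam 𝔪 I) * resFn 𝔪 f S (toInt 𝔪 I x) else 0

namespace HasSigns

variable {𝔪 : Ideal (𝓞 K)} {f : Ideal (𝓞 K) →* ℂ} {S : Finset (InfinitePlace K)}
  (h : HasSigns 𝔪 f S) (I : (FractionalIdeal (𝓞 K)⁰ K)ˣ)

include h

theorem f_intIdeal_ne_zero : f (intIdeal 𝔪 I) ≠ 0 :=
  (h.ray.ne_zero_iff _ (intIdeal_spec 𝔪 I).2.1).2 ((intIdeal_spec 𝔪 I).2.2.2 h.ne_bot)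

theorem norm_res_le (x : K) : ‖res 𝔪 f S I x‖ ≤ 1 := by
  rw [res]
  split_ifs
  · obtain ⟨hγ, hJ, -, -⟩ := intIdeal_spec 𝔪 I
    rw [norm_mul, norm_mul, norm_inv, h.ray.norm_eq_one hJ (h.f_intIdeal_ne_zero I), inv_one,
      one_mul, norm_sgnS h.real hγ, one_mul]
    exact h.norm_resFn_le _
  · simp

/-- **`res` is `f ((x) I⁻¹)` times the signs.** -/
theorem res_eq {x : K} (hx : x ∈ (I : Set K)) (hx0 : x ≠ 0) {A : Ideal (𝓞 K)}
    (hA : (A : FractionalIdeal (𝓞 K)⁰ K) * I = FractionalIdeal.spanSingleton (𝓞 K)⁰ x) :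
    res 𝔪 f S I x = f A * sgnS S x := by
  obtain ⟨hγ, -, hJ, -⟩ := intIdeal_spec 𝔪 I
  obtain ⟨he, -⟩ := toInt_spec 𝔪 hx
  set x' := toInt 𝔪 I x
  have hx'0 : x' ≠ 0 := fun h0 => mul_ne_zero hγ hx0 (by rw [← he, h0]; simp)
  have hspan : Ideal.span {x'} = intIdeal 𝔪 I * A := by
    refine FractionalIdeal.coeIdeal_injective (K := K) ?_
    show (Ideal.span {x'} : FractionalIdeal (𝓞 K)⁰ K) = ((intIdeal 𝔪 I * A : Ideal (𝓞 K)) :)
    rw [FractionalIdeal.coeIdeal_span_singleton, FractionalIdeal.coeIdeal_mul, hJ,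
      show algebraMap (𝓞 K) K x' = gam 𝔪 I * x from he, mul_assoc,
      mul_comm (I : FractionalIdeal (𝓞 K)⁰ K), hA, FractionalIdeal.spanSingleton_mul_spanSingleton]
  rw [res, if_pos hx, h.resFn_eq hx'0, hspan, map_mul, he, sgnS_mul h.real]
  have := h.f_intIdeal_ne_zero I
  field_simp
  linear_combination (f A * sgnS S x) * sgnS_sq h.real hγ

/-- The integral ideal `(x) I⁻¹`. -/
theorem exists_quotient_ideal {x : K} (hx : x ∈ (I : Set K)) :
    ∃ A : Ideal (𝓞 K), (A : FractionalIdeal (𝓞 K)⁰ K) * I =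
      FractionalIdeal.spanSingleton (𝓞 K)⁰ x := by
  obtain ⟨hγ, -, hJ, -⟩ := intIdeal_spec 𝔪 I
  obtain ⟨he, hmem⟩ := toInt_spec 𝔪 hx
  obtain ⟨A, hA⟩ := Ideal.dvd_iff_le.2 ((Ideal.span_singleton_le_iff_mem _).2 hmem)
  refine ⟨A, mul_left_cancel₀ ((FractionalIdeal.spanSingleton_ne_zero_iff).2 hγ) ?_⟩
  rw [← mul_assoc, mul_comm (FractionalIdeal.spanSingleton (𝓞 K)⁰ (gam 𝔪 I)), mul_assoc, ← hJ,
    mul_comm, ← FractionalIdeal.coeIdeal_mul, ← hA, FractionalIdeal.coeIdeal_span_singleton,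
    FractionalIdeal.spanSingleton_mul_spanSingleton]
  exact congrArg _ he

theorem res_congr {x x' : K} (hx : x ∈ (I : Set K)) (hx' : x' ∈ (I : Set K))
    (hd : x - x' ∈ (I : FractionalIdeal (𝓞 K)⁰ K) * (𝔪 : FractionalIdeal (𝓞 K)⁰ K)) :
    res 𝔪 f S I x = res 𝔪 f S I x' := by
  rw [res, res, if_pos hx, if_pos hx', h.resFn_congr (y := toInt 𝔪 I x')]
  obtain ⟨d, hd, hde⟩ := (mem_mul_iff (𝔪 := 𝔪) 𝔪).1 hd
  have : toInt 𝔪 I x - toInt 𝔪 I x' = d := RingOfIntegers.coe_injective (by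
    have e : ∀ {z : K}, z ∈ (I : Set K) → algebraMap (𝓞 K) K (toInt 𝔪 I z) = gam 𝔪 I * z :=
      fun hz => (toInt_spec 𝔪 hz).1
    rw [map_sub, e hx, e hx', ← mul_sub]
    exact hde.symm)
  rw [this]
  exact Ideal.mul_le_right hd

theorem res_unit_mul {x : K} (hx : x ∈ (I : Set K)) (u : (𝓞 K)ˣ) :
    res 𝔪 f S I (((u : 𝓞 K) : K) * x) = sgnS S ((u : 𝓞 K) : K) * res 𝔪 f S I x := by
  have hux : ((u : 𝓞 K) : K) * x ∈ (I : Set K) :=
    Submodule.smul_mem ((I : FractionalIdeal (𝓞 K)⁰ K) : Submodule (𝓞 K) K) (u : 𝓞 K) hx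
  rw [res, res, if_pos hx, if_pos hux, show toInt 𝔪 I (((u : 𝓞 K) : K) * x) = u * toInt 𝔪 I x from
    RingOfIntegers.coe_injective (by
      have e : ∀ {z : K}, z ∈ (I : Set K) → algebraMap (𝓞 K) K (toInt 𝔪 I z) = gam 𝔪 I * z :=
        fun hz => (toInt_spec 𝔪 hz).1
      rw [map_mul, e hux, e hx]
      ring), h.resFn_mul, h.resFn_unit]
  ring

theorem res_conj (x : K) :
    res 𝔪 ((starRingEnd ℂ).toMonoidHom.comp f) S I x = starRingEnd ℂ (res 𝔪 f S I x) := by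
  rw [res, res]
  split_ifs
  · rw [h.resFn_conj, map_mul, map_mul, map_inv₀, conj_sgnS]
    rfl
  · simp

end HasSigns

end FA.HeckeCharFE
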