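import Fermat.Agent.HeckeCharFE.Poisson
import Fermat.Agent.HeckeFE.Theta

/-!
# The theta transformation of a coset, with linear factors at real places

For a set `S` of real places let `cterm S y x = ∏_{w ∈ S} √y_w σ_w (x) exp (-π q_y (x))`. Then the
sum over a coset `a + M` of a fractional ideal is
`(N M √|d| ∏ √y_w ^ mult_w)⁻¹ (-i)^|S|` times the sum of `e (Tr (z a)) cterm S (1/y) z` over the
dual ideal.
-/

set_option autoImplicit false
set_option linter.style.haveILetI false
set_option linter.unusedSectionVars false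

noncomputable section

open NumberField InfinitePlace Matrix Module Complex
open scoped Real nonZeroDivisors Classical

namespace FA.HeckeCharFE

open FA.HeckeFE

variable {K : Type*} [Field K] [NumberField K]

/-- The value at a place, meant for real places. -/
def rv (w : InfinitePlace K) (x : K) : ℝ := (w.embedding x).re

/-- `exp (2 π i Tr x)`. -/
def trChar (x : K) : ℂ := cexp (2 * π * I * ((Algebra.trace ℚ K x : ℚ) : ℂ))

/-- `∏_{w ∈ S} √y_w σ_w (x) exp (-π q_y (x))`. -/
def cterm (S : Finset (InfinitePlace K)) (y : InfinitePlace K → ℝ) (x : K) : ℝ :=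
  (∏ w ∈ S, √(y w) * rv w x) * Real.exp (-π * qform y x)

theorem trChar_add (x y : K) : trChar (x + y) = trChar x * trChar y := by
  rw [trChar, trChar, trChar, ← Complex.exp_add, map_add, Rat.cast_add, mul_add]

theorem trChar_eq_one_of_int {x : K} {n : ℤ} (h : Algebra.trace ℚ K x = n) : trChar x = 1 := by
  rw [trChar, h, Rat.cast_intCast, mul_comm, Complex.exp_int_mul_two_pi_mul_I]

theorem norm_trChar (x : K) : ‖trChar x‖ = 1 := by
  rw [trChar, Complex.norm_exp]
  simp

theorem rv_sq_le (w : InfinitePlace K) (x : K) : rv w x ^ 2 ≤ w x ^ 2 := by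
  rw [← norm_embedding_eq w x, rv, ← sq_abs (w.embedding x).re]
  exact pow_le_pow_left₀ (abs_nonneg _) (Complex.abs_re_le_norm _) 2

theorem rv_mul {w : InfinitePlace K} (hw : IsReal w) (x y : K) :
    rv w (x * y) = rv w x * rv w y := by
  have h : ∀ z, (w.embedding z).im = 0 := fun z => by
    rw [← embedding_of_isReal_apply hw, ofReal_im]
  simp [rv, map_mul, Complex.mul_re, h]

theorem abs_rv {w : InfinitePlace K} (hw : IsReal w) (x : K) : |rv w x| = w x := by
  rw [rv, ← norm_embedding_eq w x, ← embedding_of_isReal_apply hw, ofReal_re, norm_real,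
    Real.norm_eq_abs]

/-- The linear factors cost half of the Gaussian. -/
theorem abs_cterm_le (S : Finset (InfinitePlace K)) {y : InfinitePlace K → ℝ} (hy : ∀ w, 0 ≤ y w)
    (x : K) : |cterm S y x| ≤ Real.exp (-π * qform (fun w => y w / 2) x) := by
  have h1 : |∏ w ∈ S, √(y w) * rv w x| ≤ Real.exp (π * qform (fun w => y w / 2) x) := by
    rw [Finset.abs_prod]
    refine (Finset.prod_le_prod (fun w _ => abs_nonneg _) fun w _ => abs_le_exp_half _).trans ?_
    rw [← Real.exp_sum, qform, Finset.mul_sum]
    refine Real.exp_le_exp.2 ((Finset.sum_le_sum fun w _ => ?_).trans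
      (Finset.sum_le_sum_of_subset_of_nonneg (Finset.subset_univ S) fun w _ _ =>
        mul_nonneg Real.pi_pos.le
          (mul_nonneg (mul_nonneg (Nat.cast_nonneg _) (by linarith [hy w])) (sq_nonneg _))))
    rw [mul_pow, Real.sq_sqrt (hy w)]
    calc π / 2 * (y w * rv w x ^ 2) = π * (1 * (y w / 2) * rv w x ^ 2) := by ring
      _ ≤ π * ((mult w : ℝ) * (y w / 2) * w x ^ 2) := by
        refine mul_le_mul_of_nonneg_left (mul_le_mul (mul_le_mul_of_nonneg_right ?_
          (by linarith [hy w])) (rv_sq_le w x) (sq_nonneg _)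
            (mul_nonneg (Nat.cast_nonneg _) (by linarith [hy w]))) Real.pi_pos.le
        exact_mod_cast mult_pos (w := w)
  rw [cterm, abs_mul, Real.abs_exp]
  refine (mul_le_mul_of_nonneg_right h1 (Real.exp_pos _).le).trans_eq ?_
  rw [← Real.exp_add]
  congr 1
  simp only [qform, Finset.mul_sum, ← Finset.sum_add_distrib]
  exact Finset.sum_congr rfl fun w _ => by ring

variable {ι : Type*} [Fintype ι] (e : ι ≃ (K →+* ℂ))

theorem formMat_mulVec_rat (y : InfinitePlace K → ℝ) (b : ι → K) (v : ι → ℚ) (j : ι) :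
    (formMat e y b *ᵥ fun i => (v i : ℝ)) j = √(y (mk (e j))) * rp (e j) (∑ i, v i • b i) := by
  simp only [formMat, Matrix.mulVec, dotProduct, Matrix.of_apply, rp, map_sum, Complex.re_sum,
    Complex.im_sum, ← Finset.sum_add_distrib, Finset.mul_sum]
  refine Finset.sum_congr rfl fun i _ => ?_
  rw [Rat.smul_def, map_mul, map_ratCast, Complex.mul_re, Complex.mul_im, Complex.ratCast_re,
    Complex.ratCast_im]
  ring

theorem embedding_facts {w : InfinitePlace K} (hw : IsReal w) (x : K) :
    mk w.embedding = w ∧ rp w.embedding x = rv w x ∧ rm w.embedding x = rv w x := by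
  have h : (w.embedding x).im = 0 := by rw [← embedding_of_isReal_apply hw, ofReal_im]
  refine ⟨mk_embedding w, ?_, ?_⟩ <;> simp [rp, rm, rv, h]

/-- The coordinates of a set of places. -/
def placeIdx (S : Finset (InfinitePlace K)) : Finset ι :=
  S.image fun w => e.symm w.embedding

theorem placeIdx_injOn (S : Finset (InfinitePlace K)) :
    Set.InjOn (fun w : InfinitePlace K => e.symm w.embedding) S := fun a _ b _ h => by
  rw [← mk_embedding a, ← mk_embedding b, e.symm.injective h]

theorem card_placeIdx (S : Finset (InfinitePlace K)) : (placeIdx e S).card = S.card :=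
  Finset.card_image_of_injOn (placeIdx_injOn e S)

variable {S : Finset (InfinitePlace K)} (hS : ∀ w ∈ S, IsReal w) {y : InfinitePlace K → ℝ}
  (hy : ∀ w, 0 < y w)

include hS hy in
theorem hfun_formMat (b : ι → K) (v : ι → ℚ) :
    hfun (formMat e y b) (placeIdx e S) (fun i => (v i : ℝ)) = cterm S y (∑ i, v i • b i) := by
  rw [hfun, cterm, gauss]
  congr 1
  · rw [placeIdx, Finset.prod_image (placeIdx_injOn e S)]
    refine Finset.prod_congr rfl fun w hw => ?_
    obtain ⟨h1, h2, -⟩ := embedding_facts (hS w hw) (∑ i, v i • b i)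
    rw [formMat_mulVec_rat, e.apply_symm_apply, h1, h2]
  · rw [qform_eq_sum, ← e.sum_comp]
    simp only [formMat_mulVec_rat, mul_pow, Real.sq_sqrt (hy _).le]

include hS hy in
theorem hfun_dualMat (c : ι → K) (v : ι → ℤ) :
    hfun (dualMat e y c) (placeIdx e S) (ofInt v) =
      cterm S (fun w => (y w)⁻¹) (∑ i, v i • c i) := by
  rw [hfun, cterm, gauss_dualMat e hy]
  congr 1
  rw [placeIdx, Finset.prod_image (placeIdx_injOn e S)]
  refine Finset.prod_congr rfl fun w hw => ?_
  obtain ⟨h1, -, h3⟩ := embedding_facts (hS w hw) (∑ i, v i • c i)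
  rw [dualMat_mulVec, e.apply_symm_apply, h1, h3, Real.sqrt_inv]

variable (M : (FractionalIdeal (𝓞 K)⁰ K)ˣ) in
include hS hy in
/-- **The theta transformation of a coset.** -/
theorem coset_transform (a : K) :
    ∑' x : (M : Set K), (cterm S y (a + x) : ℂ) =
      (((normR M * √|((discr K : ℤ) : ℝ)| * ∏ w, √(y w) ^ mult w)⁻¹ : ℝ) : ℂ) * (-I) ^ S.card *
        ∑' z : (dualIdeal M : Set K),
          trChar ((z : K) * a) * (cterm S (fun w => (y w)⁻¹) z : ℂ) := by
  set b := basisOfFractionalIdeal K M
  have hcard : Fintype.card (Free.ChooseBasisIndex ℤ M) = Fintype.card (K →+* ℂ) := by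
    rw [← Module.finrank_eq_card_basis b, NumberField.Embeddings.card]
  set e := Fintype.equivOfCardEq hcard
  have hI : ∀ x, x ∈ (M : Set K) ↔ x ∈ Submodule.span ℤ (Set.range b) := fun x =>
    (mem_span_basisOfFractionalIdeal K).symm
  have hI' : ∀ x, x ∈ (dualIdeal M : Set K) ↔ x ∈ Submodule.span ℤ (Set.range b.traceDual) :=
    fun x => mem_dualIdeal_iff M x
  have hN := dualMat_transpose_mul e hy (b := b) (c := b.traceDual)
    fun i j => b.trace_traceDual_mul i j
  set r : Free.ChooseBasisIndex ℤ M → ℚ := fun i => b.repr a i with hr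
  have ha : a = ∑ i, r i • b i := (b.sum_repr a).symm
  rw [← (latticeEquiv b hI).tsum_eq, ← (latticeEquiv b.traceDual hI').tsum_eq]
  simp only [coe_latticeEquiv]
  have hx : ∀ v : Free.ChooseBasisIndex ℤ M → ℤ,
      cterm S y (a + ∑ i, v i • b i) =
        hfun (formMat e y b) (placeIdx e S) ((fun i => (r i : ℝ)) + ofInt v) := fun v => by
    rw [show ((fun i => (r i : ℝ)) + ofInt v) = fun i => ((r i + v i : ℚ) : ℝ) from
        funext fun i => by simp [ofInt],
      hfun_formMat e hS hy]
    congr 1
    rw [ha, ← Finset.sum_add_distrib]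
    exact Finset.sum_congr rfl fun i _ => by rw [add_smul, Int.cast_smul_eq_zsmul]
  have hz : ∀ v : Free.ChooseBasisIndex ℤ M → ℤ,
      trChar ((∑ i, v i • b.traceDual i) * a) =
        UnitAddTorus.mFourier v (toTorus fun i => (r i : ℝ)) := fun v => by
    rw [mFourier_toTorus, trChar]
    congr 2
    conv_lhs => rw [ha]
    simp only [← Int.cast_smul_eq_zsmul ℚ, Finset.sum_mul, Finset.mul_sum, map_sum, Rat.cast_sum,
      smul_mul_assoc, mul_smul_comm, map_smul, Basis.trace_traceDual_mul, smul_eq_mul]
    refine Finset.sum_congr rfl fun i _ => ?_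
    rw [Finset.sum_eq_single i (fun j _ hj => by rw [if_neg hj.symm]; simp) (by simp), if_pos rfl]
    push_cast
    ring
  simp only [hx, hz, ← hfun_dualMat e hS hy]
  rw [hfun_poisson hN, card_placeIdx, abs_det_formMat e, abs_discr_basis,
    Real.sqrt_mul (sq_nonneg _), Real.sqrt_sq (normR_pos M).le]
  congr 3
  ring

end FA.HeckeCharFE
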