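import Fermat.Agent.HeckeCharFE.Gauss
import Fermat.Agent.HeckeFE.Kernel

/-!
# The theta series of a primitive character

`θ (f, I, y) = ∑_{x ∈ I} res I x cterm S y x`. With weights `wt` carrying the conductor it becomes,
under `(L, z) ↦ (-L, -z)`, `rootC exp (-L / 2)` times the series of the conjugate character on the
dual `(𝔪 I 𝔇)⁻¹`, and it is periodic in `z`.
-/

set_option autoImplicit false
set_option linter.style.haveILetI false
set_option linter.unusedSectionVars false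

noncomputable section

open NumberField InfinitePlace Complex Module
open scoped Real nonZeroDivisors Classical

namespace FA.HeckeCharFE

open FA.HeckeFE (dualIdeal normR normR_pos scale scale_pos weight weight_pos expo qform unitPow
  summable_theta qform_weight_add_ofInt expo_add_ofInt prod_sqrt_weight inv_weight RestPlace
  continuous_qform qform_mono finrankR_pos ofInt continuous_weight absDiscr_pos)

variable {K : Type*} [Field K] [NumberField K]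

/-- `log N 𝔪`. -/
def logLevel (𝔪 : Ideal (𝓞 K)) : ℝ := Real.log (Ideal.absNorm 𝔪 : ℝ)

theorem absNorm_pos' {𝔪 : Ideal (𝓞 K)} (h : 𝔪 ≠ ⊥) : (0 : ℝ) < (Ideal.absNorm 𝔪 : ℝ) :=
  Nat.cast_pos.2 (Nat.pos_of_ne_zero fun h0 => h (Ideal.absNorm_eq_zero_iff.1 h0))

/-- The weights carrying the conductor. -/
def wt (𝔪 : Ideal (𝓞 K)) (I : (FractionalIdeal (𝓞 K)⁰ K)ˣ) (L : ℝ) (z : RestPlace K → ℝ) :
    InfinitePlace K → ℝ :=
  weight I (L - logLevel 𝔪) z

theorem wt_pos (𝔪 : Ideal (𝓞 K)) (I : (FractionalIdeal (𝓞 K)⁰ K)ˣ) (L : ℝ) (z : RestPlace K → ℝ)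
    (w : InfinitePlace K) : 0 < wt 𝔪 I L z w :=
  weight_pos I _ z w

theorem continuous_wt (𝔪 : Ideal (𝓞 K)) (I : (FractionalIdeal (𝓞 K)⁰ K)ˣ) (w : InfinitePlace K) :
    Continuous fun p : ℝ × (RestPlace K → ℝ) => wt 𝔪 I p.1 p.2 w :=
  (continuous_weight I w).comp (by fun_prop : Continuous fun p : ℝ × (RestPlace K → ℝ) =>
    (p.1 - logLevel 𝔪, p.2))

theorem normR_mul_modUnit {𝔪 : Ideal (𝓞 K)} (h : 𝔪 ≠ ⊥) (I : (FractionalIdeal (𝓞 K)⁰ K)ˣ) :
    normR (I * modUnit 𝔪) = normR I * (Ideal.absNorm 𝔪 : ℝ) := by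
  rw [normR, normR, Units.val_mul, map_mul, coe_modUnit h, FractionalIdeal.coeIdeal_absNorm]
  push_cast
  ring

theorem wt_eq {𝔪 : Ideal (𝓞 K)} (h : 𝔪 ≠ ⊥) (I : (FractionalIdeal (𝓞 K)⁰ K)ˣ) (L : ℝ)
    (z : RestPlace K → ℝ) :
    weight (I * modUnit 𝔪) (L + logLevel 𝔪) z = wt 𝔪 I L z := by
  funext w
  have hN := absNorm_pos' h
  have hI := normR_pos I
  have hd := absDiscr_pos (K := K)
  have hs : scale (I * modUnit 𝔪) =
      scale I * Real.exp (-(2 * logLevel 𝔪) / (finrank ℚ K : ℝ)) := by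
    rw [scale, scale, normR_mul_modUnit h, mul_pow, mul_right_comm,
      Real.mul_rpow (by positivity) (by positivity), Real.rpow_def_of_pos (pow_pos hN 2), Real.log_pow,
      logLevel]
    push_cast
    ring_nf
  rw [wt, weight, weight, hs, mul_assoc, ← Real.exp_add]
  congr 2
  simp only [expo]
  ring

theorem wt_dual {𝔪 : Ideal (𝓞 K)} (h : 𝔪 ≠ ⊥) (I : (FractionalIdeal (𝓞 K)⁰ K)ˣ) (L : ℝ)
    (z : RestPlace K → ℝ) :
    (fun w => (wt 𝔪 I L z w)⁻¹) = wt 𝔪 (dualAt 𝔪 I) (-L) (-z) := by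
  funext w
  rw [← wt_eq h, inv_weight, wt, neg_add, ← sub_eq_add_neg]
  rfl

/-- **The theta series of a character.** -/
def charTheta (𝔪 : Ideal (𝓞 K)) (f : Ideal (𝓞 K) →* ℂ) (S : Finset (InfinitePlace K))
    (I : (FractionalIdeal (𝓞 K)⁰ K)ˣ) (y : InfinitePlace K → ℝ) : ℂ :=
  ∑' x : (I : Set K), res 𝔪 f S I x * (cterm S y x : ℂ)

/-- **The root number**, `(-i)^|S| gaussW / √N 𝔪`. -/
def rootC (𝔪 : Ideal (𝓞 K)) (f : Ideal (𝓞 K) →* ℂ) (S : Finset (InfinitePlace K)) : ℂ :=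
  (-I) ^ S.card * gaussW 𝔪 f S / ((√(Ideal.absNorm 𝔪 : ℝ) : ℝ) : ℂ)

theorem continuous_cterm (S : Finset (InfinitePlace K)) (x : K) :
    Continuous fun y : InfinitePlace K → ℝ => cterm S y x :=
  (continuous_finsetProd _ fun w _ => ((continuous_apply w).sqrt).mul continuous_const).mul
    (Real.continuous_exp.comp ((continuous_qform x).const_smul (-π)))

namespace HasSigns

variable {𝔪 : Ideal (𝓞 K)} {f : Ideal (𝓞 K) →* ℂ} {S : Finset (InfinitePlace K)}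
  (h : HasSigns 𝔪 f S) (I : (FractionalIdeal (𝓞 K)⁰ K)ˣ)

include h

theorem norm_thetaTerm_le {y : InfinitePlace K → ℝ} (hy : ∀ w, 0 ≤ y w) (x : K) :
    ‖res 𝔪 f S I x * (cterm S y x : ℂ)‖ ≤ Real.exp (-π * qform (fun w => y w / 2) x) := by
  rw [norm_mul, norm_real, Real.norm_eq_abs]
  exact (mul_le_of_le_one_left (abs_nonneg _) (h.norm_res_le I x)).trans (abs_cterm_le S hy x)

theorem summable_thetaTerm {y : InfinitePlace K → ℝ} (hy : ∀ w, 0 < y w) :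
    Summable fun x : (I : Set K) => res 𝔪 f S I x * (cterm S y x : ℂ) :=
  Summable.of_norm_bounded (summable_theta I fun w => half_pos (hy w)) fun x =>
    h.norm_thetaTerm_le I (fun w => (hy w).le) x

theorem continuousOn_charTheta :
    ContinuousOn (charTheta 𝔪 f S I) {y : InfinitePlace K → ℝ | ∀ w, 0 < y w} := by
  intro y₀ hy₀
  refine ContinuousAt.continuousWithinAt ?_
  have hU : IsOpen {y : InfinitePlace K → ℝ | ∀ w, y₀ w / 2 < y w} := by
    simp only [Set.ofPred_forall]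
    exact isOpen_iInter_of_finite fun w => isOpen_lt continuous_const (continuous_apply w)
  refine ContinuousOn.continuousAt ?_ (hU.mem_nhds fun w => half_lt_self (hy₀ w))
  refine continuousOn_tsum
    (fun x => (continuous_const.mul (continuous_ofReal.comp (continuous_cterm S (x : K)))).continuousOn)
    (summable_theta I (y := fun w => y₀ w / 2 / 2) fun w => half_pos (half_pos (hy₀ w)))
    fun x y hy => ?_
  refine (h.norm_thetaTerm_le I (fun w => le_of_lt ((half_pos (hy₀ w)).trans (hy w))) x).trans ?_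
  exact Real.exp_le_exp.2 (mul_le_mul_of_nonpos_left
    (qform_mono (fun w => div_le_div_of_nonneg_right (hy w).le zero_le_two) _)
    (neg_nonpos.2 Real.pi_pos.le))

theorem continuous_charTheta_wt :
    Continuous fun p : ℝ × (RestPlace K → ℝ) => charTheta 𝔪 f S I (wt 𝔪 I p.1 p.2) :=
  (h.continuousOn_charTheta I).comp_continuous (continuous_pi fun w => continuous_wt 𝔪 I w)
    fun p => wt_pos 𝔪 I p.1 p.2

theorem mem_modUnit_iff (m : K) :
    m ∈ ((I * modUnit 𝔪 : (FractionalIdeal (𝓞 K)⁰ K)ˣ) : Set K) ↔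
      m ∈ (I : FractionalIdeal (𝓞 K)⁰ K) * (𝔪 : FractionalIdeal (𝓞 K)⁰ K) := by
  show m ∈ ((I * modUnit 𝔪 : (FractionalIdeal (𝓞 K)⁰ K)ˣ) : FractionalIdeal (𝓞 K)⁰ K) ↔ _
  rw [Units.val_mul, coe_modUnit h.ne_bot]

theorem mem_of_mem_modUnit {m : K}
    (hm : m ∈ ((I * modUnit 𝔪 : (FractionalIdeal (𝓞 K)⁰ K)ˣ) : Set K)) : m ∈ (I : Set K) :=
  (mul_le_mul' le_rfl FractionalIdeal.coeIdeal_le_one).trans (mul_one _).le
    ((h.mem_modUnit_iff I m).1 hm)

/-- `I` is the union of the cosets of `𝔪 I` at the representatives. -/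
theorem exists_coset_equiv :
    ∃ E : (𝓞 K ⧸ 𝔪) × ((I * modUnit 𝔪 : (FractionalIdeal (𝓞 K)⁰ K)ˣ) : Set K) ≃ (I : Set K),
      ∀ p, (E p : K) = cosetRep 𝔪 I p.1 + p.2 := by
  obtain ⟨hγ, -, -, hcop⟩ := intIdeal_spec 𝔪 I
  obtain ⟨heJ, he1, -⟩ := unitElt_spec h.ne_bot I
  set φ : (𝓞 K ⧸ 𝔪) × ((I * modUnit 𝔪 : (FractionalIdeal (𝓞 K)⁰ K)ˣ) : Set K) → (I : Set K) :=
    fun p => ⟨cosetRep 𝔪 I p.1 + p.2, Submodule.add_mem
      ((I : FractionalIdeal (𝓞 K)⁰ K) : Submodule (𝓞 K) K) (h.cosetRep_mem I p.1)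
      (h.mem_of_mem_modUnit I p.2.2)⟩
  refine ⟨Equiv.ofBijective φ ⟨?_, fun x => ?_⟩, fun p => rfl⟩
  · rintro ⟨b, m⟩ ⟨b', m'⟩ he
    have he' : cosetRep 𝔪 I b + m = cosetRep 𝔪 I b' + m' := congrArg Subtype.val he
    obtain ⟨d, hd, hde⟩ := (mem_mul_iff (𝔪 := 𝔪) 𝔪).1 ((h.mem_modUnit_iff I _).1
      (Submodule.sub_mem ((I * modUnit 𝔪 : (FractionalIdeal (𝓞 K)⁰ K)ˣ) :
        FractionalIdeal (𝓞 K)⁰ K).val m'.2 m.2))
    have hd' : d = unitElt 𝔪 I * b.out - unitElt 𝔪 I * b'.out := RingOfIntegers.ext (by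
      rw [hde, show (m' : K) - m = cosetRep 𝔪 I b - cosetRep 𝔪 I b' by linear_combination -he',
        cosetRep, cosetRep, ← mul_sub, mul_inv_cancel_left₀ hγ]
      push_cast
      rfl)
    have hb : b = b' := by
      rw [← Ideal.Quotient.mk_out b, ← Ideal.Quotient.mk_out b', Ideal.Quotient.eq,
        show b.out - b'.out = d - (unitElt 𝔪 I - 1) * (b.out - b'.out) by rw [hd']; ring]
      exact 𝔪.sub_mem (Ideal.mul_le_right hd) (𝔪.mul_mem_right _ he1)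
    subst hb
    exact Prod.ext rfl (Subtype.ext (add_left_cancel he'))
  · obtain ⟨hx, hxJ⟩ := toInt_spec 𝔪 x.2
    set b : 𝓞 K ⧸ 𝔪 := Ideal.Quotient.mk 𝔪 (toInt 𝔪 I x)
    have hb : b.out - toInt 𝔪 I x ∈ 𝔪 := Ideal.Quotient.eq.1 (Ideal.Quotient.mk_out b)
    have hm : (x : K) - cosetRep 𝔪 I b ∈
        (I : FractionalIdeal (𝓞 K)⁰ K) * (𝔪 : FractionalIdeal (𝓞 K)⁰ K) := by
      refine (mem_mul_iff (𝔪 := 𝔪) 𝔪).2 ⟨toInt 𝔪 I x - unitElt 𝔪 I * b.out, ?_, ?_⟩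
      · rw [Ideal.mul_eq_inf_of_coprime (hcop h.ne_bot)]
        refine ⟨(intIdeal 𝔪 I).sub_mem hxJ (Ideal.mul_mem_right _ _ heJ), ?_⟩
        rw [show toInt 𝔪 I x - unitElt 𝔪 I * b.out =
          -((b.out - toInt 𝔪 I x) + (unitElt 𝔪 I - 1) * b.out) by ring]
        exact 𝔪.neg_mem (𝔪.add_mem hb (𝔪.mul_mem_right _ he1))
      · rw [cosetRep, mul_sub, mul_inv_cancel_left₀ hγ, ← hx]
        push_cast
        rfl
    exact ⟨(b, ⟨_, (h.mem_modUnit_iff I _).2 hm⟩), Subtype.ext (add_sub_cancel _ _)⟩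

/-- **The transformation.** -/
theorem charTheta_transform (hp : IsPrimitiveChar 𝔪 f) {y : InfinitePlace K → ℝ}
    (hy : ∀ w, 0 < y w) :
    charTheta 𝔪 f S I y =
      (((normR (I * modUnit 𝔪) * √|((discr K : ℤ) : ℝ)| * ∏ w, √(y w) ^ mult w)⁻¹ : ℝ) : ℂ) *
        (-Complex.I) ^ S.card * gaussW 𝔪 f S *
          charTheta 𝔪 (conjChar f) S (dualAt 𝔪 I) (fun w => (y w)⁻¹) := by
  haveI : Finite (𝓞 K ⧸ 𝔪) := Ideal.finiteQuotientOfFreeOfNeBot 𝔪 h.ne_bot
  haveI : Fintype (𝓞 K ⧸ 𝔪) := Fintype.ofFinite _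
  obtain ⟨E, hE⟩ := h.exists_coset_equiv I
  have hsum : Summable fun p : (𝓞 K ⧸ 𝔪) × ((I * modUnit 𝔪 : (FractionalIdeal (𝓞 K)⁰ K)ˣ) : Set K) =>
      res 𝔪 f S I (E p) * (cterm S y (E p) : ℂ) :=
    (E.summable_iff (f := fun x : (I : Set K) => res 𝔪 f S I x * (cterm S y x : ℂ))).2
      (h.summable_thetaTerm I hy)
  have hres : ∀ p, res 𝔪 f S I (E p) = res 𝔪 f S I (cosetRep 𝔪 I p.1) := fun p => by
    rw [hE]
    refine h.res_congr I (hE p ▸ (E p).2) (h.cosetRep_mem I p.1) ?_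
    rw [add_sub_cancel_left]
    exact (h.mem_modUnit_iff I _).1 p.2.2
  rw [charTheta, ← E.tsum_eq, hsum.tsum_prod, tsum_fintype]
  simp only [hres]
  simp only [hE, tsum_mul_left, coset_transform (S := S) h.real hy (I * modUnit 𝔪)]
  rw [charTheta, ← tsum_mul_left]
  set C : ℂ := (((normR (I * modUnit 𝔪) * √|((discr K : ℤ) : ℝ)| *
    ∏ w, √(y w) ^ mult w)⁻¹ : ℝ) : ℂ) * (-Complex.I) ^ S.card
  have hs : ∀ a : K, Summable fun z : (dualIdeal (I * modUnit 𝔪) : Set K) =>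
      trChar ((z : K) * a) * (cterm S (fun w => (y w)⁻¹) z : ℂ) := fun a => by
    refine Summable.of_norm_bounded (summable_theta (dualIdeal (I * modUnit 𝔪))
      fun w => half_pos (inv_pos.2 (hy w))) fun z => ?_
    rw [norm_mul, norm_trChar, one_mul, norm_real, Real.norm_eq_abs]
    exact abs_cterm_le S (fun w => (inv_pos.2 (hy w)).le) _
  simp only [← tsum_mul_left]
  rw [← Summable.tsum_finsetSum fun b _ => ((hs _).mul_left C).mul_left _]
  refine tsum_congr fun z => ?_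
  have hg := h.gauss_coset I hp (z := (z : K)) z.2
  rw [tsum_fintype] at hg
  calc ∑ b, res 𝔪 f S I (cosetRep 𝔪 I b) *
        (C * (trChar ((z : K) * cosetRep 𝔪 I b) * (cterm S (fun w => (y w)⁻¹) z : ℂ)))
      = C * (∑ b, res 𝔪 f S I (cosetRep 𝔪 I b) * trChar ((z : K) * cosetRep 𝔪 I b)) *
          (cterm S (fun w => (y w)⁻¹) z : ℂ) := by
        rw [Finset.mul_sum, Finset.sum_mul]
        exact Finset.sum_congr rfl fun b _ => by ring
    _ = _ := by rw [hg]; ring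

theorem charTheta_wt_transform (hp : IsPrimitiveChar 𝔪 f) (L : ℝ) (z : RestPlace K → ℝ) :
    charTheta 𝔪 f S I (wt 𝔪 I L z) = rootC 𝔪 f S * (Real.exp (-L / 2) : ℂ) *
      charTheta 𝔪 (conjChar f) S (dualAt 𝔪 I) (wt 𝔪 (dualAt 𝔪 I) (-L) (-z)) := by
  rw [h.charTheta_transform I hp (wt_pos 𝔪 I L z), wt_dual h.ne_bot, ← wt_eq h.ne_bot I L z,
    prod_sqrt_weight, rootC]
  have hN := absNorm_pos' h.ne_bot
  have h1 : Real.exp ((L + logLevel 𝔪) / 2) = Real.exp (L / 2) * √(Ideal.absNorm 𝔪 : ℝ) := by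
    rw [add_div, Real.exp_add, Real.exp_half (logLevel 𝔪), logLevel, Real.exp_log hN]
  rw [h1, mul_inv, neg_div, Real.exp_neg]
  push_cast
  ring

theorem cterm_wt_add (L : ℝ) (z : RestPlace K → ℝ) (m : RestPlace K → ℤ) (x : K) :
    (cterm S (wt 𝔪 I L (z + ofInt m)) x : ℂ) = sgnS S ((unitPow m : 𝓞 K) : K) *
      (cterm S (wt 𝔪 I L z) (((unitPow m : 𝓞 K) : K) * x) : ℂ) := by
  set u : K := ((unitPow m : 𝓞 K) : K)
  have hu : ∀ w : InfinitePlace K, 0 < w u := fun w => pos_iff.2 (Units.coe_ne_zero _)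
  have hw : ∀ w ∈ S, √(wt 𝔪 I L (z + ofInt m) w) * rv w x =
      √(wt 𝔪 I L z w) * rv w x * w u := fun w _ => by
    rw [wt, wt, weight, weight, expo_add_ofInt, Real.exp_add, two_mul (Real.log _), Real.exp_add,
      Real.exp_log (hu w), ← mul_assoc (scale I), Real.sqrt_mul (by have := scale_pos I; positivity),
      Real.sqrt_mul_self (hu w).le]
    ring
  rw [cterm, cterm, wt, qform_weight_add_ofInt, ofReal_mul, ofReal_mul, ← wt, ← mul_assoc]
  congr 1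
  rw [Finset.prod_congr rfl hw, Finset.prod_mul_distrib, ofReal_mul, ← sgnS_mul_prod h.real u]
  rw [Finset.prod_congr rfl fun w hwS =>
    show √(wt 𝔪 I L z w) * rv w (u * x) = √(wt 𝔪 I L z w) * rv w x * rv w u by
      rw [rv_mul (h.real w hwS)]; ring, Finset.prod_mul_distrib (g := fun w => rv w u), ofReal_mul]
  ring

theorem charTheta_periodic (L : ℝ) (z : RestPlace K → ℝ) (m : RestPlace K → ℤ) :
    charTheta 𝔪 f S I (wt 𝔪 I L (z + ofInt m)) = charTheta 𝔪 f S I (wt 𝔪 I L z) := by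
  rw [charTheta, charTheta, ← (FA.HeckeFE.unitPerm I (unitPow m)).tsum_eq
    fun x => res 𝔪 f S I x * (cterm S (wt 𝔪 I L z) (x : K) : ℂ)]
  refine tsum_congr fun x => ?_
  show _ = res 𝔪 f S I (((unitPow m : 𝓞 K) : K) * (x : K)) *
    (cterm S (wt 𝔪 I L z) (((unitPow m : 𝓞 K) : K) * (x : K)) : ℂ)
  rw [h.cterm_wt_add I, h.res_unit_mul I x.2]
  ring

end HasSigns

end FA.HeckeCharFE
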