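import Fermat.Agent.HeckeCharFE.Orbit
import Fermat.Agent.HeckeFE.Classes

/-!
# Unfolding

The Mellin transform of `charKern f I - constTerm` at `σ` is
`(N 𝔪)^σ (Γℝ (2σ + 1) / Γℝ (2σ))^|S| gamFac (2σ) / (2^r R / 2)` times the sum of
`f ((a) I⁻¹) (|N a| / N I)^(-2σ)` over representatives `a` of `I \ 0` modulo the fundamental units.
-/

set_option autoImplicit false
set_option linter.style.haveILetI false
set_option linter.unusedSectionVars false

noncomputable section

open NumberField InfinitePlace Module MeasureTheory Set Complex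
open scoped Real nonZeroDivisors Classical ENNReal

namespace FA.HeckeCharFE

open FA.HeckeFE (weight weight_pos RestPlace cube measurableSet_cube strip measurableSet_strip NZ Rep
  unfoldEquiv hasSum_strip volume_restrict_strip_zero ratio ratio_pos gamFac jac unitPow
  integrable_tsum_of_norm ofReal_cpow_eq_exp ofInt)

variable {K : Type*} [Field K] [NumberField K]

/-- `f ((x) I⁻¹)`. -/
def coefAt (𝔪 : Ideal (𝓞 K)) (f : Ideal (𝓞 K) →* ℂ) (S : Finset (InfinitePlace K))
    (I : (FractionalIdeal (𝓞 K)⁰ K)ˣ) (x : K) : ℂ :=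
  res 𝔪 f S I x * sgnS S x

/-- The Dirichlet series of the ideal over the fundamental cone. -/
def charCone (𝔪 : Ideal (𝓞 K)) (f : Ideal (𝓞 K) →* ℂ) (S : Finset (InfinitePlace K))
    (I : (FractionalIdeal (𝓞 K)⁰ K)ˣ) (s : ℂ) : ℂ :=
  ∑' a : Rep I, coefAt 𝔪 f S I a.1 * (ratio I a.1 : ℂ) ^ (-s)

/-- The Gamma factors of one orbit. -/
def orbitFac (K : Type*) [Field K] [NumberField K] (S : Finset (InfinitePlace K)) (σ : ℂ) : ℂ :=
  (Gammaℝ (2 * σ + 1) / Gammaℝ (2 * σ)) ^ S.card * gamFac K (2 * σ) / (jac K : ℂ)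

namespace HasSigns

variable {𝔪 : Ideal (𝓞 K)} {f : Ideal (𝓞 K) →* ℂ} {S : Finset (InfinitePlace K)}
  (h : HasSigns 𝔪 f S) (I : (FractionalIdeal (𝓞 K)⁰ K)ˣ) {σ : ℂ}

include h

theorem norm_coefAt_le {x : K} (hx : x ≠ 0) : ‖coefAt 𝔪 f S I x‖ ≤ 1 := by
  rw [coefAt, norm_mul, norm_sgnS h.real hx, mul_one]
  exact h.norm_res_le I x

theorem thetaTerm_eq {x : K} (hx : x ≠ 0) (y : InfinitePlace K → ℝ) :
    res 𝔪 f S I x * (cterm S y x : ℂ) = coefAt 𝔪 f S I x * (absTerm S y x : ℂ) := by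
  rw [coefAt, absTerm_eq h.real]
  calc res 𝔪 f S I x * (cterm S y x : ℂ)
      = res 𝔪 f S I x * (sgnS S x * sgnS S x) * (cterm S y x : ℂ) := by
        rw [sgnS_sq h.real hx, mul_one]
    _ = _ := by ring

theorem coefAt_unit {x : K} (hx : x ∈ (I : Set K)) (u : (𝓞 K)ˣ) :
    coefAt 𝔪 f S I (((u : 𝓞 K) : K) * x) = coefAt 𝔪 f S I x := by
  rw [coefAt, coefAt, h.res_unit_mul I hx, sgnS_mul h.real]
  linear_combination (res 𝔪 f S I x * sgnS S x) * sgnS_sq h.real (Units.coe_ne_zero u)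

theorem orbit_unfoldMap (σ : ℂ) (a : Rep I) (m : RestPlace K → ℤ)
    (p : ℝ × (RestPlace K → ℝ)) :
    coefAt 𝔪 f S I (unfoldEquiv I (a, m)).1 * charOrbit S I σ (unfoldEquiv I (a, m)).1 p =
      coefAt 𝔪 f S I a.1 * charOrbit S I σ a.1 (p + (0, ofInt m)) := by
  show coefAt 𝔪 f S I (((unitPow m : 𝓞 K) : K) * a.1) *
    charOrbit S I σ (((unitPow m : 𝓞 K) : K) * a.1) p = _
  rw [h.coefAt_unit I a.2.1, charOrbit_unit]

theorem integral_norm_charOrbit (hσ : 0 < σ.re) (a : Rep I) :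
    ((∫ p, ‖charOrbit S I σ a.1 p‖ : ℝ) : ℂ) =
      orbitFac K S (σ.re : ℂ) * (ratio I a.1 : ℂ) ^ (-(2 * (σ.re : ℂ))) := by
  have hi := (integral_charOrbit S I h.real (σ := (σ.re : ℂ)) (by simpa using hσ)
    (Rep.ne_zero I a)).2
  rw [← integral_complex_ofReal]
  refine Eq.trans (integral_congr_ae (Filter.Eventually.of_forall fun p => ?_))
    (hi.trans (by rw [orbitFac]; ring))
  show ((‖charOrbit S I σ a.1 p‖ : ℝ) : ℂ) = charOrbit S I (σ.re : ℂ) a.1 p
  rw [norm_charOrbit, charOrbit, ofReal_mul, ofReal_exp, ofReal_mul]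

theorem summable_integral_norm_strip (hσ : 0 < σ.re)
    (hsum : Summable fun a : Rep I => ratio I a.1 ^ (-(2 * σ.re))) :
    Summable fun x : NZ I => ∫ p in strip K 0, ‖coefAt 𝔪 f S I x.1 * charOrbit S I σ x.1 p‖ := by
  rw [← (unfoldEquiv I).summable_iff]
  have hfib : ∀ a : Rep I, HasSum (fun m : RestPlace K → ℤ =>
      ∫ p in strip K 0, ‖coefAt 𝔪 f S I (unfoldEquiv I (a, m)).1 *
        charOrbit S I σ (unfoldEquiv I (a, m)).1 p‖)
      (∫ p, ‖coefAt 𝔪 f S I a.1 * charOrbit S I σ a.1 p‖) := fun a => by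
    simpa only [h.orbit_unfoldMap I] using
      hasSum_strip ((integral_charOrbit S I h.real hσ (Rep.ne_zero I a)).1.const_mul _).norm
  refine (summable_prod_of_nonneg fun p => integral_nonneg fun _ => norm_nonneg _).2
    ⟨fun a => (hfib a).summable, ?_⟩
  simp only [(hfib _).tsum_eq]
  refine Summable.of_nonneg_of_le (fun a => integral_nonneg fun _ => norm_nonneg _) (fun a => ?_)
    (hsum.mul_left ‖orbitFac K S (σ.re : ℂ)‖)
  simp only [norm_mul, integral_const_mul]
  refine (mul_le_of_le_one_left (integral_nonneg fun _ => norm_nonneg _)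
    (h.norm_coefAt_le I (Rep.ne_zero I a))).trans_eq ?_
  have hn := congrArg (fun z : ℂ => ‖z‖) (h.integral_norm_charOrbit I hσ a)
  rwa [norm_real, Real.norm_of_nonneg (integral_nonneg fun _ => norm_nonneg _), norm_mul,
    show (-(2 * (σ.re : ℂ))) = ((-(2 * σ.re) : ℝ) : ℂ) by push_cast; ring,
    norm_cpow_eq_rpow_re_of_pos (ratio_pos I (Rep.ne_zero I a)), ofReal_re] at hn

/-- **Unfolding.** -/
theorem tsum_integral_strip (hσ : 0 < σ.re)
    (hsum : Summable fun a : Rep I => ratio I a.1 ^ (-(2 * σ.re))) :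
    ∑' x : NZ I, ∫ p in strip K 0, coefAt 𝔪 f S I x.1 * charOrbit S I σ x.1 p =
      orbitFac K S σ * charCone 𝔪 f S I (2 * σ) := by
  have hS : Summable fun x : NZ I => ∫ p in strip K 0, coefAt 𝔪 f S I x.1 * charOrbit S I σ x.1 p :=
    Summable.of_norm (Summable.of_nonneg_of_le (fun x => norm_nonneg _)
      (fun x => norm_integral_le_integral_norm _) (h.summable_integral_norm_strip I hσ hsum))
  have hS' : Summable fun c : Rep I × (RestPlace K → ℤ) => ∫ p in strip K 0,
      coefAt 𝔪 f S I (unfoldEquiv I c).1 * charOrbit S I σ (unfoldEquiv I c).1 p :=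
    (unfoldEquiv I).summable_iff.2 hS
  rw [← (unfoldEquiv I).tsum_eq, hS'.tsum_prod, charCone, ← tsum_mul_left]
  refine tsum_congr fun a => ?_
  simp only [h.orbit_unfoldMap I]
  have hi := integral_charOrbit S I h.real hσ (Rep.ne_zero I a)
  rw [(hasSum_strip (hi.1.const_mul (coefAt 𝔪 f S I a.1))).tsum_eq, integral_const_mul, hi.2, orbitFac]
  ring

theorem tsum_charOrbit_eq (σ : ℂ) (p : ℝ × (RestPlace K → ℝ)) :
    ∑' x : NZ I, coefAt 𝔪 f S I x.1 * charOrbit S I σ x.1 p =
      cexp (σ * p.1) * (charTheta 𝔪 f S I (weight I p.1 p.2) - constTerm 𝔪 f S I) := by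
  rw [h.charTheta_eq_add I (weight_pos I p.1 p.2), add_sub_cancel_left, ← tsum_mul_left]
  exact tsum_congr fun x => by rw [h.thetaTerm_eq I x.2.2, charOrbit]; ring

/-- **The Mellin transform of the kernel.** -/
theorem mellin_charKern (hσ : 0 < σ.re)
    (hsum : Summable fun a : Rep I => ratio I a.1 ^ (-(2 * σ.re))) :
    mellin (fun τ => charKern 𝔪 f S I τ - constTerm 𝔪 f S I) σ =
      (((Ideal.absNorm 𝔪 : ℝ)) : ℂ) ^ σ * (orbitFac K S σ * charCone 𝔪 f S I (2 * σ)) := by
  set Q : ℝ → ℂ := fun L => cexp (σ * L) *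
    ∫ z in cube K, (charTheta 𝔪 f S I (weight I L z) - constTerm 𝔪 f S I) with hQ
  have h1 : mellin (fun τ => charKern 𝔪 f S I τ - constTerm 𝔪 f S I) σ =
      cexp (σ * (logLevel 𝔪 : ℂ)) * ∫ L : ℝ, Q L := by
    rw [mellin, show Ioi (0 : ℝ) = Real.exp '' univ by rw [image_univ, Real.range_exp],
      integral_image_eq_integral_abs_deriv_smul MeasurableSet.univ
        (fun x _ => (Real.hasDerivAt_exp x).hasDerivWithinAt) Real.exp_injective.injOn,
      setIntegral_univ, ← integral_sub_right_eq_self Q (logLevel 𝔪), ← integral_const_mul]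
    refine integral_congr_ae (Filter.Eventually.of_forall fun L => ?_)
    simp only [abs_of_pos (Real.exp_pos L), real_smul, smul_eq_mul, hQ]
    rw [ofReal_cpow_eq_exp (Real.exp_pos L), Real.log_exp, ← mul_assoc, ofReal_exp, ← Complex.exp_add,
      ← mul_assoc, ← Complex.exp_add, h.charKern_sub, Real.log_exp]
    congr 1
    · congr 1
      push_cast
      ring
    · exact setIntegral_congr_fun measurableSet_cube fun z _ => by
        simp only [wt, h.charTheta_eq_add I (weight_pos I (L - logLevel 𝔪) z),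
          add_sub_cancel_left]
  set ν := (volume : Measure (RestPlace K → ℝ)).restrict (cube K)
  have hint : ∀ x : NZ I, Integrable (fun p => coefAt 𝔪 f S I x.1 * charOrbit S I σ x.1 p)
      ((volume : Measure ℝ).prod ν) := fun x => by
    rw [← volume_restrict_strip_zero]
    exact ((integral_charOrbit S I h.real hσ x.2.2).1.const_mul _).integrableOn
  have hs : Summable fun x : NZ I =>
      ∫ p, ‖coefAt 𝔪 f S I x.1 * charOrbit S I σ x.1 p‖ ∂((volume : Measure ℝ).prod ν) := by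
    rw [← volume_restrict_strip_zero]; exact h.summable_integral_norm_strip I hσ hsum
  have hcont : Continuous fun p : ℝ × (RestPlace K → ℝ) => charTheta 𝔪 f S I (weight I p.1 p.2) :=
    (h.continuousOn_charTheta I).comp_continuous
      (continuous_pi fun w => FA.HeckeFE.continuous_weight I w) fun p => weight_pos I p.1 p.2
  have hmeas : AEStronglyMeasurable (fun p => ∑' x : NZ I,
      coefAt 𝔪 f S I x.1 * charOrbit S I σ x.1 p) ((volume : Measure ℝ).prod ν) := by
    simp only [h.tsum_charOrbit_eq I]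
    exact (Continuous.mul (by fun_prop) (hcont.sub continuous_const)).aestronglyMeasurable
  rw [h1, ← h.tsum_integral_strip I hσ hsum, volume_restrict_strip_zero,
    integral_tsum_of_summable_integral_norm hint hs,
    integral_prod _ (integrable_tsum_of_norm hint hs hmeas),
    ofReal_cpow_eq_exp (absNorm_pos' h.ne_bot), logLevel, mul_comm σ]
  congr 1
  refine integral_congr_ae (Filter.Eventually.of_forall fun L => ?_)
  show _ = ∫ z in cube K, _
  simp only [h.tsum_charOrbit_eq I, hQ]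
  rw [integral_const_mul]

/-- **The cone sum is the part of the L-series in the class of `I⁻¹`.** -/
theorem charCone_eq {s : ℂ} (hs : 1 < s.re) :
    charCone 𝔪 f S I s =
      Units.torsionOrder K * FA.Hecke.classPart f (ClassGroup.mk K I)⁻¹ s := by
  set T := {b : (Ideal (𝓞 K))⁰ // ClassGroup.mk0 b = (ClassGroup.mk K I)⁻¹}
  have hgen : ∀ b : T, ∃ a : Rep I, (b.1.1 : FractionalIdeal (𝓞 K)⁰ K) * I =
      FractionalIdeal.spanSingleton (𝓞 K)⁰ a.1 := fun b => by
    have h1 : ClassGroup.mk K (FractionalIdeal.mk0 K b.1 * I) = 1 := by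
      rw [map_mul, ClassGroup.mk_mk0, b.2, inv_mul_cancel]
    obtain ⟨x, hx⟩ := (FractionalIdeal.isPrincipal_iff _).1 (ClassGroup.mk_eq_one_iff.1 h1)
    have hx' : (b.1.1 : FractionalIdeal (𝓞 K)⁰ K) * I = FractionalIdeal.spanSingleton (𝓞 K)⁰ x := by
      rw [← hx, Units.val_mul]; rfl
    have hx0 : x ≠ 0 := fun h0 => by
      rw [h0, FractionalIdeal.spanSingleton_zero, mul_eq_zero, FractionalIdeal.coeIdeal_eq_zero] at hx'
      exact hx'.elim (nonZeroDivisors.coe_ne_zero b.1) I.ne_zero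
    have hn : mixedEmbedding.norm (mixedEmbedding K x) ≠ 0 :=
      (mixedEmbedding.norm_eq_zero_iff' (mem_range_self x)).not.2 ((map_ne_zero _).2 hx0)
    obtain ⟨u, hu⟩ := mixedEmbedding.fundamentalCone.exists_unit_smul_mem hn
    rw [FA.HeckeFE.unit_smul_mixedEmbedding] at hu
    have hspan : (b.1.1 : FractionalIdeal (𝓞 K)⁰ K) * I =
        FractionalIdeal.spanSingleton (𝓞 K)⁰ (((u : 𝓞 K) : K) * x) := by
      rw [hx', FractionalIdeal.spanSingleton_eq_spanSingleton]
      exact ⟨u, rfl⟩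
    refine ⟨⟨_, ?_, hu⟩, hspan⟩
    have hle : (b.1.1 : FractionalIdeal (𝓞 K)⁰ K) * I ≤ I :=
      (mul_le_mul' FractionalIdeal.coeIdeal_le_one le_rfl).trans (one_mul _).le
    exact hle (hspan ▸ FractionalIdeal.mem_spanSingleton_self _ _)
  choose g hg using hgen
  let φ : T × Units.torsion K → Rep I := fun p =>
    ⟨(((p.2 : (𝓞 K)ˣ) : 𝓞 K) : K) * (g p.1).1,
      (FA.HeckeFE.unitPerm I (p.2 : (𝓞 K)ˣ) ⟨(g p.1).1, (g p.1).2.1⟩).2, by
      rw [← FA.HeckeFE.unit_smul_mixedEmbedding]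
      exact mixedEmbedding.fundamentalCone.torsion_smul_mem_of_mem (g p.1).2.2 p.2.2⟩
  have hφideal : ∀ p : T × Units.torsion K, (p.1.1.1 : FractionalIdeal (𝓞 K)⁰ K) * I =
      FractionalIdeal.spanSingleton (𝓞 K)⁰ (φ p).1 := fun p => by
    rw [hg, FractionalIdeal.spanSingleton_eq_spanSingleton]
    exact ⟨(p.2 : (𝓞 K)ˣ), rfl⟩
  have hφ : Function.Bijective φ := by
    refine ⟨fun p q he => ?_, fun a => ?_⟩
    · have h1 : p.1 = q.1 := by
        have h0 := (hφideal p).trans (((congrArg (fun a : Rep I =>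
          FractionalIdeal.spanSingleton (𝓞 K)⁰ a.1) he)).trans (hφideal q).symm)
        exact Subtype.ext (Subtype.ext (FractionalIdeal.coeIdeal_injective
          (mul_right_cancel₀ I.ne_zero h0)))
      have h2 := congrArg Subtype.val he
      simp only [φ, h1] at h2
      exact Prod.ext h1 (Subtype.ext (Units.ext (RingOfIntegers.coe_injective
        (mul_right_cancel₀ (Rep.ne_zero I (g q.1)) h2))))
    · obtain ⟨A, hA⟩ := h.exists_quotient_ideal I a.2.1
      have hA0 : A ≠ ⊥ := fun h0 => by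
        rw [h0, FractionalIdeal.coeIdeal_bot, zero_mul] at hA
        exact Rep.ne_zero I a (FractionalIdeal.spanSingleton_eq_zero_iff.1 hA.symm)
      set A' : (Ideal (𝓞 K))⁰ := ⟨A, mem_nonZeroDivisors_iff_ne_zero.2 hA0⟩
      have hcl : ClassGroup.mk0 A' = (ClassGroup.mk K I)⁻¹ := by
        have hu : FractionalIdeal.mk0 K A' * I =
            toPrincipalIdeal (𝓞 K) K (Units.mk0 a.1 (Rep.ne_zero I a)) :=
          Units.ext (by rw [Units.val_mul, coe_toPrincipalIdeal]; exact hA)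
        refine eq_inv_of_mul_eq_one_left ?_
        rw [← ClassGroup.mk_mk0 K, ← map_mul, hu, FA.HeckeFE.classGroup_mk_toPrincipal]
      obtain ⟨u, hu⟩ : ∃ u : (𝓞 K)ˣ, u • (g ⟨A', hcl⟩).1 = a.1 :=
        FractionalIdeal.spanSingleton_eq_spanSingleton.1 ((hg ⟨A', hcl⟩).symm.trans hA)
      have htor : u ∈ Units.torsion K := by
        refine (mixedEmbedding.fundamentalCone.unit_smul_mem_iff_mem_torsion (g ⟨A', hcl⟩).2.2 u).1 ?_
        rw [FA.HeckeFE.unit_smul_mixedEmbedding,
          show ((u : 𝓞 K) : K) * (g ⟨A', hcl⟩).1 = a.1 from hu]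
        exact a.2.2
      exact ⟨(⟨A', hcl⟩, ⟨u, htor⟩), Subtype.ext hu⟩
  have hval : ∀ p, coefAt 𝔪 f S I (φ p).1 * (ratio I (φ p).1 : ℂ) ^ (-s) =
      FA.Hecke.lHom f s p.1.1 := fun p => by
    have hx0 := Rep.ne_zero I (φ p)
    have hn : ratio I (φ p).1 = (Ideal.absNorm (p.1.1 : Ideal (𝓞 K)) : ℝ) := by
      have h0 := congrArg FractionalIdeal.absNorm (hφideal p)
      rw [map_mul, FractionalIdeal.coeIdeal_absNorm, FractionalIdeal.absNorm_span_singleton] at h0
      have hI : FA.HeckeFE.normR I ≠ 0 := (FA.HeckeFE.normR_pos I).ne'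
      rw [ratio, ← h0, FA.HeckeFE.normR, Rat.cast_mul, mul_div_assoc,
        div_self (a := ((FractionalIdeal.absNorm (I : FractionalIdeal (𝓞 K)⁰ K) : ℚ) : ℝ)) hI,
        mul_one, Rat.cast_natCast]
    rw [coefAt, h.res_eq I (φ p).2.1 hx0 (hφideal p), mul_assoc (f _), sgnS_sq h.real hx0, mul_one, hn,
      ofReal_natCast, FA.Hecke.lHom_apply]
    rfl
  rw [charCone, ← (Equiv.ofBijective φ hφ).tsum_eq]
  simp only [Equiv.ofBijective_apply, hval]
  have hsumT : Summable fun b : T => FA.Hecke.lHom f s b.1 :=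
    (h.ray.summable_lHom hs).of_norm.comp_injective Subtype.val_injective
  have hprod : Summable fun p : T × Units.torsion K => FA.Hecke.lHom f s p.1.1 := by
    have h2 : Summable fun p : T × Units.torsion K => ‖FA.Hecke.lHom f s p.1.1‖ :=
      (summable_prod_of_nonneg fun p => norm_nonneg _).2
        ⟨fun b => Summable.of_finite, by simpa [tsum_fintype] using
          ((h.ray.summable_lHom hs).comp_injective (i := fun b : T => b.1)
            Subtype.val_injective).mul_left _⟩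
    exact h2.of_norm
  rw [hprod.tsum_prod, FA.Hecke.classPart, ← tsum_mul_left]
  exact tsum_congr fun b => by
    show ∑' _c : Units.torsion K, FA.Hecke.lHom f s b.1 = _
    rw [tsum_const, nsmul_eq_mul]
    rfl

end HasSigns

end FA.HeckeCharFE
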